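import Mathlib
import Fermat.Prelude.Def_FLTPrelim_Ramification

set_option autoImplicit false

open scoped Pointwise

namespace Fermat.Agent.S05

local notation "Qbar" => AlgebraicClosure ℚ

/-- (G1) elements of the inertia group move integral elements by elements of the maximal ideal. -/
theorem inertia_sub_lt_one (A : ValuationSubring Qbar) (σ : Qbar ≃ₐ[ℚ] Qbar)
    (hσ : σ ∈ A.inertiaSubgroupIn ℚ) (a : Qbar) (ha : A.valuation a ≤ 1) :
    A.valuation (σ a - a) < 1 := by
  obtain ⟨τ, hτ, rfl⟩ := hσ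
  have ha' : a ∈ A := (A.valuation_le_one_iff a).1 ha
  have h1 : ∀ x : IsLocalRing.ResidueField A, τ • x = x := by
    intro x
    have := congrArg (fun f : RingAut (IsLocalRing.ResidueField A) => f x)
      ((MonoidHom.mem_ker).1 hτ)
    simpa using this
  have h2 := h1 (IsLocalRing.residue A ⟨a, ha'⟩)
  rw [← IsLocalRing.ResidueField.residue_smul] at h2
  have h3 : IsLocalRing.residue A (τ • (⟨a, ha'⟩ : A) - ⟨a, ha'⟩) = 0 := by
    rw [map_sub, h2, sub_self]
  have h4 := (IsLocalRing.residue_eq_zero_iff _).1 h3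
  have h5 := (A.valuation_lt_one_iff _).1 h4
  exact h5

/-- Elements of the inertia group lie in the decomposition group, hence preserve `A`. -/
theorem inertia_mem_iff (A : ValuationSubring Qbar) (σ : Qbar ≃ₐ[ℚ] Qbar)
    (hσ : σ ∈ A.inertiaSubgroupIn ℚ) (a : Qbar) : σ a ∈ A ↔ a ∈ A := by
  obtain ⟨τ, -, rfl⟩ := hσ
  have hτ : (τ : Qbar ≃ₐ[ℚ] Qbar) ∈ A.decompositionSubgroup ℚ := τ.2
  rw [MulAction.mem_stabilizer_iff] at hτ
  constructor
  · intro h
    have h1 : (τ : Qbar ≃ₐ[ℚ] Qbar) • a ∈ (τ : Qbar ≃ₐ[ℚ] Qbar) • A := by rw [hτ]; exact h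
    exact ValuationSubring.smul_mem_pointwise_smul_iff.1 h1
  · intro h
    have h1 : (τ : Qbar ≃ₐ[ℚ] Qbar) • a ∈ (τ : Qbar ≃ₐ[ℚ] Qbar) • A :=
      ValuationSubring.smul_mem_pointwise_smul _ _ _ h
    rw [hτ] at h1
    exact h1

/-- (G2) integers prime to `q` are units at every place over `q`. -/
theorem valuation_intCast_eq_one (A : ValuationSubring Qbar) {q : ℕ} (hq : q.Prime)
    (hA : A.LiesOverPrime q) (n : ℤ) (hn : ¬ (q : ℤ) ∣ n) :
    A.valuation ((n : ℚ) : Qbar) = 1 := by
  have hqv : A.valuation (q : Qbar) < 1 := (ValuationSubring.mem_nonunits_iff A).1 hA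
  have hint : ∀ k : ℤ, A.valuation (k : Qbar) ≤ 1 := fun k =>
    (A.valuation_le_one_iff _).2 (intCast_mem A k)
  have hcop : IsCoprime (q : ℤ) n :=
    (Prime.coprime_iff_not_dvd (Nat.prime_iff_prime_int.1 hq)).2 hn
  obtain ⟨a, b, hab⟩ := hcop
  rw [Rat.cast_intCast]
  rcases lt_or_eq_of_le (hint n) with hlt | heq
  · exfalso
    have h1 : A.valuation ((a : Qbar) * (q : Qbar) + (b : Qbar) * (n : Qbar)) < 1 := by
      apply Valuation.map_add_lt
      · rw [map_mul]
        calc A.valuation (a : Qbar) * A.valuation (q : Qbar)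
            ≤ 1 * A.valuation (q : Qbar) := mul_le_mul_left (hint a) _
          _ < 1 := by rw [one_mul]; exact hqv
      · rw [map_mul]
        calc A.valuation (b : Qbar) * A.valuation (n : Qbar)
            ≤ 1 * A.valuation (n : Qbar) := mul_le_mul_left (hint b) _
          _ < 1 := by rw [one_mul]; exact hlt
    have h2 : ((a : Qbar) * (q : Qbar) + (b : Qbar) * (n : Qbar)) = 1 := by
      have := congrArg (fun z : ℤ => (z : Qbar)) hab
      push_cast at this
      exact this
    rw [h2, map_one] at h1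
    exact lt_irrefl _ h1
  · exact heq

/-- (G3) the valuation of a nonzero integer is a power of the valuation of `q`. -/
theorem valuation_intCast_pow (A : ValuationSubring Qbar) {q : ℕ} (hq : q.Prime)
    (hA : A.LiesOverPrime q) (t : ℤ) (ht : t ≠ 0) :
    ∃ m : ℕ, A.valuation ((t : ℚ) : Qbar) = A.valuation ((q : ℚ) : Qbar) ^ m := by
  have hq' : Prime (q : ℤ) := Nat.prime_iff_prime_int.1 hq
  have hfin : FiniteMultiplicity (q : ℤ) t :=
    FiniteMultiplicity.of_prime_left hq' ht
  obtain ⟨c, hc, hnd⟩ := hfin.exists_eq_pow_mul_and_not_dvd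
  refine ⟨multiplicity (q : ℤ) t, ?_⟩
  have h1 := valuation_intCast_eq_one A hq hA c hnd
  rw [Rat.cast_intCast] at h1 ⊢
  rw [Rat.cast_natCast]
  have h2 : (t : Qbar) = (q : Qbar) ^ (multiplicity (q : ℤ) t) * (c : Qbar) := by
    have := congrArg (fun z : ℤ => (z : Qbar)) hc
    push_cast at this
    exact this
  rw [h2, map_mul, map_pow, h1, mul_one]

end Fermat.Agent.S05
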