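import Mathlib

set_option autoImplicit false

open WeierstrassCurve WeierstrassCurve.Affine WeierstrassCurve.Affine.Point

namespace Fermat.Agent.S05

variable {K : Type*} [Field K]

/-- The short model attached to `W : y² + xy = x³ + a₂x² + a₄x` and a shift `e`. -/
def shiftCurve (W : WeierstrassCurve.Affine K) (e : K) : WeierstrassCurve.Affine K :=
  { a₁ := 0
    a₂ := 3 * e + (4 * W.a₂ + 1)
    a₃ := 0
    a₄ := 3 * e ^ 2 + 2 * (4 * W.a₂ + 1) * e + 16 * W.a₄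
    a₆ := e ^ 3 + (4 * W.a₂ + 1) * e ^ 2 + 16 * W.a₄ * e }

@[simp] lemma shiftCurve_a₁ (W : WeierstrassCurve.Affine K) (e : K) : (shiftCurve W e).a₁ = 0 := rfl
@[simp] lemma shiftCurve_a₂ (W : WeierstrassCurve.Affine K) (e : K) :
    (shiftCurve W e).a₂ = 3 * e + (4 * W.a₂ + 1) := rfl
@[simp] lemma shiftCurve_a₃ (W : WeierstrassCurve.Affine K) (e : K) : (shiftCurve W e).a₃ = 0 := rfl
@[simp] lemma shiftCurve_a₄ (W : WeierstrassCurve.Affine K) (e : K) :
    (shiftCurve W e).a₄ = 3 * e ^ 2 + 2 * (4 * W.a₂ + 1) * e + 16 * W.a₄ := rfl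
@[simp] lemma shiftCurve_a₆ (W : WeierstrassCurve.Affine K) (e : K) :
    (shiftCurve W e).a₆ = e ^ 3 + (4 * W.a₂ + 1) * e ^ 2 + 16 * W.a₄ * e := rfl

section

variable (W : WeierstrassCurve.Affine K) (h₁ : W.a₁ = 1) (h₃ : W.a₃ = 0) (h₆ : W.a₆ = 0) (e : K)

include h₁ h₃ h₆

lemma shift_equation {x y : K} (h : W.Equation x y) :
    (shiftCurve W e).Equation (4 * x - e) (8 * y + 4 * x) := by
  rw [equation_iff] at h ⊢
  simp only [shiftCurve_a₁, shiftCurve_a₂, shiftCurve_a₃, shiftCurve_a₄, shiftCurve_a₆]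
  rw [h₁, h₃, h₆] at h
  linear_combination 64 * h

lemma shift_equation_iff (h2 : (2 : K) ≠ 0) {x y : K} :
    (shiftCurve W e).Equation (4 * x - e) (8 * y + 4 * x) ↔ W.Equation x y := by
  refine ⟨fun h => ?_, shift_equation W h₁ h₃ h₆ e⟩
  rw [equation_iff] at h ⊢
  simp only [shiftCurve_a₁, shiftCurve_a₂, shiftCurve_a₃, shiftCurve_a₄, shiftCurve_a₆] at h
  rw [h₁, h₃, h₆]
  have h64 : (64 : K) ≠ 0 := by
    have : (64 : K) = 2 ^ 6 := by norm_num
    rw [this]; exact pow_ne_zero _ h2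
  apply mul_left_cancel₀ h64
  linear_combination h

lemma shift_nonsingular (h2 : (2 : K) ≠ 0) {x y : K} (h : W.Nonsingular x y) :
    (shiftCurve W e).Nonsingular (4 * x - e) (8 * y + 4 * x) := by
  rw [nonsingular_iff'] at h ⊢
  refine ⟨shift_equation W h₁ h₃ h₆ e h.1, ?_⟩
  simp only [shiftCurve_a₁, shiftCurve_a₂, shiftCurve_a₃, shiftCurve_a₄]
  rw [h₁, h₃] at h
  have h8 : (8 : K) ≠ 0 := by
    have : (8 : K) = 2 ^ 3 := by norm_num
    rw [this]; exact pow_ne_zero _ h2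
  have h16 : (16 : K) ≠ 0 := by
    have : (16 : K) = 2 ^ 4 := by norm_num
    rw [this]; exact pow_ne_zero _ h2
  by_cases hY : 2 * y + 1 * x + 0 = 0
  · left
    have hX := h.2.resolve_right (not_not.2 hY)
    intro hcon
    apply hX
    apply mul_left_cancel₀ h16
    linear_combination hcon + 8 * hY
  · right
    intro hcon
    apply hY
    apply mul_left_cancel₀ h8
    linear_combination hcon

omit h₆ in
lemma shift_negY (x y : K) :
    (shiftCurve W e).negY (4 * x - e) (8 * y + 4 * x) = 8 * W.negY x y + 4 * x := by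
  simp only [negY, shiftCurve_a₁, shiftCurve_a₃, h₁, h₃]
  ring

omit h₃ h₆ in
lemma shift_addX (x₁ x₂ ℓ : K) :
    (shiftCurve W e).addX (4 * x₁ - e) (4 * x₂ - e) (2 * ℓ + 1) = 4 * W.addX x₁ x₂ ℓ - e := by
  simp only [addX, shiftCurve_a₁, shiftCurve_a₂, h₁]
  ring

omit h₆ in
lemma shift_addY (x₁ x₂ y₁ ℓ : K) :
    (shiftCurve W e).addY (4 * x₁ - e) (4 * x₂ - e) (8 * y₁ + 4 * x₁) (2 * ℓ + 1) =
      8 * W.addY x₁ x₂ y₁ ℓ + 4 * W.addX x₁ x₂ ℓ := by
  simp only [addY, negAddY, negY, addX, shiftCurve_a₁, shiftCurve_a₂, shiftCurve_a₃, h₁, h₃]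
  ring

variable [DecidableEq K]

omit h₆ in
lemma shift_slope (h2 : (2 : K) ≠ 0) {x₁ x₂ y₁ y₂ : K}
    (he₁ : W.Equation x₁ y₁) (he₂ : W.Equation x₂ y₂)
    (hxy : ¬(x₁ = x₂ ∧ y₁ = W.negY x₂ y₂)) :
    (shiftCurve W e).slope (4 * x₁ - e) (4 * x₂ - e) (8 * y₁ + 4 * x₁) (8 * y₂ + 4 * x₂) =
      2 * W.slope x₁ x₂ y₁ y₂ + 1 := by
  have h4 : (4 : K) ≠ 0 := by
    have : (4 : K) = 2 ^ 2 := by norm_num
    rw [this]; exact pow_ne_zero _ h2
  have h8 : (8 : K) ≠ 0 := by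
    have : (8 : K) = 2 ^ 3 := by norm_num
    rw [this]; exact pow_ne_zero _ h2
  by_cases hx : x₁ = x₂
  · have hy : y₁ ≠ W.negY x₂ y₂ := fun hy => hxy ⟨hx, hy⟩
    subst hx
    have hy' : 8 * y₁ + 4 * x₁ ≠ (shiftCurve W e).negY (4 * x₁ - e) (8 * y₂ + 4 * x₁) := by
      rw [shift_negY W h₁ h₃ e]
      intro hcon
      apply hy
      apply mul_left_cancel₀ h8
      linear_combination hcon
    rw [slope_of_Y_ne rfl hy', slope_of_Y_ne rfl hy]
    rw [shift_negY W h₁ h₃ e]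
    simp only [shiftCurve_a₁, shiftCurve_a₂, shiftCurve_a₄, h₁]
    have hyy : y₁ = y₂ := Y_eq_of_Y_ne he₁ he₂ rfl hy
    subst hyy
    have hd : y₁ - W.negY x₁ y₁ ≠ 0 := sub_ne_zero.2 hy
    have hd' : 8 * y₁ + 4 * x₁ - (8 * W.negY x₁ y₁ + 4 * x₁) ≠ 0 := by
      intro hcon
      apply hd
      apply mul_left_cancel₀ h8
      linear_combination hcon
    rw [div_eq_iff hd']
    have key : 2 * ((3 * x₁ ^ 2 + 2 * W.a₂ * x₁ + W.a₄ - 1 * y₁) / (y₁ - W.negY x₁ y₁)) + 1 =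
        (2 * (3 * x₁ ^ 2 + 2 * W.a₂ * x₁ + W.a₄ - 1 * y₁) + (y₁ - W.negY x₁ y₁)) /
          (y₁ - W.negY x₁ y₁) := by
      field_simp
    rw [key, div_mul_eq_mul_div, eq_div_iff hd]
    simp only [negY, h₁, h₃]
    ring
  · have hx' : 4 * x₁ - e ≠ 4 * x₂ - e := by
      intro hcon
      apply hx
      apply mul_left_cancel₀ h4
      linear_combination hcon
    rw [slope_of_X_ne hx', slope_of_X_ne hx]
    have hd : x₁ - x₂ ≠ 0 := sub_ne_zero.2 hx
    have hd' : 4 * x₁ - e - (4 * x₂ - e) ≠ 0 := sub_ne_zero.2 hx'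
    field_simp
    ring

/-- The transport homomorphism `(x, y) ↦ (4x - e, 8y + 4x)`. -/
noncomputable def transport (h2 : (2 : K) ≠ 0) : W.Point →+ (shiftCurve W e).Point where
  toFun P := match P with
    | 0 => 0
    | Point.some _ _ h => Point.some _ _ (shift_nonsingular W h₁ h₃ h₆ e h2 h)
  map_zero' := rfl
  map_add' := by
    rintro (_ | ⟨x₁, y₁, hP⟩) (_ | ⟨x₂, y₂, hQ⟩)
    any_goals rfl
    have h4 : (4 : K) ≠ 0 := by
      have : (4 : K) = 2 ^ 2 := by norm_num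
      rw [this]; exact pow_ne_zero _ h2
    have h8 : (8 : K) ≠ 0 := by
      have : (8 : K) = 2 ^ 3 := by norm_num
      rw [this]; exact pow_ne_zero _ h2
    by_cases hxy : x₁ = x₂ ∧ y₁ = W.negY x₂ y₂
    · have hxy' : 8 * y₁ + 4 * x₁ = (shiftCurve W e).negY (4 * x₂ - e) (8 * y₂ + 4 * x₂) := by
        rw [shift_negY W h₁ h₃ e, hxy.2, hxy.1]
      rw [add_of_Y_eq hxy.1 hxy.2]
      exact (add_of_Y_eq (by rw [hxy.1]) hxy').symm
    · have hxy' : ¬(4 * x₁ - e = 4 * x₂ - e ∧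
          8 * y₁ + 4 * x₁ = (shiftCurve W e).negY (4 * x₂ - e) (8 * y₂ + 4 * x₂)) := by
        rintro ⟨hx, hy⟩
        have hx' : x₁ = x₂ := by
          apply mul_left_cancel₀ h4
          linear_combination hx
        refine hxy ⟨hx', ?_⟩
        rw [shift_negY W h₁ h₃ e] at hy
        apply mul_left_cancel₀ h8
        rw [hx'] at hy
        linear_combination hy
      rw [add_some hxy]
      refine Eq.trans ?_ (add_some hxy').symm
      simp only [shift_slope W h₁ h₃ e h2 hP.1 hQ.1 hxy, shift_addX W h₁ e,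
        shift_addY W h₁ h₃ e]

lemma transport_some (h2 : (2 : K) ≠ 0) {x y : K} (h : W.Nonsingular x y) :
    transport W h₁ h₃ h₆ e h2 (Point.some x y h) =
      Point.some (4 * x - e) (8 * y + 4 * x) (shift_nonsingular W h₁ h₃ h₆ e h2 h) := rfl

lemma transport_zero (h2 : (2 : K) ≠ 0) :
    transport W h₁ h₃ h₆ e h2 0 = 0 := rfl

lemma transport_injective (h2 : (2 : K) ≠ 0) :
    Function.Injective (transport W h₁ h₃ h₆ e h2) := by
  have h4 : (4 : K) ≠ 0 := by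
    have : (4 : K) = 2 ^ 2 := by norm_num
    rw [this]; exact pow_ne_zero _ h2
  have h8 : (8 : K) ≠ 0 := by
    have : (8 : K) = 2 ^ 3 := by norm_num
    rw [this]; exact pow_ne_zero _ h2
  rintro (_ | ⟨x₁, y₁, hP⟩) (_ | ⟨x₂, y₂, hQ⟩) h
  · rfl
  · exact absurd h (by simp [transport])
  · exact absurd h (by simp [transport])
  · simp only [transport, AddMonoidHom.coe_mk, ZeroHom.coe_mk, Point.some.injEq] at h
    have hx : x₁ = x₂ := by
      apply mul_left_cancel₀ h4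
      linear_combination h.1
    subst hx
    have hy : y₁ = y₂ := by
      apply mul_left_cancel₀ h8
      linear_combination h.2
    subst hy
    rfl

end

/-- (T): transport to the short model. -/
theorem exists_transport [DecidableEq K] (W : WeierstrassCurve.Affine K) (h₁ : W.a₁ = 1) (h₃ : W.a₃ = 0)
    (h₆ : W.a₆ = 0) (e : K) (h2 : (2 : K) ≠ 0) :
    ∃ φ : W.Point →+ (shiftCurve W e).Point,
      ∀ (x y : K) (h : W.Nonsingular x y),
        ∃ h' : (shiftCurve W e).Nonsingular (4 * x - e) (8 * y + 4 * x),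
          φ (Point.some x y h) = Point.some (4 * x - e) (8 * y + 4 * x) h' :=
  ⟨transport W h₁ h₃ h₆ e h2, fun _ _ h => ⟨shift_nonsingular W h₁ h₃ h₆ e h2 h, rfl⟩⟩

end Fermat.Agent.S05

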