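import Mathlib
import Fermat.Prelude.Def_FLTPrelim_Ramification
import Fermat.Agent.S05.Inertia
import Fermat.Agent.S05.Transport

set_option autoImplicit false
open WeierstrassCurve WeierstrassCurve.Affine WeierstrassCurve.Affine.Point

namespace Fermat.Agent.S05

local notation "Qbar" => AlgebraicClosure ℚ

/-- The statement of `short_main`, specialised to `Qbar` and a valuation subring. -/
def ShortMainStatement : Prop :=
  ∀ (A : ValuationSubring Qbar) (σ : Qbar →+* Qbar)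
    (_hσ : ∀ a : Qbar, A.valuation a ≤ 1 → A.valuation (σ a - a) < 1)
    (_h2 : A.valuation (2 : Qbar) = 1)
    (W : WeierstrassCurve.Affine Qbar) (_h₁ : W.a₁ = 0) (_h₃ : W.a₃ = 0) (_h₆ : W.a₆ = 0)
    (r₂ r₃ : Qbar) (_ha₂ : W.a₂ = -(r₂ + r₃)) (_ha₄ : W.a₄ = r₂ * r₃)
    (_hr₂ : A.valuation r₂ ≤ 1) (_hr₂0 : r₂ ≠ 0) (_hr₃ : A.valuation r₃ = 1)
    (_hr₂₃ : A.valuation (r₂ - r₃) = 1)
    (π : Qbar) (_hπσ : σ π = π) (_hπ0 : π ≠ 0)
    (n m : ℕ) (_hn : Odd n) (_hvn : A.valuation (n : Qbar) = 1)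
    (_hr₂π : A.valuation r₂ = A.valuation π ^ (n * m))
    {x y : Qbar} (h : W.Nonsingular x y) (h' : W.Nonsingular (σ x) (σ y))
    (_hP : n • Point.some x y h = 0) (_hQ : n • Point.some (σ x) (σ y) h' = 0),
    σ x = x ∧ σ y = y

lemma frey_a₁ (P : FreyPackage) : (P.freyCurve⁄Qbar).a₁ = 1 := by
  simp [WeierstrassCurve.baseChange, FreyPackage.freyCurve]

lemma frey_a₃ (P : FreyPackage) : (P.freyCurve⁄Qbar).a₃ = 0 := by
  simp [WeierstrassCurve.baseChange, FreyPackage.freyCurve]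

lemma frey_a₆ (P : FreyPackage) : (P.freyCurve⁄Qbar).a₆ = 0 := by
  simp [WeierstrassCurve.baseChange, FreyPackage.freyCurve]

lemma frey_a₂ (P : FreyPackage) :
    4 * (P.freyCurve⁄Qbar).a₂ + 1 = ((P.b ^ P.p - P.a ^ P.p : ℤ) : Qbar) := by
  simp only [WeierstrassCurve.baseChange, FreyPackage.freyCurve, WeierstrassCurve.map_a₂]
  have : (4 : Qbar) * algebraMap ℚ Qbar (((P.b : ℚ) ^ P.p - 1 - (P.a : ℚ) ^ P.p) / 4) + 1 =
      algebraMap ℚ Qbar (4 * ((((P.b : ℚ) ^ P.p - 1 - (P.a : ℚ) ^ P.p) / 4)) + 1) := by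
    simp
  rw [this]
  have h2 : (4 * ((((P.b : ℚ) ^ P.p - 1 - (P.a : ℚ) ^ P.p) / 4)) + 1) =
      ((P.b ^ P.p - P.a ^ P.p : ℤ) : ℚ) := by
    push_cast
    ring
  rw [h2, map_intCast]

lemma frey_a₄ (P : FreyPackage) :
    16 * (P.freyCurve⁄Qbar).a₄ = ((-(P.a ^ P.p * P.b ^ P.p) : ℤ) : Qbar) := by
  simp only [WeierstrassCurve.baseChange, FreyPackage.freyCurve, WeierstrassCurve.map_a₄]
  have : (16 : Qbar) * algebraMap ℚ Qbar (-((P.a : ℚ) ^ P.p) * (P.b : ℚ) ^ P.p / 16) =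
      algebraMap ℚ Qbar (16 * (-((P.a : ℚ) ^ P.p) * (P.b : ℚ) ^ P.p / 16)) := by
    simp
  rw [this]
  have h2 : (16 * (-((P.a : ℚ) ^ P.p) * (P.b : ℚ) ^ P.p / 16)) =
      ((-(P.a ^ P.p * P.b ^ P.p) : ℤ) : ℚ) := by
    push_cast
    ring
  rw [h2, map_intCast]

end Fermat.Agent.S05

namespace Fermat.Agent.S05

local notation "Qbar" => AlgebraicClosure ℚ

/-- Abstract core: a curve `y² + xy = x³ + a₂x² + a₄x` over `Qbar` with integral data. -/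
theorem core_abstract (hshort : ShortMainStatement) {q : ℕ} (hq : q.Prime)
    (hq2 : q ≠ 2) (p : ℕ) (hp : p.Prime) (hpodd : Odd p) (hqp : q ≠ p)
    (A : ValuationSubring Qbar) (hA : A.LiesOverPrime q)
    (σ : Qbar ≃ₐ[ℚ] Qbar) (hσ : σ ∈ A.inertiaSubgroupIn ℚ)
    (W : WeierstrassCurve.Affine Qbar) (h₁ : W.a₁ = 1) (h₃ : W.a₃ = 0) (h₆ : W.a₆ = 0)
    (β α : ℤ) (hβ : 4 * W.a₂ + 1 = (β : Qbar)) (hα : 16 * W.a₄ = (α : Qbar))
    (e₀ ρ₂ ρ₃ t : ℤ)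
    (hi : 3 * e₀ + β = -(ρ₂ + ρ₃))
    (hii : 3 * e₀ ^ 2 + 2 * β * e₀ + α = ρ₂ * ρ₃)
    (hiii : e₀ ^ 3 + β * e₀ ^ 2 + α * e₀ = 0)
    (ht : t ≠ 0) (hρ₂ : ρ₂ = t ^ p ∨ ρ₂ = -t ^ p)
    (hρ₃ : ¬ (q : ℤ) ∣ ρ₃) (hρ₂₃ : ¬ (q : ℤ) ∣ ρ₂ - ρ₃)
    {x0 y0 : Qbar} (h0 : W.Nonsingular x0 y0) (h0σ : W.Nonsingular (σ x0) (σ y0))
    (hxn : p • Point.some x0 y0 h0 = 0) (hxσ : p • Point.some (σ x0) (σ y0) h0σ = 0) :
    σ x0 = x0 ∧ σ y0 = y0 := by
  have h2ne : (2 : Qbar) ≠ 0 := two_ne_zero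
  have h4ne : (4 : Qbar) ≠ 0 := by norm_num
  have h8ne : (8 : Qbar) ≠ 0 := by norm_num
  -- the transported curve
  have h₆' : (shiftCurve W (e₀ : Qbar)).a₆ = 0 := by
    rw [shiftCurve_a₆, hβ, hα]
    have := congrArg (fun z : ℤ => (z : Qbar)) hiii
    push_cast at this ⊢
    linear_combination this
  have ha₂ : (shiftCurve W (e₀ : Qbar)).a₂ = -((ρ₂ : Qbar) + (ρ₃ : Qbar)) := by
    rw [shiftCurve_a₂, hβ]
    have := congrArg (fun z : ℤ => (z : Qbar)) hi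
    push_cast at this ⊢
    linear_combination this
  have ha₄ : (shiftCurve W (e₀ : Qbar)).a₄ = (ρ₂ : Qbar) * (ρ₃ : Qbar) := by
    rw [shiftCurve_a₄, hβ, hα]
    have := congrArg (fun z : ℤ => (z : Qbar)) hii
    push_cast at this ⊢
    linear_combination this
  -- valuations
  have hq2' : ¬ (q : ℤ) ∣ 2 := by
    intro h
    have h' : q ∣ 2 := by exact_mod_cast h
    exact hq2 ((Nat.prime_dvd_prime_iff_eq hq Nat.prime_two).1 h')
  have hqp' : ¬ (q : ℤ) ∣ (p : ℤ) := by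
    intro h
    have h' : q ∣ p := by exact_mod_cast h
    exact hqp ((Nat.prime_dvd_prime_iff_eq hq hp).1 h')
  have hv2 : A.valuation (2 : Qbar) = 1 := by
    have := valuation_intCast_eq_one A hq hA 2 hq2'
    simpa using this
  have hvp : A.valuation ((p : ℕ) : Qbar) = 1 := by
    have := valuation_intCast_eq_one A hq hA (p : ℤ) hqp'
    simpa using this
  have hvr₃ : A.valuation (ρ₃ : Qbar) = 1 := by
    have := valuation_intCast_eq_one A hq hA ρ₃ hρ₃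
    simpa using this
  have hvr₂₃ : A.valuation ((ρ₂ : Qbar) - (ρ₃ : Qbar)) = 1 := by
    have := valuation_intCast_eq_one A hq hA (ρ₂ - ρ₃) hρ₂₃
    simpa using this
  have hρ₂0 : ρ₂ ≠ 0 := by
    rcases hρ₂ with h | h <;> rw [h]
    · exact pow_ne_zero _ ht
    · exact neg_ne_zero.2 (pow_ne_zero _ ht)
  have hr₂0 : (ρ₂ : Qbar) ≠ 0 := by exact_mod_cast hρ₂0
  have hvr₂ : A.valuation (ρ₂ : Qbar) ≤ 1 :=
    (A.valuation_le_one_iff _).2 (intCast_mem A ρ₂)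
  obtain ⟨m, hm⟩ := valuation_intCast_pow A hq hA t ht
  have hvr₂π : A.valuation (ρ₂ : Qbar) = A.valuation ((q : ℕ) : Qbar) ^ (p * m) := by
    have hm' : A.valuation (t : Qbar) = A.valuation ((q : ℕ) : Qbar) ^ m := by
      simpa using hm
    have : A.valuation (ρ₂ : Qbar) = A.valuation (t : Qbar) ^ p := by
      rcases hρ₂ with h | h <;> rw [h] <;> push_cast
      · rw [map_pow]
      · rw [Valuation.map_neg, map_pow]
    rw [this, hm', ← pow_mul, mul_comm]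
  have hq0 : ((q : ℕ) : Qbar) ≠ 0 := by exact_mod_cast hq.ne_zero
  -- the points
  have hφP := congrArg (transport W h₁ h₃ h₆ (e₀ : Qbar) h2ne) hxn
  have hφQ := congrArg (transport W h₁ h₃ h₆ (e₀ : Qbar) h2ne) hxσ
  rw [map_nsmul, _root_.map_zero, transport_some] at hφP hφQ
  -- apply the short main theorem
  have hσe : σ (e₀ : Qbar) = (e₀ : Qbar) := map_intCast σ e₀
  have hsx : (σ.toAlgHom.toRingHom) (4 * x0 - (e₀ : Qbar)) = 4 * σ x0 - (e₀ : Qbar) := by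
    show σ (4 * x0 - (e₀ : Qbar)) = _
    rw [map_sub, map_mul, hσe]
    congr 2
    exact map_ofNat σ 4
  have hsy : (σ.toAlgHom.toRingHom) (8 * y0 + 4 * x0) = 8 * σ y0 + 4 * σ x0 := by
    show σ (8 * y0 + 4 * x0) = _
    rw [map_add, map_mul, map_mul]
    congr 2
    · exact map_ofNat σ 8
    · exact map_ofNat σ 4
  have hns' : (shiftCurve W (e₀ : Qbar)).Nonsingular
      ((σ.toAlgHom.toRingHom) (4 * x0 - (e₀ : Qbar)))
      ((σ.toAlgHom.toRingHom) (8 * y0 + 4 * x0)) := by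
    rw [hsx, hsy]
    exact shift_nonsingular W h₁ h₃ h₆ _ h2ne h0σ
  have hQ' : p • Point.some _ _ hns' = 0 := by
    rw [← hφQ]
    congr 1
    simp only [Point.some.injEq]
    exact ⟨hsx, hsy⟩
  have key := hshort A σ.toAlgHom.toRingHom
    (fun a ha => inertia_sub_lt_one A σ hσ a ha) hv2 (shiftCurve W (e₀ : Qbar))
    (shiftCurve_a₁ W _) (shiftCurve_a₃ W _) h₆'
    (ρ₂ : Qbar) (ρ₃ : Qbar) ha₂ ha₄ hvr₂ hr₂0 hvr₃ hvr₂₃ ((q : ℕ) : Qbar)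
    (map_natCast σ q) hq0 p m hpodd hvp hvr₂π
    (shift_nonsingular W h₁ h₃ h₆ _ h2ne h0) hns' hφP hQ'
  obtain ⟨k1, k2⟩ := key
  rw [hsx] at k1
  rw [hsy] at k2
  have hx0 : σ x0 = x0 := by
    apply mul_left_cancel₀ h4ne
    linear_combination k1
  refine ⟨hx0, ?_⟩
  apply mul_left_cancel₀ h8ne
  rw [hx0] at k2
  linear_combination k2

end Fermat.Agent.S05

namespace Fermat.Agent.S05

local notation "Qbar" => AlgebraicClosure ℚ

lemma not_dvd_pow_of_not_dvd {q : ℕ} (hq : q.Prime) {z : ℤ} (n : ℕ) (h : ¬ (q : ℤ) ∣ z) :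
    ¬ (q : ℤ) ∣ z ^ n :=
  fun h' => h ((Nat.prime_iff_prime_int.1 hq).dvd_of_dvd_pow h')

lemma not_dvd_of_gcd_eq_one {q : ℕ} (hq : q.Prime) {y z : ℤ} (hg : gcd y z = 1)
    (hy : (q : ℤ) ∣ y) : ¬ (q : ℤ) ∣ z := by
  intro hz
  have h1 : (q : ℤ) ∣ gcd y z := dvd_gcd hy hz
  rw [hg] at h1
  exact (Nat.prime_iff_prime_int.1 hq).not_dvd_one h1

/-- Final assembly: `S05` follows from the short main theorem. -/
theorem result_of_short (hshort : ShortMainStatement) (P : FreyPackage) {q : ℕ} (hq : q.Prime)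
    (hq2 : q ≠ 2) (hqp : q ≠ P.p) : P.GaloisRepUnramifiedAt q := by
  intro A hA σ hσ x
  apply Subtype.ext
  obtain ⟨x, hx⟩ := x
  rw [Submodule.mem_torsionBy_iff] at hx
  show σ • x = x
  rcases x with _ | ⟨x0, y0, h0⟩
  · rfl
  have hxn : P.p • Point.some x0 y0 h0 = 0 := by
    rw [← natCast_zsmul]; exact hx
  have hQz : (P.p : ℤ) • (σ • Point.some x0 y0 h0) = 0 := by
    rw [← algEquiv_smul_zsmul, hx, smul_zero]
  have hQ0 : P.p • (σ • Point.some x0 y0 h0) = 0 := by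
    rw [← natCast_zsmul]; exact hQz
  rw [algEquiv_smul_def, Point.map_some] at hQ0 ⊢
  rw [Point.some.injEq]
  have hcore := fun (e₀ ρ₂ ρ₃ t : ℤ) hi hii hiii ht hρ₂ hρ₃ hρ₂₃ =>
    core_abstract hshort hq hq2 P.p P.pp P.hp_odd hqp A hA σ hσ (P.freyCurve⁄Qbar)
      (frey_a₁ P) (frey_a₃ P) (frey_a₆ P) (P.b ^ P.p - P.a ^ P.p) (-(P.a ^ P.p * P.b ^ P.p))
      (frey_a₂ P) (frey_a₄ P) e₀ ρ₂ ρ₃ t hi hii hiii ht hρ₂ hρ₃ hρ₂₃ h0 _ hxn hQ0
  have hFLT := P.hFLT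
  by_cases hb : (q : ℤ) ∣ P.b
  · -- q ∣ b
    have ha : ¬ (q : ℤ) ∣ P.a := not_dvd_of_gcd_eq_one hq (by rw [gcd_comm]; exact P.hgcdab) hb
    have hc : ¬ (q : ℤ) ∣ P.c := not_dvd_of_gcd_eq_one hq P.hgcdbc hb
    refine hcore 0 (-P.b ^ P.p) (P.a ^ P.p) P.b (by ring) (by ring) (by ring) P.hb0
      (Or.inr rfl) (not_dvd_pow_of_not_dvd hq _ ha) ?_
    have : -P.b ^ P.p - P.a ^ P.p = -(P.c ^ P.p) := by rw [← hFLT]; ring
    rw [this, dvd_neg]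
    exact not_dvd_pow_of_not_dvd hq _ hc
  by_cases hc : (q : ℤ) ∣ P.c
  · -- q ∣ c
    have ha : ¬ (q : ℤ) ∣ P.a :=
      not_dvd_of_gcd_eq_one hq (by rw [gcd_comm]; exact P.hgcdac) hc
    refine hcore (P.a ^ P.p) (-P.c ^ P.p) (-P.a ^ P.p) P.c (by rw [← hFLT]; ring)
      (by rw [← hFLT]; ring) (by ring) P.hc0 (Or.inr rfl) ?_ ?_
    · rw [dvd_neg]; exact not_dvd_pow_of_not_dvd hq _ ha
    · have : -P.c ^ P.p - -P.a ^ P.p = -(P.b ^ P.p) := by rw [← hFLT]; ring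
      rw [this, dvd_neg]
      exact not_dvd_pow_of_not_dvd hq _ hb
  · -- q ∤ b, q ∤ c
    refine hcore 0 (P.a ^ P.p) (-P.b ^ P.p) P.a (by ring) (by ring) (by ring) P.ha0
      (Or.inl rfl) ?_ ?_
    · rw [dvd_neg]; exact not_dvd_pow_of_not_dvd hq _ hb
    · have : P.a ^ P.p - -P.b ^ P.p = P.c ^ P.p := by rw [← hFLT]; ring
      rw [this]
      exact not_dvd_pow_of_not_dvd hq _ hc

end Fermat.Agent.S05
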