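import Mathlib.AlgebraicGeometry.EllipticCurve.Affine.Point
import Mathlib.RingTheory.Valuation.ValuationSubring
import Mathlib.Tactic

/-!
# The kernel of reduction has no torsion prime to the residue characteristic

For a Weierstrass curve `W` over a field `K` with coefficients integral for a valuation `v`,
the points `(x, y)` with `1 < v x` (together with `0`) form the "kernel of reduction".  We show by
an elementary computation in the `(t, s) = (x / y, 1 / y)` chart that for points `P, Q` of the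
kernel with `v (t P), v (t Q) ≤ γ < 1` one has `v (t (P + Q) - t P - t Q) ≤ γ ^ 2`, and deduce that
`n • P ≠ 0` whenever `v n = 1` and `P ≠ 0` lies in the kernel.
-/

set_option autoImplicit false

namespace Fermat.Agent.S05.KR

open WeierstrassCurve

variable {K : Type*} [Field K] {Γ : Type*} [LinearOrderedCommGroupWithZero Γ]

/-! ### Ordered-group helpers -/

section Order

variable {a b : Γ}

theorem pos_of_one_lt (h : 1 < a) : 0 < a := zero_lt_one.trans h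

theorem ne_zero_of_one_lt (h : 1 < a) : a ≠ 0 := (pos_of_one_lt h).ne'

theorem sq_lt_cube_of_one_lt (h : 1 < a) : a ^ 2 < a ^ 3 := pow_lt_pow_right₀ h (by norm_num)

theorem self_lt_sq_of_one_lt (h : 1 < a) : a < a ^ 2 := by
  simpa using pow_lt_pow_right₀ h (show 1 < 2 by norm_num)

theorem self_le_sq_of_one_le (h : 1 ≤ a) : a ≤ a ^ 2 := by
  simpa using pow_le_pow_right₀ h (show 1 ≤ 2 by norm_num)

theorem sq_lt_self_of_lt_one (h0 : a ≠ 0) (h : a < 1) : a ^ 2 < a := by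
  simpa using pow_lt_pow_right_of_lt_one₀ (zero_lt_iff.mpr h0) h (show 1 < 2 by norm_num)

theorem sq_le_self_of_le_one (h : a ≤ 1) : a ^ 2 ≤ a := by
  simpa using pow_le_pow_of_le_one zero_le h (show 1 ≤ 2 by norm_num)

theorem cube_le_sq_of_le_one (h : a ≤ 1) : a ^ 3 ≤ a ^ 2 :=
  pow_le_pow_of_le_one zero_le h (by norm_num)

theorem cube_le_self_of_le_one (h : a ≤ 1) : a ^ 3 ≤ a := by
  simpa using pow_le_pow_of_le_one zero_le h (show 1 ≤ 3 by norm_num)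

theorem lt_of_sq_lt_sq (h : a ^ 2 < b ^ 2) : a < b :=
  (pow_lt_pow_iff_left₀ zero_le zero_le (by norm_num)).mp h

theorem le_of_sq_le_sq (h : a ^ 2 ≤ b ^ 2) : a ≤ b :=
  (pow_le_pow_iff_left₀ zero_le zero_le (by norm_num)).mp h

end Order

/-! ### Integral Weierstrass equations -/

/-- The coefficients of `W` are integral for the valuation `v`. -/
structure IntegralCoeffs (v : Valuation K Γ) (W : WeierstrassCurve.Affine K) : Prop where
  a₁ : v W.a₁ ≤ 1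
  a₂ : v W.a₂ ≤ 1
  a₃ : v W.a₃ ≤ 1
  a₄ : v W.a₄ ≤ 1
  a₆ : v W.a₆ ≤ 1

variable {v : Valuation K Γ} {W : WeierstrassCurve.Affine K}

theorem val_rhs_eq (hW : IntegralCoeffs v W) {x : K} (hx : 1 < v x) :
    v (x ^ 3 + W.a₂ * x ^ 2 + W.a₄ * x + W.a₆) = v x ^ 3 := by
  have h2 : v (W.a₂ * x ^ 2) ≤ v x ^ 2 := by
    rw [map_mul, map_pow]; exact mul_le_of_le_one_left' hW.a₂
  have h4 : v (W.a₄ * x) ≤ v x ^ 2 := by
    rw [map_mul]
    exact (mul_le_of_le_one_left' hW.a₄).trans (self_le_sq_of_one_le hx.le)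
  have h6 : v W.a₆ ≤ v x ^ 2 := hW.a₆.trans (one_le_pow₀ hx.le)
  have hlt : v (W.a₂ * x ^ 2 + W.a₄ * x + W.a₆) < v (x ^ 3) := by
    rw [map_pow]
    exact (v.map_add_le (v.map_add_le h2 h4) h6).trans_lt (sq_lt_cube_of_one_lt hx)
  have : x ^ 3 + W.a₂ * x ^ 2 + W.a₄ * x + W.a₆ = x ^ 3 + (W.a₂ * x ^ 2 + W.a₄ * x + W.a₆) := by
    ring
  rw [this, v.map_add_eq_of_lt_left hlt, map_pow]

theorem val_lhs_eq (hW : IntegralCoeffs v W) {x y : K} (hy : 1 < v y) (hxy : v x < v y) :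
    v (y ^ 2 + W.a₁ * x * y + W.a₃ * y) = v y ^ 2 := by
  have hy0 : v y ≠ 0 := ne_zero_of_one_lt hy
  have h1 : v (W.a₁ * x * y) < v y ^ 2 := by
    rw [map_mul, map_mul, sq]
    calc v W.a₁ * v x * v y ≤ v x * v y := by
          gcongr; exact mul_le_of_le_one_left' hW.a₁
      _ < v y * v y := mul_lt_mul_of_pos_right hxy (zero_lt_iff.mpr hy0)
  have h3 : v (W.a₃ * y) < v y ^ 2 := by
    rw [map_mul]
    exact (mul_le_of_le_one_left' hW.a₃).trans_lt (self_lt_sq_of_one_lt hy)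
  have hlt : v (W.a₁ * x * y + W.a₃ * y) < v (y ^ 2) := by
    rw [map_pow]; exact v.map_add_lt h1 h3
  have : y ^ 2 + W.a₁ * x * y + W.a₃ * y = y ^ 2 + (W.a₁ * x * y + W.a₃ * y) := by ring
  rw [this, v.map_add_eq_of_lt_left hlt, map_pow]

/-- On an integral Weierstrass equation, `1 < v x` forces `v y ^ 2 = v x ^ 3`. -/
theorem val_y_sq (hW : IntegralCoeffs v W) {x y : K} (h : W.Equation x y) (hx : 1 < v x) :
    v y ^ 2 = v x ^ 3 := by
  rw [WeierstrassCurve.Affine.equation_iff] at h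
  have hR := val_rhs_eq hW hx
  rcases le_or_gt (v y) (v x) with hyx | hxy
  · exfalso
    have hL : v (y ^ 2 + W.a₁ * x * y + W.a₃ * y) ≤ v x ^ 2 := by
      refine v.map_add_le (v.map_add_le ?_ ?_) ?_
      · rw [map_pow]; exact pow_le_pow_left₀ zero_le hyx 2
      · rw [map_mul, map_mul, sq]
        calc v W.a₁ * v x * v y ≤ v x * v y := by
              gcongr; exact mul_le_of_le_one_left' hW.a₁
          _ ≤ v x * v x := by gcongr
      · rw [map_mul]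
        exact (mul_le_of_le_one_left' hW.a₃).trans (hyx.trans (self_le_sq_of_one_le hx.le))
    rw [h, hR] at hL
    exact absurd hL (not_le.mpr (sq_lt_cube_of_one_lt hx))
  · rw [← val_lhs_eq hW (hx.trans hxy) hxy, h, hR]

theorem val_x_lt_val_y (hW : IntegralCoeffs v W) {x y : K} (h : W.Equation x y) (hx : 1 < v x) :
    v x < v y := by
  by_contra hcon
  have hyx : v y ≤ v x := not_lt.mp hcon
  have h2 := val_y_sq hW h hx
  have : v y ^ 2 ≤ v x ^ 2 := pow_le_pow_left₀ zero_le hyx 2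
  rw [h2] at this
  exact absurd this (not_le.mpr (sq_lt_cube_of_one_lt hx))

theorem one_lt_val_y (hW : IntegralCoeffs v W) {x y : K} (h : W.Equation x y) (hx : 1 < v x) :
    1 < v y := hx.trans (val_x_lt_val_y hW h hx)

/-- On an integral Weierstrass equation, `1 < v y` forces `1 < v x`. -/
theorem one_lt_val_x_of_one_lt_val_y (hW : IntegralCoeffs v W) {x y : K} (h : W.Equation x y)
    (hy : 1 < v y) : 1 < v x := by
  by_contra hcon
  have hx1 : v x ≤ 1 := not_lt.mp hcon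
  have hL := val_lhs_eq hW hy (hx1.trans_lt hy)
  rw [WeierstrassCurve.Affine.equation_iff] at h
  have hR : v (x ^ 3 + W.a₂ * x ^ 2 + W.a₄ * x + W.a₆) ≤ 1 := by
    refine v.map_add_le (v.map_add_le (v.map_add_le ?_ ?_) ?_) hW.a₆
    · rw [map_pow]; exact pow_le_one₀ zero_le hx1
    · rw [map_mul, map_pow]; exact mul_le_one' hW.a₂ (pow_le_one₀ zero_le hx1)
    · rw [map_mul]; exact mul_le_one' hW.a₄ hx1
  rw [← h, hL] at hR
  exact absurd hR (not_le.mpr (one_lt_pow₀ hy (by norm_num)))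


theorem val_natCast_le_one (v : Valuation K Γ) (n : ℕ) : v (n : K) ≤ 1 := by
  induction n with
  | zero => simp
  | succ k ih =>
    rw [Nat.cast_succ]
    exact v.map_add_le ih (le_of_eq v.map_one)

theorem val_two_le_one (v : Valuation K Γ) : v (2 : K) ≤ 1 := by
  simpa using val_natCast_le_one v 2

theorem val_three_le_one (v : Valuation K Γ) : v (3 : K) ≤ 1 := by
  simpa using val_natCast_le_one v 3

/-! ### The `(t, s)`-chart, `t = x / y`, `s = 1 / y` -/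

theorem y_ne_zero (hW : IntegralCoeffs v W) {x y : K} (h : W.Equation x y) (hx : 1 < v x) :
    y ≠ 0 := by
  intro hy
  have := one_lt_val_y hW h hx
  rw [hy, map_zero] at this
  exact absurd this (not_lt.mpr zero_le)

theorem x_ne_zero {x : K} (hx : 1 < v x) : x ≠ 0 := by
  intro h0
  rw [h0, map_zero] at hx
  exact absurd hx (not_lt.mpr zero_le)

theorem val_t_lt_one (hW : IntegralCoeffs v W) {x y : K} (h : W.Equation x y) (hx : 1 < v x) :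
    v (x / y) < 1 := by
  rw [map_div₀]
  exact (div_lt_one₀ (pos_of_one_lt (one_lt_val_y hW h hx))).mpr (val_x_lt_val_y hW h hx)

theorem val_t_ne_zero (hW : IntegralCoeffs v W) {x y : K} (h : W.Equation x y) (hx : 1 < v x) :
    v (x / y) ≠ 0 := by
  rw [ne_eq, map_eq_zero]
  exact div_ne_zero (x_ne_zero hx) (y_ne_zero hW h hx)

/-- `v s = v t ^ 3` on the kernel of reduction. -/
theorem val_s_eq (hW : IntegralCoeffs v W) {x y : K} (h : W.Equation x y) (hx : 1 < v x) :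
    v (1 / y) = v (x / y) ^ 3 := by
  have hy0 : v y ≠ 0 := ne_zero_of_one_lt (one_lt_val_y hW h hx)
  have h2 := val_y_sq hW h hx
  rw [map_div₀, map_div₀, map_one, div_pow, ← h2]
  field_simp

/-- `(v x)⁻¹ = v t ^ 2` on the kernel of reduction. -/
theorem val_x_inv_eq (hW : IntegralCoeffs v W) {x y : K} (h : W.Equation x y) (hx : 1 < v x) :
    (v x)⁻¹ = v (x / y) ^ 2 := by
  have hx0 : v x ≠ 0 := ne_zero_of_one_lt hx
  have h2 := val_y_sq hW h hx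
  rw [map_div₀, div_pow, h2]
  field_simp

/-- The Weierstrass equation in the chart `t = x / y`, `s = 1 / y`. -/
theorem ts_equation {x y : K} (h : W.Equation x y) (hy : y ≠ 0) :
    1 / y = (x / y) ^ 3 - W.a₁ * (x / y) * (1 / y) + W.a₂ * (x / y) ^ 2 * (1 / y)
      - W.a₃ * (1 / y) ^ 2 + W.a₄ * (x / y) * (1 / y) ^ 2 + W.a₆ * (1 / y) ^ 3 := by
  rw [WeierstrassCurve.Affine.equation_iff] at h
  field_simp
  linear_combination h

/-- The difference identity in the `(t, s)`-chart. -/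
theorem ts_diff {t₁ s₁ t₂ s₂ : K}
    (h₁ : s₁ = t₁ ^ 3 - W.a₁ * t₁ * s₁ + W.a₂ * t₁ ^ 2 * s₁ - W.a₃ * s₁ ^ 2 + W.a₄ * t₁ * s₁ ^ 2
      + W.a₆ * s₁ ^ 3)
    (h₂ : s₂ = t₂ ^ 3 - W.a₁ * t₂ * s₂ + W.a₂ * t₂ ^ 2 * s₂ - W.a₃ * s₂ ^ 2 + W.a₄ * t₂ * s₂ ^ 2
      + W.a₆ * s₂ ^ 3) :
    (s₂ - s₁) * (1 + W.a₁ * t₁ - W.a₂ * t₁ ^ 2 + W.a₃ * (s₁ + s₂) - W.a₄ * t₁ * (s₁ + s₂)
        - W.a₆ * (s₁ ^ 2 + s₁ * s₂ + s₂ ^ 2))
      = (t₂ - t₁) * (t₁ ^ 2 + t₁ * t₂ + t₂ ^ 2 - W.a₁ * s₂ + W.a₂ * (t₁ + t₂) * s₂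
        + W.a₄ * s₂ ^ 2) := by
  linear_combination h₂ - h₁


/-! ### Bounds for the line through two points of the kernel -/

theorem line_bounds_secant (hW : IntegralCoeffs v W) {γ : Γ} (hγ : γ < 1)
    {x₁ y₁ x₂ y₂ : K} (h₁ : W.Equation x₁ y₁) (h₂ : W.Equation x₂ y₂)
    (hx₁ : 1 < v x₁) (hx₂ : 1 < v x₂) (ht₁ : v (x₁ / y₁) ≤ γ) (ht₂ : v (x₂ / y₂) ≤ γ)
    (hx : x₁ ≠ x₂) :
    y₁ - (y₁ - y₂) / (x₁ - x₂) * x₁ ≠ 0 ∧
      v ((y₁ - y₂) / (x₁ - x₂) / (y₁ - (y₁ - y₂) / (x₁ - x₂) * x₁)) ≤ γ ^ 2 ∧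
      v (1 / (y₁ - (y₁ - y₂) / (x₁ - x₂) * x₁)) ≤ γ ^ 3 := by
  have hy₁ : y₁ ≠ 0 := y_ne_zero hW h₁ hx₁
  have hy₂ : y₂ ≠ 0 := y_ne_zero hW h₂ hx₂
  have hγ1 : γ ≤ 1 := hγ.le
  have hs₁ : v (1 / y₁) ≤ γ ^ 3 := by
    rw [val_s_eq hW h₁ hx₁]; exact pow_le_pow_left₀ zero_le ht₁ 3
  have hs₂ : v (1 / y₂) ≤ γ ^ 3 := by
    rw [val_s_eq hW h₂ hx₂]; exact pow_le_pow_left₀ zero_le ht₂ 3
  have hs₁' : v (1 / y₁) ≤ γ := hs₁.trans (cube_le_self_of_le_one hγ1)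
  have hs₂' : v (1 / y₂) ≤ γ := hs₂.trans (cube_le_self_of_le_one hγ1)
  have hs₂'' : v (1 / y₂) ≤ γ ^ 2 := hs₂.trans (cube_le_sq_of_le_one hγ1)
  have E₁ := ts_equation h₁ hy₁
  have E₂ := ts_equation h₂ hy₂
  set t₁ := x₁ / y₁ with ht₁def
  set s₁ := 1 / y₁ with hs₁def
  set t₂ := x₂ / y₂ with ht₂def
  set s₂ := 1 / y₂ with hs₂def
  have key := ts_diff (W := W) E₁ E₂
  set D := 1 + W.a₁ * t₁ - W.a₂ * t₁ ^ 2 + W.a₃ * (s₁ + s₂) - W.a₄ * t₁ * (s₁ + s₂)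
        - W.a₆ * (s₁ ^ 2 + s₁ * s₂ + s₂ ^ 2) with hDdef
  set N := t₁ ^ 2 + t₁ * t₂ + t₂ ^ 2 - W.a₁ * s₂ + W.a₂ * (t₁ + t₂) * s₂ + W.a₄ * s₂ ^ 2
    with hNdef
  -- valuation of `D`
  have hDv : v D = 1 := by
    have hsmall : v (W.a₁ * t₁ - W.a₂ * t₁ ^ 2 + W.a₃ * (s₁ + s₂) - W.a₄ * t₁ * (s₁ + s₂)
        - W.a₆ * (s₁ ^ 2 + s₁ * s₂ + s₂ ^ 2)) < 1 := by
      refine lt_of_le_of_lt ?_ hγ
      refine v.map_sub_le (v.map_sub_le (v.map_add_le (v.map_sub_le ?_ ?_) ?_) ?_) ?_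
      · rw [map_mul]; exact (mul_le_of_le_one_left' hW.a₁).trans ht₁
      · rw [map_mul, map_pow]
        exact (mul_le_of_le_one_left' hW.a₂).trans
          ((pow_le_pow_left₀ zero_le ht₁ 2).trans (sq_le_self_of_le_one hγ1))
      · rw [map_mul]
        exact (mul_le_of_le_one_left' hW.a₃).trans (v.map_add_le hs₁' hs₂')
      · rw [map_mul, map_mul]
        calc v W.a₄ * v t₁ * v (s₁ + s₂) ≤ 1 * 1 * γ := by
              gcongr
              · exact hW.a₄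
              · exact ht₁.trans hγ1
              · exact v.map_add_le hs₁' hs₂'
          _ = γ := by simp
      · rw [map_mul]
        refine (mul_le_of_le_one_left' hW.a₆).trans ?_
        refine v.map_add_le (v.map_add_le ?_ ?_) ?_
        · rw [map_pow]
          exact (pow_le_pow_left₀ zero_le hs₁' 2).trans (sq_le_self_of_le_one hγ1)
        · rw [map_mul]
          calc v s₁ * v s₂ ≤ 1 * γ := by
                gcongr
                exact hs₁'.trans hγ1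
            _ = γ := by simp
        · rw [map_pow]
          exact (pow_le_pow_left₀ zero_le hs₂' 2).trans (sq_le_self_of_le_one hγ1)
    have : D = 1 + (W.a₁ * t₁ - W.a₂ * t₁ ^ 2 + W.a₃ * (s₁ + s₂) - W.a₄ * t₁ * (s₁ + s₂)
        - W.a₆ * (s₁ ^ 2 + s₁ * s₂ + s₂ ^ 2)) := by rw [hDdef]; ring
    rw [this]
    exact v.map_one_add_of_lt hsmall
  have hD0 : D ≠ 0 := by
    intro h0; rw [h0, map_zero] at hDv; exact zero_ne_one hDv
  -- valuation of `N`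
  have hNv : v N ≤ γ ^ 2 := by
    refine v.map_add_le (v.map_add_le (v.map_sub_le (v.map_add_le (v.map_add_le ?_ ?_) ?_) ?_) ?_) ?_
    · rw [map_pow]; exact pow_le_pow_left₀ zero_le ht₁ 2
    · rw [map_mul, sq]; gcongr
    · rw [map_pow]; exact pow_le_pow_left₀ zero_le ht₂ 2
    · rw [map_mul]; exact (mul_le_of_le_one_left' hW.a₁).trans hs₂''
    · rw [map_mul, map_mul]
      calc v W.a₂ * v (t₁ + t₂) * v s₂ ≤ 1 * 1 * γ ^ 2 := by
            gcongr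
            · exact hW.a₂
            · exact (v.map_add_le ht₁ ht₂).trans hγ1
        _ = γ ^ 2 := by simp
    · rw [map_mul, map_pow]
      refine (mul_le_of_le_one_left' hW.a₄).trans ?_
      exact pow_le_pow_left₀ zero_le hs₂' 2
  -- `t₁ ≠ t₂`
  have htne : t₁ ≠ t₂ := by
    intro hEq
    rw [hEq, sub_self, zero_mul] at key
    have hs : s₂ - s₁ = 0 := by
      rcases mul_eq_zero.mp key with h | h
      · exact h
      · exact absurd h hD0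
    have hyy : y₁ = y₂ := by
      have : (1 : K) / y₁ = 1 / y₂ := (sub_eq_zero.mp hs).symm
      field_simp at this
      exact this.symm
    apply hx
    have hxx : x₁ / y₁ = x₂ / y₂ := hEq
    rw [hyy] at hxx
    field_simp at hxx
    exact hxx
  have hxy : x₁ * y₂ - x₂ * y₁ ≠ 0 := by
    intro h0
    apply htne
    rw [ht₁def, ht₂def]
    field_simp
    linear_combination h0
  have hxsub : x₁ - x₂ ≠ 0 := sub_ne_zero.mpr hx
  have hc : y₁ - (y₁ - y₂) / (x₁ - x₂) * x₁ = (x₁ * y₂ - x₂ * y₁) / (x₁ - x₂) := by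
    field_simp
    ring
  have hμ : (y₁ - y₂) / (x₁ - x₂) / (y₁ - (y₁ - y₂) / (x₁ - x₂) * x₁) = -(N / D) := by
    have h1 : (y₁ - y₂) / (x₁ - x₂) / (y₁ - (y₁ - y₂) / (x₁ - x₂) * x₁)
        = (s₂ - s₁) / (t₁ - t₂) := by
      rw [hc, hs₁def, hs₂def, ht₁def, ht₂def]
      have : x₁ / y₁ - x₂ / y₂ ≠ 0 := sub_ne_zero.mpr htne
      field_simp
    rw [h1]
    have : t₁ - t₂ ≠ 0 := sub_ne_zero.mpr htne
    field_simp
    linear_combination key
  have hκ : 1 / (y₁ - (y₁ - y₂) / (x₁ - x₂) * x₁)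
      = s₁ + t₁ * ((y₁ - y₂) / (x₁ - x₂) / (y₁ - (y₁ - y₂) / (x₁ - x₂) * x₁)) := by
    rw [hc, hs₁def, ht₁def]
    field_simp
    ring
  have hμv : v ((y₁ - y₂) / (x₁ - x₂) / (y₁ - (y₁ - y₂) / (x₁ - x₂) * x₁)) ≤ γ ^ 2 := by
    rw [hμ, Valuation.map_neg, map_div₀, hDv, div_one]
    exact hNv
  refine ⟨?_, hμv, ?_⟩
  · rw [hc]
    exact div_ne_zero hxy hxsub
  · rw [hκ]
    refine v.map_add_le hs₁ ?_
    rw [map_mul, pow_succ']
    gcongr


theorem line_bounds_tangent (hW : IntegralCoeffs v W) {γ : Γ}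
    {x y : K} (h : W.Equation x y) (hx : 1 < v x) (ht : v (x / y) ≤ γ)
    (hM : y ≠ W.negY x y) :
    y - (3 * x ^ 2 + 2 * W.a₂ * x + W.a₄ - W.a₁ * y) / (y - W.negY x y) * x ≠ 0 ∧
      v ((3 * x ^ 2 + 2 * W.a₂ * x + W.a₄ - W.a₁ * y) / (y - W.negY x y) /
        (y - (3 * x ^ 2 + 2 * W.a₂ * x + W.a₄ - W.a₁ * y) / (y - W.negY x y) * x)) ≤ γ ^ 2 ∧
      v (1 / (y - (3 * x ^ 2 + 2 * W.a₂ * x + W.a₄ - W.a₁ * y) / (y - W.negY x y) * x))
        ≤ γ ^ 3 := by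
  have hy : 1 < v y := one_lt_val_y hW h hx
  have hxy : v x < v y := val_x_lt_val_y hW h hx
  have hy0 : y ≠ 0 := y_ne_zero hW h hx
  have hvx0 : v x ≠ 0 := ne_zero_of_one_lt hx
  have hvy0 : v y ≠ 0 := ne_zero_of_one_lt hy
  have hysq := val_y_sq hW h hx
  have hM0 : y - W.negY x y ≠ 0 := sub_ne_zero.mpr hM
  set M := y - W.negY x y with hMdef
  set R := 3 * x ^ 2 + 2 * W.a₂ * x + W.a₄ - W.a₁ * y with hRdef
  set Q := -x ^ 3 + W.a₄ * x + 2 * W.a₆ - W.a₃ * y with hQdef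
  have hEq := (WeierstrassCurve.Affine.equation_iff x y).mp h
  have hcM : (y - R / M * x) = Q / M := by
    field_simp
    rw [hMdef, hRdef, hQdef, WeierstrassCurve.Affine.negY]
    linear_combination 2 * hEq
  -- `v y < v x ^ 3`
  have hyx3 : v y < v x ^ 3 := by
    rw [← hysq]; exact self_lt_sq_of_one_lt hy
  have hyx2 : v y < v x ^ 2 := by
    apply lt_of_sq_lt_sq
    rw [hysq, ← pow_mul]
    exact pow_lt_pow_right₀ hx (by norm_num)
  have hQv : v Q = v x ^ 3 := by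
    have hsmall : v (W.a₄ * x + 2 * W.a₆ - W.a₃ * y) < v (-x ^ 3) := by
      rw [Valuation.map_neg, map_pow]
      refine v.map_sub_lt (v.map_add_lt ?_ ?_) ?_
      · rw [map_mul]
        exact (mul_le_of_le_one_left' hW.a₄).trans_lt
          ((self_lt_sq_of_one_lt hx).trans (sq_lt_cube_of_one_lt hx))
      · rw [map_mul]
        exact (mul_le_one' (val_two_le_one v) hW.a₆).trans_lt (one_lt_pow₀ hx (by norm_num))
      · rw [map_mul]
        exact (mul_le_of_le_one_left' hW.a₃).trans_lt hyx3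
    have : Q = -x ^ 3 + (W.a₄ * x + 2 * W.a₆ - W.a₃ * y) := by rw [hQdef]; ring
    rw [this, v.map_add_eq_of_lt_left hsmall, Valuation.map_neg, map_pow]
  have hQ0 : Q ≠ 0 := by
    intro h0
    rw [h0, map_zero] at hQv
    exact pow_ne_zero 3 hvx0 hQv.symm
  have hRv : v R ≤ v x ^ 2 := by
    refine v.map_sub_le (v.map_add_le (v.map_add_le ?_ ?_) ?_) ?_
    · rw [map_mul, map_pow]; exact mul_le_of_le_one_left' (val_three_le_one v)
    · rw [map_mul, map_mul]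
      calc v 2 * v W.a₂ * v x ≤ 1 * 1 * v x := by
            gcongr
            · exact val_two_le_one v
            · exact hW.a₂
        _ = v x := by simp
        _ ≤ v x ^ 2 := self_le_sq_of_one_le hx.le
    · exact hW.a₄.trans (one_le_pow₀ hx.le)
    · rw [map_mul]
      exact (mul_le_of_le_one_left' hW.a₁).trans hyx2.le
  have hMv : v M ≤ v y := by
    have : M = 2 * y + W.a₁ * x + W.a₃ := by
      rw [hMdef, WeierstrassCurve.Affine.negY]; ring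
    rw [this]
    refine v.map_add_le (v.map_add_le ?_ ?_) ?_
    · rw [map_mul]; exact mul_le_of_le_one_left' (val_two_le_one v)
    · rw [map_mul]; exact (mul_le_of_le_one_left' hW.a₁).trans hxy.le
    · exact hW.a₃.trans hy.le
  have hμ : R / M / (y - R / M * x) = R / Q := by
    rw [hcM]; field_simp
  have hκ : 1 / (y - R / M * x) = M / Q := by
    rw [hcM]; field_simp
  refine ⟨?_, ?_, ?_⟩
  · rw [hcM]; exact div_ne_zero hQ0 hM0
  · rw [hμ, map_div₀, hQv]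
    calc v R / v x ^ 3 ≤ v x ^ 2 / v x ^ 3 := div_le_div_of_nonneg_right hRv zero_le
      _ = (v x)⁻¹ := by field_simp
      _ = v (x / y) ^ 2 := val_x_inv_eq hW h hx
      _ ≤ γ ^ 2 := pow_le_pow_left₀ zero_le ht 2
  · rw [hκ, map_div₀, hQv, ← hysq]
    calc v M / v y ^ 2 ≤ v y / v y ^ 2 := div_le_div_of_nonneg_right hMv zero_le
      _ = v (1 / y) := by rw [map_div₀, map_one]; field_simp
      _ = v (x / y) ^ 3 := val_s_eq hW h hx
      _ ≤ γ ^ 3 := pow_le_pow_left₀ zero_le ht 3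


/-! ### Pure algebra: the sum of the `t`-coordinates of three collinear points -/

theorem prod_y_formula {a₁ a₂ a₃ a₄ a₆ x₁ x₂ x₃ y₁ y₂ y₃ ℓ c : K}
    (E1 : x₁ + x₂ + x₃ = ℓ ^ 2 + a₁ * ℓ - a₂)
    (E2 : x₁ * x₂ + x₁ * x₃ + x₂ * x₃ = -(2 * ℓ * c + a₁ * c + a₃ * ℓ - a₄))
    (E3 : x₁ * x₂ * x₃ = c ^ 2 + a₃ * c - a₆)
    (hy₁ : y₁ = ℓ * x₁ + c) (hy₂ : y₂ = ℓ * x₂ + c) (hy₃ : y₃ = ℓ * x₃ + c) (hc : c ≠ 0) :
    y₁ * y₂ * y₃ = c ^ 3 * (1 - a₂ * (ℓ / c) + a₄ * (ℓ / c) ^ 2 - a₆ * (ℓ / c) ^ 3) := by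
  have h : y₁ * y₂ * y₃ = c ^ 3 - a₂ * ℓ * c ^ 2 + a₄ * ℓ ^ 2 * c - a₆ * ℓ ^ 3 := by
    subst hy₁ hy₂ hy₃
    linear_combination ℓ ^ 3 * E3 + ℓ ^ 2 * c * E2 + ℓ * c ^ 2 * E1
  rw [h]
  field_simp

theorem sum_xyy_formula {a₁ a₂ a₃ a₄ a₆ x₁ x₂ x₃ y₁ y₂ y₃ ℓ c : K}
    (E1 : x₁ + x₂ + x₃ = ℓ ^ 2 + a₁ * ℓ - a₂)
    (E2 : x₁ * x₂ + x₁ * x₃ + x₂ * x₃ = -(2 * ℓ * c + a₁ * c + a₃ * ℓ - a₄))
    (E3 : x₁ * x₂ * x₃ = c ^ 2 + a₃ * c - a₆)
    (hy₁ : y₁ = ℓ * x₁ + c) (hy₂ : y₂ = ℓ * x₂ + c) (hy₃ : y₃ = ℓ * x₃ + c) (hc : c ≠ 0) :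
    x₁ * y₂ * y₃ + x₂ * y₁ * y₃ + x₃ * y₁ * y₂ =
      c ^ 3 * (-a₁ * (ℓ / c) - a₂ * (1 / c) + a₃ * (ℓ / c) ^ 2 + 2 * a₄ * (ℓ / c) * (1 / c)
        - 3 * a₆ * (ℓ / c) ^ 2 * (1 / c)) := by
  have h : x₁ * y₂ * y₃ + x₂ * y₁ * y₃ + x₃ * y₁ * y₂ =
      a₃ * ℓ ^ 2 * c - 3 * a₆ * ℓ ^ 2 - a₁ * ℓ * c ^ 2 + 2 * a₄ * ℓ * c - a₂ * c ^ 2 := by
    subst hy₁ hy₂ hy₃
    linear_combination 3 * ℓ ^ 2 * E3 + 2 * ℓ * c * E2 + c ^ 2 * E1
  rw [h]
  field_simp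
  ring

/-! ### Vieta's formulas for the addition law -/

section Add

variable [DecidableEq K]

/-- Vieta: the three roots of the cubic cut out by the line through two points. -/
theorem vieta {x₁ x₂ y₁ y₂ : K} (h₁ : W.Equation x₁ y₁) (h₂ : W.Equation x₂ y₂)
    (hxy : ¬(x₁ = x₂ ∧ y₁ = W.negY x₂ y₂)) :
    (x₁ * x₂ + x₁ * W.addX x₁ x₂ (W.slope x₁ x₂ y₁ y₂)
        + x₂ * W.addX x₁ x₂ (W.slope x₁ x₂ y₁ y₂)
      = -(2 * W.slope x₁ x₂ y₁ y₂ * (y₁ - W.slope x₁ x₂ y₁ y₂ * x₁)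
          + W.a₁ * (y₁ - W.slope x₁ x₂ y₁ y₂ * x₁) + W.a₃ * W.slope x₁ x₂ y₁ y₂ - W.a₄)) ∧
    (x₁ * x₂ * W.addX x₁ x₂ (W.slope x₁ x₂ y₁ y₂)
      = (y₁ - W.slope x₁ x₂ y₁ y₂ * x₁) ^ 2 + W.a₃ * (y₁ - W.slope x₁ x₂ y₁ y₂ * x₁)
          - W.a₆) := by
  have h := WeierstrassCurve.Affine.addPolynomial_slope h₁ h₂ hxy
  have e0 := congrArg (Polynomial.eval 0) h
  have e1 := congrArg (Polynomial.eval 1) h
  simp only [WeierstrassCurve.Affine.addPolynomial, WeierstrassCurve.Affine.linePolynomial,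
    WeierstrassCurve.Affine.polynomial, Polynomial.eval_add, Polynomial.eval_sub,
    Polynomial.eval_mul, Polynomial.eval_pow, Polynomial.eval_C, Polynomial.eval_X,
    Polynomial.eval_neg] at e0 e1
  simp only [WeierstrassCurve.Affine.addX] at e0 e1
  refine ⟨?_, ?_⟩
  · simp only [WeierstrassCurve.Affine.addX]
    linear_combination e1 - e0
  · simp only [WeierstrassCurve.Affine.addX]
    linear_combination -e0

theorem line_bounds (hW : IntegralCoeffs v W) {γ : Γ} (hγ : γ < 1)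
    {x₁ y₁ x₂ y₂ : K} (h₁ : W.Equation x₁ y₁) (h₂ : W.Equation x₂ y₂)
    (hx₁ : 1 < v x₁) (hx₂ : 1 < v x₂) (ht₁ : v (x₁ / y₁) ≤ γ) (ht₂ : v (x₂ / y₂) ≤ γ)
    (hxy : ¬(x₁ = x₂ ∧ y₁ = W.negY x₂ y₂)) :
    y₁ - W.slope x₁ x₂ y₁ y₂ * x₁ ≠ 0 ∧
      v (W.slope x₁ x₂ y₁ y₂ / (y₁ - W.slope x₁ x₂ y₁ y₂ * x₁)) ≤ γ ^ 2 ∧
      v (1 / (y₁ - W.slope x₁ x₂ y₁ y₂ * x₁)) ≤ γ ^ 3 ∧
      y₂ = W.slope x₁ x₂ y₁ y₂ * x₂ + (y₁ - W.slope x₁ x₂ y₁ y₂ * x₁) := by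
  by_cases hx : x₁ = x₂
  · have hy : y₁ ≠ W.negY x₂ y₂ := fun h => hxy ⟨hx, h⟩
    have hyy : y₁ = y₂ := WeierstrassCurve.Affine.Y_eq_of_Y_ne h₁ h₂ hx hy
    subst hx hyy
    rw [WeierstrassCurve.Affine.slope_of_Y_ne rfl hy]
    obtain ⟨hc, hμ, hκ⟩ := line_bounds_tangent hW h₁ hx₁ ht₁ hy
    exact ⟨hc, hμ, hκ, by ring⟩
  · rw [WeierstrassCurve.Affine.slope_of_X_ne hx]
    obtain ⟨hc, hμ, hκ⟩ := line_bounds_secant hW hγ h₁ h₂ hx₁ hx₂ ht₁ ht₂ hx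
    refine ⟨hc, hμ, hκ, ?_⟩
    have : x₁ - x₂ ≠ 0 := sub_ne_zero.mpr hx
    field_simp
    ring


/-- **Main estimate.** For two points of the kernel of reduction with `t`-coordinates of valuation
`≤ γ < 1` and `P₁ + P₂ ≠ 0`, the sum lies in the kernel and `t` is additive modulo `γ ^ 2`. -/
theorem add_estimate (hW : IntegralCoeffs v W) {γ : Γ} (hγ : γ < 1)
    {x₁ y₁ x₂ y₂ : K} (h₁ : W.Equation x₁ y₁) (h₂ : W.Equation x₂ y₂)
    (hx₁ : 1 < v x₁) (hx₂ : 1 < v x₂) (ht₁ : v (x₁ / y₁) ≤ γ) (ht₂ : v (x₂ / y₂) ≤ γ)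
    (hxy : ¬(x₁ = x₂ ∧ y₁ = W.negY x₂ y₂)) :
    1 < v (W.addX x₁ x₂ (W.slope x₁ x₂ y₁ y₂)) ∧
      v (W.addX x₁ x₂ (W.slope x₁ x₂ y₁ y₂) / W.addY x₁ x₂ y₁ (W.slope x₁ x₂ y₁ y₂)) ≤ γ ∧
      v (W.addX x₁ x₂ (W.slope x₁ x₂ y₁ y₂) / W.addY x₁ x₂ y₁ (W.slope x₁ x₂ y₁ y₂)
          - x₁ / y₁ - x₂ / y₂) ≤ γ ^ 2 := by
  have hγ1 : γ ≤ 1 := hγ.le
  have hγ2 : γ ^ 2 ≤ γ := sq_le_self_of_le_one hγ1
  have hγ3 : γ ^ 3 ≤ γ ^ 2 := cube_le_sq_of_le_one hγ1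
  have hγ21 : γ ^ 2 ≤ 1 := hγ2.trans hγ1
  obtain ⟨hc, hμv, hκv, hy₂⟩ := line_bounds hW hγ h₁ h₂ hx₁ hx₂ ht₁ ht₂ hxy
  obtain ⟨E2, E3⟩ := vieta h₁ h₂ hxy
  have hEq₃' := WeierstrassCurve.Affine.equation_negAdd h₁ h₂ hxy
  have hEq₃ := WeierstrassCurve.Affine.equation_add h₁ h₂ hxy
  have hy₁0 : y₁ ≠ 0 := y_ne_zero hW h₁ hx₁
  have hy₂0 : y₂ ≠ 0 := y_ne_zero hW h₂ hx₂
  set ℓ := W.slope x₁ x₂ y₁ y₂ with hℓ
  set c := y₁ - ℓ * x₁ with hcdef
  set x₃ := W.addX x₁ x₂ ℓ with hx₃def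
  set y₃' := W.negAddY x₁ x₂ y₁ ℓ with hy₃'def
  set y₃ := W.addY x₁ x₂ y₁ ℓ with hy₃def
  have E1 : x₁ + x₂ + x₃ = ℓ ^ 2 + W.a₁ * ℓ - W.a₂ := by
    rw [hx₃def, WeierstrassCurve.Affine.addX]; ring
  have hy₁ : y₁ = ℓ * x₁ + c := by rw [hcdef]; ring
  have hy₃' : y₃' = ℓ * x₃ + c := by
    rw [hy₃'def, WeierstrassCurve.Affine.negAddY, hcdef]; ring
  have hy₃ : y₃ = -y₃' - W.a₁ * x₃ - W.a₃ := by
    rw [hy₃def, WeierstrassCurve.Affine.addY, WeierstrassCurve.Affine.negY]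
  set μ := ℓ / c with hμdef
  set κ := 1 / c with hκdef
  have hP := prod_y_formula (a₁ := W.a₁) E1 E2 E3 hy₁ hy₂ hy₃' hc
  have hS := sum_xyy_formula (a₁ := W.a₁) E1 E2 E3 hy₁ hy₂ hy₃' hc
  rw [← hμdef] at hP hS
  rw [← hκdef] at hS
  set den := 1 - W.a₂ * μ + W.a₄ * μ ^ 2 - W.a₆ * μ ^ 3 with hdendef
  set T := -W.a₁ * μ - W.a₂ * κ + W.a₃ * μ ^ 2 + 2 * W.a₄ * μ * κ - 3 * W.a₆ * μ ^ 2 * κ
    with hTdef
  have hμ1 : v μ ≤ 1 := hμv.trans hγ21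
  have hκ2 : v κ ≤ γ ^ 2 := hκv.trans hγ3
  -- valuation of `den`
  have hdenv : v den = 1 := by
    have hsmall : v (-(W.a₂ * μ) + W.a₄ * μ ^ 2 - W.a₆ * μ ^ 3) < 1 := by
      refine lt_of_le_of_lt ?_ hγ
      refine v.map_sub_le (v.map_add_le ?_ ?_) ?_
      · rw [Valuation.map_neg, map_mul]
        exact (mul_le_of_le_one_left' hW.a₂).trans (hμv.trans hγ2)
      · rw [map_mul, map_pow]
        refine (mul_le_of_le_one_left' hW.a₄).trans ?_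
        exact (sq_le_self_of_le_one hμ1).trans (hμv.trans hγ2)
      · rw [map_mul, map_pow]
        refine (mul_le_of_le_one_left' hW.a₆).trans ?_
        exact (cube_le_self_of_le_one hμ1).trans (hμv.trans hγ2)
    have : den = 1 + (-(W.a₂ * μ) + W.a₄ * μ ^ 2 - W.a₆ * μ ^ 3) := by rw [hdendef]; ring
    rw [this]
    exact v.map_one_add_of_lt hsmall
  have hden0 : den ≠ 0 := by
    intro h0; rw [h0, map_zero] at hdenv; exact zero_ne_one hdenv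
  -- valuation of `T`
  have hTv : v T ≤ γ ^ 2 := by
    refine v.map_sub_le (v.map_add_le (v.map_add_le (v.map_sub_le ?_ ?_) ?_) ?_) ?_
    · rw [neg_mul, Valuation.map_neg, map_mul]
      exact (mul_le_of_le_one_left' hW.a₁).trans hμv
    · rw [map_mul]
      exact (mul_le_of_le_one_left' hW.a₂).trans hκ2
    · rw [map_mul, map_pow]
      exact (mul_le_of_le_one_left' hW.a₃).trans ((sq_le_self_of_le_one hμ1).trans hμv)
    · rw [map_mul, map_mul, map_mul]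
      calc v 2 * v W.a₄ * v μ * v κ ≤ 1 * 1 * 1 * γ ^ 2 := by
            gcongr
            · exact val_two_le_one v
            · exact hW.a₄
        _ = γ ^ 2 := by simp
    · rw [map_mul, map_mul, map_mul, map_pow]
      calc v 3 * v W.a₆ * v μ ^ 2 * v κ ≤ 1 * 1 * 1 * γ ^ 2 := by
            gcongr
            · exact val_three_le_one v
            · exact hW.a₆
            · exact pow_le_one₀ zero_le hμ1
        _ = γ ^ 2 := by simp
  -- the third point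
  have hc3 : c ^ 3 ≠ 0 := pow_ne_zero 3 hc
  have hy₃'0 : y₃' ≠ 0 := by
    intro h0
    rw [h0, mul_zero] at hP
    exact mul_ne_zero hc3 hden0 hP.symm
  have hsum : x₁ / y₁ + x₂ / y₂ + x₃ / y₃' = T / den := by
    have h1 : x₁ / y₁ + x₂ / y₂ + x₃ / y₃'
        = (x₁ * y₂ * y₃' + x₂ * y₁ * y₃' + x₃ * y₁ * y₂) / (y₁ * y₂ * y₃') := by
      field_simp
    rw [h1, hS, hP]
    field_simp
  have hsumv : v (x₁ / y₁ + x₂ / y₂ + x₃ / y₃') ≤ γ ^ 2 := by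
    rw [hsum, map_div₀, hdenv, div_one]; exact hTv
  have ht₃'v : v (x₃ / y₃') ≤ γ := by
    have : x₃ / y₃' = (x₁ / y₁ + x₂ / y₂ + x₃ / y₃') - x₁ / y₁ - x₂ / y₂ := by ring
    rw [this]
    exact v.map_sub_le (v.map_sub_le (hsumv.trans hγ2) ht₁) ht₂
  have hs₃' : 1 / y₃' = κ - μ * (x₃ / y₃') := by
    rw [hκdef, hμdef]
    field_simp
    rw [hy₃']
    ring
  have hs₃'v : v (1 / y₃') < 1 := by
    rw [hs₃']
    refine lt_of_le_of_lt (v.map_sub_le (hκ2.trans hγ2) ?_) hγ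
    rw [map_mul]
    calc v μ * v (x₃ / y₃') ≤ 1 * γ := by gcongr
      _ = γ := one_mul γ
  have hy₃'v : 1 < v y₃' := by
    rw [map_div₀, map_one] at hs₃'v
    have hpos : 0 < v y₃' := zero_lt_iff.mpr ((map_ne_zero v).mpr hy₃'0)
    exact (div_lt_one₀ hpos).mp hs₃'v
  have hx₃v : 1 < v x₃ := one_lt_val_x_of_one_lt_val_y hW hEq₃' hy₃'v
  have hx₃0 : x₃ ≠ 0 := x_ne_zero hx₃v
  have hy₃0 : y₃ ≠ 0 := y_ne_zero hW hEq₃ hx₃v
  have ht₃lt : v (x₃ / y₃) < 1 := val_t_lt_one hW hEq₃ hx₃v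
  have hs₃ : v (1 / y₃) = v (x₃ / y₃) ^ 3 := val_s_eq hW hEq₃ hx₃v
  -- negation
  have hneg : x₃ / y₃ + x₃ / y₃' = -(x₃ / y₃') * (W.a₁ * (x₃ / y₃) + W.a₃ * (1 / y₃)) := by
    field_simp
    rw [hy₃]
    ring
  have hbr : v (W.a₁ * (x₃ / y₃) + W.a₃ * (1 / y₃)) ≤ v (x₃ / y₃) := by
    refine v.map_add_le ?_ ?_
    · rw [map_mul]; exact mul_le_of_le_one_left' hW.a₁
    · rw [map_mul, hs₃]
      exact (mul_le_of_le_one_left' hW.a₃).trans (cube_le_self_of_le_one ht₃lt.le)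
  have ht₃'0 : v (x₃ / y₃') ≠ 0 := by
    rw [ne_eq, map_eq_zero]; exact div_ne_zero hx₃0 hy₃'0
  have hneglt : v (x₃ / y₃ + x₃ / y₃') < v (x₃ / y₃') := by
    rw [hneg, map_mul, Valuation.map_neg]
    calc v (x₃ / y₃') * v (W.a₁ * (x₃ / y₃) + W.a₃ * (1 / y₃))
        ≤ v (x₃ / y₃') * v (x₃ / y₃) := by gcongr
      _ < v (x₃ / y₃') * 1 := mul_lt_mul_of_pos_left ht₃lt (zero_lt_iff.mpr ht₃'0)
      _ = v (x₃ / y₃') := mul_one _
  have ht₃eq : v (x₃ / y₃) = v (x₃ / y₃') := by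
    have : x₃ / y₃ = (x₃ / y₃ + x₃ / y₃') + -(x₃ / y₃') := by ring
    rw [this, v.map_add_eq_of_lt_right (by rwa [Valuation.map_neg]), Valuation.map_neg]
  have ht₃v : v (x₃ / y₃) ≤ γ := ht₃eq.le.trans ht₃'v
  have hnegv : v (x₃ / y₃ + x₃ / y₃') ≤ γ ^ 2 := by
    rw [hneg, map_mul, Valuation.map_neg, sq]
    exact mul_le_mul' ht₃'v (hbr.trans ht₃v)
  refine ⟨hx₃v, ht₃v, ?_⟩
  have : x₃ / y₃ - x₁ / y₁ - x₂ / y₂
      = (x₃ / y₃ + x₃ / y₃') - (x₁ / y₁ + x₂ / y₂ + x₃ / y₃') := by ring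
  rw [this]
  exact v.map_sub_le hnegv hsumv

end Add


/-! ### The kernel of reduction as a filtered group -/

section Point

variable [DecidableEq K]

/-- The `t`-coordinate `x / y` of a point (`0` at infinity). -/
noncomputable def tOf : W.Point → K
  | .zero => 0
  | .some x y _ => x / y

/-- `InKer v γ P`: the point `P` is `0` or satisfies `1 < v x` and `v (x / y) ≤ γ`. -/
def InKer (v : Valuation K Γ) (γ : Γ) : W.Point → Prop
  | .zero => True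
  | .some x y _ => 1 < v x ∧ v (x / y) ≤ γ

omit [DecidableEq K] in
@[simp] theorem tOf_zero : tOf (0 : W.Point) = 0 := rfl

omit [DecidableEq K] in
@[simp] theorem tOf_some {x y : K} (h : W.Nonsingular x y) :
    tOf (WeierstrassCurve.Affine.Point.some x y h) = x / y := rfl

omit [DecidableEq K] in
@[simp] theorem inKer_zero (γ : Γ) : InKer v γ (0 : W.Point) := trivial

omit [DecidableEq K] in
@[simp] theorem inKer_some {γ : Γ} {x y : K} (h : W.Nonsingular x y) :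
    InKer v γ (WeierstrassCurve.Affine.Point.some x y h) ↔ 1 < v x ∧ v (x / y) ≤ γ := Iff.rfl

theorem inKer_add (hW : IntegralCoeffs v W) {γ : Γ} (hγ : γ < 1) {P Q : W.Point}
    (hP : InKer v γ P) (hQ : InKer v γ Q) :
    InKer v γ (P + Q) ∧ v (tOf (P + Q) - tOf P - tOf Q) ≤ γ ^ 2 := by
  rcases P with _ | ⟨x₁, y₁, h₁⟩
  · have : (WeierstrassCurve.Affine.Point.zero : W.Point) = 0 := rfl
    rw [this, zero_add]
    refine ⟨hQ, ?_⟩
    simp
  rcases Q with _ | ⟨x₂, y₂, h₂⟩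
  · have : (WeierstrassCurve.Affine.Point.zero : W.Point) = 0 := rfl
    rw [this, add_zero]
    refine ⟨hP, ?_⟩
    simp
  obtain ⟨hx₁, ht₁⟩ := hP
  obtain ⟨hx₂, ht₂⟩ := hQ
  by_cases hxy : x₁ = x₂ ∧ y₁ = W.negY x₂ y₂
  · rw [WeierstrassCurve.Affine.Point.add_of_Y_eq hxy.1 hxy.2]
    refine ⟨inKer_zero γ, ?_⟩
    obtain ⟨rfl, hy⟩ := hxy
    have hy₁0 : y₁ ≠ 0 := y_ne_zero hW h₁.1 hx₁
    have hy₂0 : y₂ ≠ 0 := y_ne_zero hW h₂.1 hx₂
    have hs₂ : v (1 / y₂) ≤ γ := by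
      rw [val_s_eq hW h₂.1 hx₂]
      exact (cube_le_self_of_le_one (ht₂.trans hγ.le)).trans ht₂
    have key : tOf (0 : W.Point) - tOf (WeierstrassCurve.Affine.Point.some x₁ y₁ h₁)
        - tOf (WeierstrassCurve.Affine.Point.some x₁ y₂ h₂)
        = (x₁ / y₁) * (W.a₁ * (x₁ / y₂) + W.a₃ * (1 / y₂)) := by
      simp only [tOf_zero, tOf_some]
      field_simp
      rw [hy, WeierstrassCurve.Affine.negY]
      ring
    rw [key, map_mul, sq]
    refine mul_le_mul' ht₁ (v.map_add_le ?_ ?_)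
    · rw [map_mul]; exact (mul_le_of_le_one_left' hW.a₁).trans ht₂
    · rw [map_mul]; exact (mul_le_of_le_one_left' hW.a₃).trans hs₂
  · rw [WeierstrassCurve.Affine.Point.add_some hxy]
    obtain ⟨h3, h4, h5⟩ := add_estimate hW hγ h₁.1 h₂.1 hx₁ hx₂ ht₁ ht₂ hxy
    exact ⟨⟨h3, h4⟩, h5⟩

theorem inKer_nsmul (hW : IntegralCoeffs v W) {γ : Γ} (hγ : γ < 1) {P : W.Point}
    (hP : InKer v γ P) (k : ℕ) :
    InKer v γ (k • P) ∧ v (tOf (k • P) - k * tOf P) ≤ γ ^ 2 := by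
  induction k with
  | zero => simp
  | succ k ih =>
    obtain ⟨ih1, ih2⟩ := ih
    obtain ⟨h1, h2⟩ := inKer_add hW hγ ih1 hP
    rw [succ_nsmul]
    refine ⟨h1, ?_⟩
    have : tOf (k • P + P) - ((k + 1 : ℕ) : K) * tOf P
        = (tOf (k • P + P) - tOf (k • P) - tOf P) + (tOf (k • P) - k * tOf P) := by
      push_cast; ring
    rw [this]
    exact v.map_add_le h2 ih2

/-- **No torsion in the kernel of reduction**: if `v n = 1`, a point `(x, y)` with `1 < v x` on an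
integral Weierstrass equation is not killed by `n`. -/
theorem nsmul_ne_zero_of_one_lt_val (hW : IntegralCoeffs v W) {n : ℕ} (hn : v (n : K) = 1)
    {x y : K} (h : W.Nonsingular x y) (hx : 1 < v x) :
    n • WeierstrassCurve.Affine.Point.some x y h ≠ 0 := by
  intro h0
  have hγ : v (x / y) < 1 := val_t_lt_one hW h.1 hx
  have hγ0 : v (x / y) ≠ 0 := val_t_ne_zero hW h.1 hx
  have hP : InKer v (v (x / y)) (WeierstrassCurve.Affine.Point.some x y h) := ⟨hx, le_rfl⟩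
  obtain ⟨-, h2⟩ := inKer_nsmul hW hγ hP n
  rw [h0, tOf_zero, tOf_some, zero_sub, Valuation.map_neg, map_mul, hn, one_mul] at h2
  exact absurd h2 (not_le.mpr (sq_lt_self_of_lt_one hγ0 hγ))

end Point

end Fermat.Agent.S05.KR

namespace Fermat.Agent.S05

open WeierstrassCurve

/-- **Package (1)**: the kernel of reduction of an integral Weierstrass curve has no `n`-torsion
for `n` a unit of the valuation ring (`n ≠ 0` in `K` and `n⁻¹ ∈ A`). -/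
theorem no_torsion_kernel_reduction {K : Type*} [Field K] [DecidableEq K]
    (A : ValuationSubring K) (W : WeierstrassCurve K)
    (ha₁ : W.a₁ ∈ A) (ha₂ : W.a₂ ∈ A) (ha₃ : W.a₃ ∈ A) (ha₄ : W.a₄ ∈ A) (ha₆ : W.a₆ ∈ A)
    (n : ℕ) (hn0 : (n : K) ≠ 0) (hn' : ((n : K))⁻¹ ∈ A)
    {x y : K} (h : W.toAffine.Nonsingular x y) (hx : x ∉ A) :
    n • (WeierstrassCurve.Affine.Point.some x y h) ≠ 0 := by
  have hW : KR.IntegralCoeffs A.valuation W.toAffine :=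
    ⟨(A.valuation_le_one_iff _).mpr ha₁, (A.valuation_le_one_iff _).mpr ha₂,
      (A.valuation_le_one_iff _).mpr ha₃, (A.valuation_le_one_iff _).mpr ha₄,
      (A.valuation_le_one_iff _).mpr ha₆⟩
  have hnv : A.valuation (n : K) = 1 := by
    have h1 : A.valuation (n : K) ≤ 1 := KR.val_natCast_le_one _ n
    have h2 : A.valuation ((n : K)⁻¹) ≤ 1 := (A.valuation_le_one_iff _).mpr hn'
    rw [map_inv₀] at h2
    have h0 : A.valuation (n : K) ≠ 0 := (map_ne_zero _).mpr hn0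
    exact le_antisymm h1 ((inv_le_one₀ (zero_lt_iff.mpr h0)).mp h2)
  have hxv : 1 < A.valuation x := by
    rw [← not_le, A.valuation_le_one_iff]; exact hx
  exact KR.nsmul_ne_zero_of_one_lt_val hW hnv h hxv

/-- Torsion points of order prime to the residue characteristic have integral coordinates. -/
theorem mem_of_nsmul_eq_zero {K : Type*} [Field K] [DecidableEq K]
    (A : ValuationSubring K) (W : WeierstrassCurve K)
    (ha₁ : W.a₁ ∈ A) (ha₂ : W.a₂ ∈ A) (ha₃ : W.a₃ ∈ A) (ha₄ : W.a₄ ∈ A) (ha₆ : W.a₆ ∈ A)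
    (n : ℕ) (hn0 : (n : K) ≠ 0) (hn' : ((n : K))⁻¹ ∈ A)
    {x y : K} (h : W.toAffine.Nonsingular x y)
    (htors : n • (WeierstrassCurve.Affine.Point.some x y h) = 0) : x ∈ A ∧ y ∈ A := by
  have hx : x ∈ A := by
    by_contra hx
    exact no_torsion_kernel_reduction A W ha₁ ha₂ ha₃ ha₄ ha₆ n hn0 hn' h hx htors
  refine ⟨hx, ?_⟩
  by_contra hy
  have hW : KR.IntegralCoeffs A.valuation W.toAffine :=
    ⟨(A.valuation_le_one_iff _).mpr ha₁, (A.valuation_le_one_iff _).mpr ha₂,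
      (A.valuation_le_one_iff _).mpr ha₃, (A.valuation_le_one_iff _).mpr ha₄,
      (A.valuation_le_one_iff _).mpr ha₆⟩
  have hyv : 1 < A.valuation y := by
    rw [← not_le, A.valuation_le_one_iff]; exact hy
  have hxv := KR.one_lt_val_x_of_one_lt_val_y hW h.1 hyv
  rw [← not_le, A.valuation_le_one_iff] at hxv
  exact hxv hx

end Fermat.Agent.S05
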