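import Mathlib

set_option autoImplicit false
set_option linter.unusedSectionVars false
set_option linter.unusedVariables false

namespace Fermat.Agent.S05

variable {Γ₀ : Type*} [LinearOrderedCommGroupWithZero Γ₀]

/-- Clamp a value to the interval `[t, 1]`. -/
def clamp (t a : Γ₀) : Γ₀ := max t (min 1 a)

lemma clamp_of_one_le {t a : Γ₀} (ht : t ≤ 1) (ha : 1 ≤ a) : clamp t a = 1 := by
  rw [clamp, min_eq_left ha, max_eq_right ht]

lemma clamp_of_le {t a : Γ₀} (ht : t ≤ 1) (ha : a ≤ t) : clamp t a = t := by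
  rw [clamp, min_eq_right (ha.trans ht), max_eq_left ha]

lemma clamp_of_mem {t a : Γ₀} (h1 : t ≤ a) (h2 : a ≤ 1) : clamp t a = a := by
  rw [clamp, min_eq_right h2, max_eq_right h1]

lemma le_clamp (t a : Γ₀) : t ≤ clamp t a := le_max_left _ _

lemma clamp_le_one {t a : Γ₀} (ht : t ≤ 1) : clamp t a ≤ 1 :=
  max_le ht (min_le_left _ _)

lemma clamp_ne_zero {t a : Γ₀} (ht : t ≠ 0) : clamp t a ≠ 0 := by
  intro h
  have := le_clamp t a
  rw [h] at this
  exact ht (le_antisymm this zero_le)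

/-- `a` and `b` are equal up to inversion and multiplication by an even power of `t`. -/
def Rel (t a b : Γ₀) : Prop :=
  ∃ k l : ℕ, a * t ^ (2 * k) = b * t ^ (2 * l) ∨ a * b * t ^ (2 * k) = t ^ (2 * l)

lemma Rel.refl (t a : Γ₀) : Rel t a a := ⟨0, 0, Or.inl rfl⟩

lemma Rel.of_eq {t a b : Γ₀} (h : a = b) : Rel t a b := h ▸ Rel.refl t a

lemma Rel.symm {t a b : Γ₀} (h : Rel t a b) : Rel t b a := by
  obtain ⟨k, l, h | h⟩ := h
  · exact ⟨l, k, Or.inl h.symm⟩
  · exact ⟨k, l, Or.inr (by rw [mul_comm b a]; exact h)⟩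

lemma Rel.trans {t a b c : Γ₀} (h1 : Rel t a b) (h2 : Rel t b c) : Rel t a c := by
  obtain ⟨k, l, h1 | h1⟩ := h1 <;> obtain ⟨k', l', h2 | h2⟩ := h2
  · refine ⟨k + k', l' + l, Or.inl ?_⟩
    calc a * t ^ (2 * (k + k')) = (a * t ^ (2 * k)) * t ^ (2 * k') := by
          rw [mul_add, pow_add, mul_assoc]
      _ = (b * t ^ (2 * k')) * t ^ (2 * l) := by rw [h1]; ac_rfl
      _ = c * t ^ (2 * (l' + l)) := by rw [h2, mul_add, pow_add, mul_assoc]
  · refine ⟨k + k', l + l', Or.inr ?_⟩
    calc a * c * t ^ (2 * (k + k')) = (a * t ^ (2 * k)) * c * t ^ (2 * k') := by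
          rw [mul_add, pow_add]; ac_rfl
      _ = (b * c * t ^ (2 * k')) * t ^ (2 * l) := by rw [h1]; ac_rfl
      _ = t ^ (2 * (l + l')) := by rw [h2, mul_add, pow_add, mul_comm]
  · refine ⟨k + l', l + k', Or.inr ?_⟩
    calc a * c * t ^ (2 * (k + l')) = (a * t ^ (2 * k)) * (c * t ^ (2 * l')) := by
          rw [mul_add, pow_add]; ac_rfl
      _ = (a * b * t ^ (2 * k)) * t ^ (2 * k') := by rw [← h2]; ac_rfl
      _ = t ^ (2 * (l + k')) := by rw [h1, mul_add, pow_add]
  · refine ⟨k + l', l + k', Or.inl ?_⟩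
    calc a * t ^ (2 * (k + l')) = (a * t ^ (2 * k)) * t ^ (2 * l') := by
          rw [mul_add, pow_add, mul_assoc]
      _ = (a * t ^ (2 * k)) * (b * c * t ^ (2 * k')) := by rw [h2]
      _ = (a * b * t ^ (2 * k)) * (c * t ^ (2 * k')) := by ac_rfl
      _ = c * t ^ (2 * (l + k')) := by rw [h1, mul_add, pow_add]; ac_rfl

lemma Rel.of_mul_eq_one {t a b : Γ₀} (h : a * b = 1) : Rel t a b :=
  ⟨0, 0, Or.inr (by rw [h]; simp)⟩

lemma Rel.of_mul_eq_sq {t a b : Γ₀} (h : a * b = t * t) : Rel t a b :=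
  ⟨0, 1, Or.inr (by rw [h]; simp [pow_two])⟩

/-- The pair `(κ₁, κ₂)` is related to the pair `(c * d, c / d)` in some order. -/
def PairRel (t κ₁ κ₂ c d : Γ₀) : Prop :=
  (Rel t κ₁ (c * d) ∧ Rel t κ₂ (c / d)) ∨ (Rel t κ₁ (c / d) ∧ Rel t κ₂ (c * d))

lemma PairRel.swap {t κ₁ κ₂ c d : Γ₀} (h : PairRel t κ₁ κ₂ c d) : PairRel t κ₂ κ₁ c d := by
  rcases h with ⟨h1, h2⟩ | ⟨h1, h2⟩
  · exact Or.inr ⟨h2, h1⟩
  · exact Or.inl ⟨h2, h1⟩

lemma Rel.div_comm {t c d : Γ₀} (hc : c ≠ 0) (hd : d ≠ 0) : Rel t (c / d) (d / c) :=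
  Rel.of_mul_eq_one (by field_simp)

lemma PairRel.comm {t κ₁ κ₂ c d : Γ₀} (hc : c ≠ 0) (hd : d ≠ 0) (h : PairRel t κ₁ κ₂ c d) :
    PairRel t κ₁ κ₂ d c := by
  rcases h with ⟨h1, h2⟩ | ⟨h1, h2⟩
  · exact Or.inl ⟨by rwa [mul_comm], h2.trans (Rel.div_comm hc hd)⟩
  · exact Or.inr ⟨h1.trans (Rel.div_comm hc hd), by rwa [mul_comm]⟩

/-- Uniqueness of representatives in `[t, 1]`. -/
lemma Rel.eq_of_mem {t a b : Γ₀} (ht0 : t ≠ 0) (ht1 : t < 1) (ha : t ≤ a) (ha' : a ≤ 1)
    (hb : t ≤ b) (hb' : b ≤ 1) (h : Rel t a b) : a = b := by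
  have htpos : 0 < t := zero_lt_iff.2 ht0
  have hpow_lt : ∀ n : ℕ, 0 < n → t ^ (2 * n) < t := by
    intro n hn
    calc t ^ (2 * n) ≤ t ^ 2 := pow_le_pow_right_of_le_one' ht1.le (by omega)
      _ = t * t := pow_two t
      _ < t * 1 := mul_lt_mul_of_pos_left ht1 htpos
      _ = t := mul_one t
  have key : ∀ a b : Γ₀, t ≤ a → a ≤ 1 → t ≤ b → b ≤ 1 → ∀ k l : ℕ, l ≤ k →
      a * t ^ (2 * k) = b * t ^ (2 * l) → a = b := by
    intro a b ha ha' hb hb' k l hlk h
    obtain ⟨d, rfl⟩ := Nat.exists_eq_add_of_le hlk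
    rw [mul_add, pow_add, ← mul_assoc] at h
    have h' : a * t ^ (2 * l) * t ^ (2 * d) = b * t ^ (2 * l) := h
    have h'' : (a * t ^ (2 * d)) * t ^ (2 * l) = b * t ^ (2 * l) := by rw [← h']; ac_rfl
    have e := mul_right_cancel₀ (pow_ne_zero _ ht0) h''
    rcases Nat.eq_zero_or_pos d with rfl | hd
    · simpa using e
    · exfalso
      have : b < t := by
        rw [← e]
        calc a * t ^ (2 * d) ≤ 1 * t ^ (2 * d) := by gcongr
          _ = t ^ (2 * d) := one_mul _
          _ < t := hpow_lt d hd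
      exact absurd hb (not_le.2 this)
  obtain ⟨k, l, h | h⟩ := h
  · rcases le_total l k with hlk | hkl
    · exact key a b ha ha' hb hb' k l hlk h
    · exact (key b a hb hb' ha ha' l k hkl h.symm).symm
  · -- a * b * t^(2k) = t^(2l)
    rcases le_total l k with hlk | hkl
    · obtain ⟨d, rfl⟩ := Nat.exists_eq_add_of_le hlk
      have h' : (a * b * t ^ (2 * d)) * t ^ (2 * l) = 1 * t ^ (2 * l) := by
        calc (a * b * t ^ (2 * d)) * t ^ (2 * l) = a * b * t ^ (2 * (l + d)) := by
              rw [mul_add, pow_add]; ac_rfl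
          _ = t ^ (2 * l) := h
          _ = 1 * t ^ (2 * l) := (one_mul _).symm
      have e := mul_right_cancel₀ (pow_ne_zero _ ht0) h'
      -- a * b * t^(2d) = 1 with all factors ≤ 1
      have hab : a * b ≤ 1 := by
        calc a * b ≤ 1 * 1 := mul_le_mul' ha' hb'
          _ = 1 := one_mul 1
      have htd : t ^ (2 * d) ≤ 1 := pow_le_one₀ zero_le ht1.le
      have hab1 : a * b = 1 := by
        by_contra hne
        have hlt : a * b < 1 := lt_of_le_of_ne hab hne
        have : a * b * t ^ (2 * d) < 1 := by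
          calc a * b * t ^ (2 * d) ≤ a * b * 1 := by gcongr
            _ = a * b := mul_one _
            _ < 1 := hlt
        exact this.ne e
      have ha1 : a = 1 := by
        by_contra hne
        have hlt : a < 1 := lt_of_le_of_ne ha' hne
        have : a * b < 1 := by
          calc a * b ≤ a * 1 := by gcongr
            _ = a := mul_one a
            _ < 1 := hlt
        exact this.ne hab1
      have hb1 : b = 1 := by rw [ha1, one_mul] at hab1; exact hab1
      rw [ha1, hb1]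
    · obtain ⟨d, rfl⟩ := Nat.exists_eq_add_of_le hkl
      have h' : (a * b) * t ^ (2 * k) = t ^ (2 * d) * t ^ (2 * k) := by
        rw [h, mul_add, pow_add, mul_comm]
      have e := mul_right_cancel₀ (pow_ne_zero _ ht0) h'
      -- a * b = t^(2d), with a, b ∈ [t,1]
      have hab : t * t ≤ a * b := mul_le_mul' ha hb
      rcases Nat.eq_zero_or_pos d with rfl | hd
      · -- a * b = 1
        have hab1 : a * b = 1 := by simpa using e
        have ha1 : a = 1 := by
          by_contra hne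
          have hlt : a < 1 := lt_of_le_of_ne ha' hne
          have : a * b < 1 := by
            calc a * b ≤ a * 1 := by gcongr
              _ = a := mul_one a
              _ < 1 := hlt
          exact this.ne hab1
        have hb1 : b = 1 := by rw [ha1, one_mul] at hab1; exact hab1
        rw [ha1, hb1]
      · have hd1 : a * b ≤ t * t := by
          rw [e, ← pow_two]
          exact pow_le_pow_right_of_le_one' ht1.le (by omega)
        have habt : a * b = t * t := le_antisymm hd1 hab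
        have hat : a = t := by
          by_contra hne
          have hlt : t < a := lt_of_le_of_ne ha (Ne.symm hne)
          have : t * t < a * b := by
            calc t * t < a * t := mul_lt_mul_of_pos_right hlt htpos
              _ ≤ a * b := by gcongr
          exact this.ne habt.symm
        have hbt : b = t := by
          rw [hat] at habt
          exact mul_left_cancel₀ ht0 habt
        rw [hat, hbt]

end Fermat.Agent.S05
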