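import Mathlib

set_option autoImplicit false
set_option linter.unusedSectionVars false
set_option linter.unusedVariables false

namespace Fermat.Agent.S05

variable {K : Type*} [Field K] {Γ₀ : Type*} [LinearOrderedCommGroupWithZero Γ₀]
  (v : Valuation K Γ₀)

/-- If one root is strictly bigger than the other, the sum has the bigger valuation. -/
lemma val_add_of_lt {ξ₁ ξ₂ : K} (h : v ξ₂ < v ξ₁) : v (ξ₁ + ξ₂) = v ξ₁ :=
  Valuation.map_add_eq_of_lt_left v h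

lemma val_add_of_lt' {ξ₁ ξ₂ : K} (h : v ξ₁ < v ξ₂) : v (ξ₁ + ξ₂) = v ξ₂ :=
  Valuation.map_add_eq_of_lt_right v h

/-- V4: if `v(ξ₁ξ₂) ≤ m²` and `v(ξ₁+ξ₂) ≤ m` then both roots have valuation `≤ m`. -/
lemma val_roots_le {ξ₁ ξ₂ : K} {m : Γ₀} (hP : v (ξ₁ * ξ₂) ≤ m * m) (hS : v (ξ₁ + ξ₂) ≤ m) :
    v ξ₁ ≤ m ∧ v ξ₂ ≤ m := by
  rw [map_mul] at hP
  by_contra hcon
  rw [not_and_or, not_le, not_le] at hcon
  rcases lt_trichotomy (v ξ₁) (v ξ₂) with h | h | h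
  · -- v ξ₁ < v ξ₂, so v S = v ξ₂
    rw [val_add_of_lt' v h] at hS
    rcases hcon with h1 | h1
    · exact absurd (h1.trans h) (not_lt.2 hS)
    · exact absurd h1 (not_lt.2 hS)
  · rcases hcon with h1 | h1
    · have : m * m < v ξ₁ * v ξ₂ := by
        rw [← h]
        exact mul_lt_mul'' h1 h1 zero_le zero_le
      exact absurd this (not_lt.2 hP)
    · have : m * m < v ξ₁ * v ξ₂ := by
        rw [h]
        exact mul_lt_mul'' h1 h1 zero_le zero_le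
      exact absurd this (not_lt.2 hP)
  · rw [val_add_of_lt v h] at hS
    rcases hcon with h1 | h1
    · exact absurd h1 (not_lt.2 hS)
    · exact absurd (h1.trans h) (not_lt.2 hS)

/-- V1: if `v(ξ₁ξ₂) = m²` and `v(ξ₁+ξ₂) ≤ m` then both roots have valuation `m`. -/
lemma val_roots_eq {ξ₁ ξ₂ : K} {m : Γ₀} (hP : v (ξ₁ * ξ₂) = m * m) (hS : v (ξ₁ + ξ₂) ≤ m) :
    v ξ₁ = m ∧ v ξ₂ = m := by
  obtain ⟨h1, h2⟩ := val_roots_le v hP.le hS
  rw [map_mul] at hP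
  rcases eq_or_lt_of_le h1 with e1 | l1
  · rcases eq_or_lt_of_le h2 with e2 | l2
    · exact ⟨e1, e2⟩
    · exfalso
      have hm : m ≠ 0 := fun h0 => by rw [h0] at l2; exact not_lt_zero l2
      have : v ξ₁ * v ξ₂ < m * m := by
        rw [e1]
        exact mul_lt_mul_of_pos_left l2 (zero_lt_iff.2 hm)
      exact this.ne hP
  · exfalso
    have hm : m ≠ 0 := fun h0 => by rw [h0] at l1; exact not_lt_zero l1
    have : v ξ₁ * v ξ₂ < m * m := by
      calc v ξ₁ * v ξ₂ ≤ v ξ₁ * m := by gcongr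
        _ < m * m := mul_lt_mul_of_pos_right l1 (zero_lt_iff.2 hm)
    exact this.ne hP

/-- V3: if `v(ξ₁+ξ₂) = s`, `v(ξ₁ξ₂) ≤ s * s'` with `s' < s` then one root has valuation `s` and the
other has valuation `≤ s'`. -/
lemma val_roots_split_le {ξ₁ ξ₂ : K} {s s' : Γ₀} (hS : v (ξ₁ + ξ₂) = s)
    (hP : v (ξ₁ * ξ₂) ≤ s * s') (hss : s' < s) :
    (v ξ₁ = s ∧ v ξ₂ ≤ s') ∨ (v ξ₂ = s ∧ v ξ₁ ≤ s') := by
  rw [map_mul] at hP
  have hs0 : s ≠ 0 := fun h0 => by rw [h0] at hss; exact not_lt_zero hss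
  have hspos : 0 < s := zero_lt_iff.2 hs0
  rcases lt_trichotomy (v ξ₁) (v ξ₂) with h | h | h
  · right
    have e : v ξ₂ = s := by rw [← hS, val_add_of_lt' v h]
    refine ⟨e, ?_⟩
    rw [e, mul_comm] at hP
    exact le_of_mul_le_mul_left hP hspos
  · exfalso
    have hle : s ≤ v ξ₁ := by
      rw [← hS]
      exact v.map_add_le le_rfl h.ge
    have : s * s' < v ξ₁ * v ξ₂ := by
      rw [← h]
      calc s * s' < s * s := mul_lt_mul_of_pos_left hss hspos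
        _ ≤ v ξ₁ * v ξ₁ := mul_le_mul' hle hle
    exact absurd this (not_lt.2 hP)
  · left
    have e : v ξ₁ = s := by rw [← hS, val_add_of_lt v h]
    refine ⟨e, ?_⟩
    rw [e] at hP
    exact le_of_mul_le_mul_left hP hspos

/-- V2: if `v(ξ₁+ξ₂) = s`, `v(ξ₁ξ₂) = s * s'` with `s' < s` then the roots have valuations
`s` and `s'`. -/
lemma val_roots_split {ξ₁ ξ₂ : K} {s s' : Γ₀} (hS : v (ξ₁ + ξ₂) = s)
    (hP : v (ξ₁ * ξ₂) = s * s') (hss : s' < s) :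
    (v ξ₁ = s ∧ v ξ₂ = s') ∨ (v ξ₂ = s ∧ v ξ₁ = s') := by
  have hs0 : s ≠ 0 := fun h0 => by rw [h0] at hss; exact not_lt_zero hss
  rcases val_roots_split_le v hS hP.le hss with ⟨h1, h2⟩ | ⟨h1, h2⟩
  · left
    refine ⟨h1, ?_⟩
    rw [map_mul, h1] at hP
    exact mul_left_cancel₀ hs0 hP
  · right
    refine ⟨h1, ?_⟩
    rw [map_mul, h1, mul_comm] at hP
    exact mul_left_cancel₀ hs0 hP

/-- V5: if `T ≤ v(ξ₁ξ₂)`, `v(ξ₁+ξ₂) ≤ T` and `1 ≤ T` then both roots have valuation `≥ 1`. -/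
lemma val_roots_ge_one {ξ₁ ξ₂ : K} {T : Γ₀} (hP : T ≤ v (ξ₁ * ξ₂)) (hS : v (ξ₁ + ξ₂) ≤ T)
    (hT : 1 ≤ T) : 1 ≤ v ξ₁ ∧ 1 ≤ v ξ₂ := by
  rw [map_mul] at hP
  have hT0 : T ≠ 0 := fun h0 => by rw [h0] at hT; exact absurd hT (not_le.2 zero_lt_one)
  have key : ∀ a b : K, T ≤ v a * v b → v (a + b) ≤ T → 1 ≤ v b := by
    intro a b hab hs
    by_contra hb
    rw [not_le] at hb
    have hb0 : v b ≠ 0 := by
      intro h0
      rw [h0, mul_zero] at hab
      exact hT0 (le_antisymm hab zero_le)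
    have ha : T < v a := by
      by_contra hcon
      rw [not_lt] at hcon
      have : v a * v b < T := by
        calc v a * v b ≤ T * v b := by gcongr
          _ < T * 1 := mul_lt_mul_of_pos_left hb (zero_lt_iff.2 hT0)
          _ = T := mul_one T
      exact absurd hab (not_le.2 this)
    have hlt : v b < v a := hb.trans (lt_of_le_of_lt hT ha)
    rw [val_add_of_lt v hlt] at hs
    exact absurd ha (not_lt.2 hs)
  refine ⟨?_, key ξ₁ ξ₂ hP hS⟩
  apply key ξ₂ ξ₁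
  · rwa [mul_comm]
  · rwa [add_comm]

end Fermat.Agent.S05
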