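import Mathlib
import Fermat.Agent.S05.ValLemmas
import Fermat.Agent.S05.Rel

set_option autoImplicit false
set_option linter.unusedSectionVars false
set_option linter.unusedVariables false

namespace Fermat.Agent.S05

variable {K : Type*} [Field K] {Γ₀ : Type*} [LinearOrderedCommGroupWithZero Γ₀]
  (v : Valuation K Γ₀)

variable {a₂ a₄ x y ξ : K}

/-- If `y = 0` on the curve and `v x < 1` then `v x ≤ t`. -/
lemma val_le_of_y_eq_zero (h₂ : v a₂ = 1) (ht1 : v a₄ < 1)
    (heq : (0 : K) = x ^ 3 + a₂ * x ^ 2 + a₄ * x) (hx : v x < 1) : v x ≤ v a₄ := by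
  by_cases hx0 : x = 0
  · rw [hx0, map_zero]; exact zero_le
  · have h1 : x ^ 2 + a₂ * x + a₄ = 0 := by
      have : x * (x ^ 2 + a₂ * x + a₄) = 0 := by linear_combination -heq
      rcases mul_eq_zero.1 this with h | h
      · exact absurd h hx0
      · exact h
    have hxpos : 0 < v x := zero_lt_iff.2 ((Valuation.ne_zero_iff v).2 hx0)
    have h3 : v (x ^ 2) < v (a₂ * x) := by
      rw [map_pow, map_mul, h₂, one_mul, pow_two]
      calc v x * v x < 1 * v x := mul_lt_mul_of_pos_right hx hxpos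
        _ = v x := one_mul _
    have h4 : v (x ^ 2 + a₂ * x) = v x := by
      rw [Valuation.map_add_eq_of_lt_right v h3, map_mul, h₂, one_mul]
    have h5 : a₄ = -(x ^ 2 + a₂ * x) := by linear_combination h1
    rw [h5, Valuation.map_neg, h4]

/-- Field-level doubling lemma. -/
theorem double_val (h₂ : v a₂ = 1) (ht1 : v a₄ < 1) (ht0 : a₄ ≠ 0) (h2 : v (2 : K) = 1)
    (heq : y ^ 2 = x ^ 3 + a₂ * x ^ 2 + a₄ * x) (hy : y ≠ 0)
    (hξ : ξ * (4 * y ^ 2) = (x ^ 2 - a₄) ^ 2) (hx : v x < 1) :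
    Rel (v a₄) (clamp (v a₄) (v ξ)) (clamp (v a₄) (v x) * clamp (v a₄) (v x)) := by
  have hvt0 : v a₄ ≠ 0 := (Valuation.ne_zero_iff v).2 ht0
  have htpos : 0 < v a₄ := zero_lt_iff.2 hvt0
  have hx0 : x ≠ 0 := by
    intro h0
    apply hy
    rw [h0] at heq
    have : y ^ 2 = 0 := by rw [heq]; ring
    exact pow_eq_zero_iff (two_ne_zero) |>.1 this
  have hxpos : 0 < v x := zero_lt_iff.2 ((Valuation.ne_zero_iff v).2 hx0)
  have h4 : v (4 : K) = 1 := by
    have : (4 : K) = 2 * 2 := by norm_num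
    rw [this, map_mul, h2, one_mul]
  have hy2 : v (y ^ 2) = v x * v (x ^ 2 + a₂ * x + a₄) := by
    have : y ^ 2 = x * (x ^ 2 + a₂ * x + a₄) := by rw [heq]; ring
    rw [this, map_mul]
  have hξv : v ξ * v (y ^ 2) = v (x ^ 2 - a₄) * v (x ^ 2 - a₄) := by
    have := congrArg v hξ
    rw [map_mul, map_mul, h4, one_mul, map_pow (v) (x ^ 2 - a₄), pow_two (v (x ^ 2 - a₄))] at this
    exact this
  have hxx : v (x ^ 2) = v x * v x := by rw [map_pow, pow_two]
  have hxx_lt : v x * v x < v x := by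
    calc v x * v x < 1 * v x := mul_lt_mul_of_pos_right hx hxpos
      _ = v x := one_mul _
  rcases lt_or_ge (v a₄) (v x) with htx | hxt
  · -- t < v x < 1
    rw [clamp_of_mem htx.le hx.le]
    have hf : v (x ^ 2 + a₂ * x + a₄) = v x := by
      have h3 : v (x ^ 2) < v (a₂ * x) := by
        rw [hxx, map_mul, h₂, one_mul]; exact hxx_lt
      have h5 : v (x ^ 2 + a₂ * x) = v x := by
        rw [Valuation.map_add_eq_of_lt_right v h3, map_mul, h₂, one_mul]
      rw [Valuation.map_add_eq_of_lt_left v (by rw [h5]; exact htx), h5]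
    rw [hy2, hf] at hξv
    have hcc0 : v x * v x ≠ 0 := mul_ne_zero hxpos.ne' hxpos.ne'
    have hccpos : 0 < v x * v x := zero_lt_iff.2 hcc0
    have hcc1 : v x * v x ≤ 1 := hxx_lt.le.trans hx.le
    rcases lt_trichotomy (v a₄) (v x * v x) with h | h | h
    · have hω : v (x ^ 2 - a₄) = v x * v x := by
        rw [Valuation.map_sub_eq_of_lt_left v (by rw [hxx]; exact h), hxx]
      rw [hω] at hξv
      have e : v ξ = v x * v x := mul_right_cancel₀ hcc0 hξv
      rw [e, clamp_of_mem h.le hcc1]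
      exact Rel.refl _ _
    · have hω : v (x ^ 2 - a₄) ≤ v a₄ := Valuation.map_sub_le v (by rw [hxx, h]) le_rfl
      have : v ξ ≤ v a₄ := by
        have : v ξ * v a₄ ≤ v a₄ * v a₄ := by
          rw [h, hξv]
          exact mul_le_mul' (h ▸ hω) (h ▸ hω)
        exact le_of_mul_le_mul_right this htpos
      rw [clamp_of_le ht1.le this]
      exact Rel.of_eq h
    · have hω : v (x ^ 2 - a₄) = v a₄ := by
        rw [Valuation.map_sub_eq_of_lt_right v (by rw [hxx]; exact h)]
      rw [hω] at hξv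
      have e : v ξ = v a₄ * v a₄ / (v x * v x) := by
        rw [eq_div_iff hcc0]; exact hξv
      have h1 : v a₄ * v a₄ / (v x * v x) ≤ 1 := by
        rw [div_le_one₀ hccpos]
        exact mul_le_mul' htx.le htx.le
      have h2' : v a₄ ≤ v a₄ * v a₄ / (v x * v x) := by
        rw [le_div_iff₀ hccpos]
        exact mul_le_mul' le_rfl h.le
      rw [e, clamp_of_mem h2' h1]
      exact Rel.of_mul_eq_sq (by rw [div_mul_cancel₀ _ hcc0])
  · -- v x ≤ t
    rw [clamp_of_le ht1.le hxt]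
    have htt_lt : v a₄ * v a₄ < v a₄ := by
      calc v a₄ * v a₄ < 1 * v a₄ := mul_lt_mul_of_pos_right ht1 htpos
        _ = v a₄ := one_mul _
    have hω : v (x ^ 2 - a₄) = v a₄ := by
      rw [Valuation.map_sub_eq_of_lt_right v]
      rw [hxx]
      exact lt_of_le_of_lt (mul_le_mul' hxt hxt) htt_lt
    have hf : v (x ^ 2 + a₂ * x + a₄) ≤ v a₄ := by
      refine v.map_add_le (v.map_add_le ?_ ?_) le_rfl
      · rw [hxx]; exact (mul_le_mul' hxt hxt).trans htt_lt.le
      · rw [map_mul, h₂, one_mul]; exact hxt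
    have hy2le : v (y ^ 2) ≤ v a₄ * v a₄ := by
      rw [hy2]; exact mul_le_mul' hxt hf
    rw [hω] at hξv
    have hy20 : v (y ^ 2) ≠ 0 := (Valuation.ne_zero_iff v).2 (pow_ne_zero 2 hy)
    have : 1 ≤ v ξ := by
      by_contra hcon
      rw [not_le] at hcon
      have : v ξ * v (y ^ 2) < v a₄ * v a₄ := by
        calc v ξ * v (y ^ 2) < 1 * v (y ^ 2) :=
              mul_lt_mul_of_pos_right hcon (zero_lt_iff.2 hy20)
          _ = v (y ^ 2) := one_mul _
          _ ≤ v a₄ * v a₄ := hy2le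
      exact this.ne hξv
    rw [clamp_of_one_le ht1.le this]
    exact Rel.of_mul_eq_sq (one_mul _)

end Fermat.Agent.S05
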