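import Mathlib
import Fermat.Agent.S05.ValLemmas
import Fermat.Agent.S05.Rel

set_option autoImplicit false
set_option linter.unusedSectionVars false
set_option linter.unusedVariables false

namespace Fermat.Agent.S05

variable {K : Type*} [Field K] {Γ₀ : Type*} [LinearOrderedCommGroupWithZero Γ₀]
  (v : Valuation K Γ₀)

section basic

/-- valuation of `x₁ - x₂` when `v x₂ < v x₁`. -/
lemma val_sub_of_lt {x₁ x₂ : K} (h : v x₂ < v x₁) : v (x₁ - x₂) = v x₁ :=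
  Valuation.map_sub_eq_of_lt_left v h

/-- `v (x₁ * x₂ - a₄) = v x₁ * v x₂` when `v a₄ < v x₁ * v x₂`. -/
lemma val_mul_sub_of_lt {x₁ x₂ a₄ : K} (h : v a₄ < v x₁ * v x₂) :
    v (x₁ * x₂ - a₄) = v x₁ * v x₂ := by
  rw [Valuation.map_sub_eq_of_lt_left v (by rwa [map_mul]), map_mul]

lemma val_mul_sub_of_gt {x₁ x₂ a₄ : K} (h : v x₁ * v x₂ < v a₄) :
    v (x₁ * x₂ - a₄) = v a₄ := by
  rw [Valuation.map_sub_eq_of_lt_right v (by rwa [map_mul])]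

lemma val_mul_sub_le {x₁ x₂ a₄ : K} {g : Γ₀} (h1 : v x₁ * v x₂ ≤ g) (h2 : v a₄ ≤ g) :
    v (x₁ * x₂ - a₄) ≤ g :=
  Valuation.map_sub_le v (by rwa [map_mul]) h2

lemma val_mul_add_le {x₁ x₂ a₄ : K} {g : Γ₀} (h1 : v x₁ * v x₂ ≤ g) (h2 : v a₄ ≤ g) :
    v (x₁ * x₂ + a₄) ≤ g :=
  Valuation.map_add_le v (by rwa [map_mul]) h2

/-- valuation of the second term of the numerator of the sum. -/
lemma val_N2 {a₂ x₁ x₂ : K} (h₂ : v a₂ = 1) (h2 : v (2 : K) = 1) :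
    v (2 * a₂ * x₁ * x₂) = v x₁ * v x₂ := by
  rw [map_mul, map_mul, map_mul, h2, h₂, one_mul, one_mul]

/-- bound for the first term of the numerator of the sum. -/
lemma val_N1_le {a₄ x₁ x₂ : K} {g h : Γ₀} (hg : v (x₁ * x₂ + a₄) ≤ g) (hh : v (x₁ + x₂) ≤ h) :
    v ((x₁ * x₂ + a₄) * (x₁ + x₂)) ≤ g * h := by
  rw [map_mul]
  exact mul_le_mul' hg hh

end basic

section pair

variable {a₂ a₄ x₁ x₂ ξ₁ ξ₂ : K}

/-- Common consequences of the sum and product formulas. -/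
lemma pair_val_setup (h2 : v (2 : K) = 1) (hne : x₁ ≠ x₂)
    (hS : (ξ₁ + ξ₂) * (x₁ - x₂) ^ 2 = 2 * ((x₁ * x₂ + a₄) * (x₁ + x₂) + 2 * a₂ * x₁ * x₂))
    (hP : ξ₁ * ξ₂ * (x₁ - x₂) ^ 2 = (x₁ * x₂ - a₄) ^ 2) :
    v (x₁ - x₂) ≠ 0 ∧
    v (ξ₁ + ξ₂) * (v (x₁ - x₂) * v (x₁ - x₂)) =
      v ((x₁ * x₂ + a₄) * (x₁ + x₂) + 2 * a₂ * x₁ * x₂) ∧
    v (ξ₁ * ξ₂) * (v (x₁ - x₂) * v (x₁ - x₂)) = v (x₁ * x₂ - a₄) * v (x₁ * x₂ - a₄) := by
  refine ⟨(Valuation.ne_zero_iff v).2 (sub_ne_zero.2 hne), ?_, ?_⟩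
  · have := congrArg v hS
    rw [map_mul, map_pow, map_mul, h2, one_mul, pow_two] at this
    exact this
  · have := congrArg v hP
    rw [map_mul, map_pow, map_pow, pow_two, pow_two] at this
    exact this

/-- Case B1: `1 ≤ v x₁`, `t < v x₂ < 1`. -/
lemma pair_val_B1 (h₂ : v a₂ = 1) (ht1 : v a₄ < 1) (h2 : v (2 : K) = 1) (hne : x₁ ≠ x₂)
    (hS : (ξ₁ + ξ₂) * (x₁ - x₂) ^ 2 = 2 * ((x₁ * x₂ + a₄) * (x₁ + x₂) + 2 * a₂ * x₁ * x₂))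
    (hP : ξ₁ * ξ₂ * (x₁ - x₂) ^ 2 = (x₁ * x₂ - a₄) ^ 2)
    (ha : 1 ≤ v x₁) (hb : v x₂ < 1) (htb : v a₄ < v x₂) :
    v ξ₁ = v x₂ ∧ v ξ₂ = v x₂ := by
  obtain ⟨hδ0, hSv, hPv⟩ := pair_val_setup v h2 hne hS hP
  have hba : v x₂ < v x₁ := lt_of_lt_of_le hb ha
  have hδ : v (x₁ - x₂) = v x₁ := val_sub_of_lt v hba
  have ha0 : v x₁ ≠ 0 := fun h0 => by rw [h0] at ha; exact absurd ha (not_le.2 zero_lt_one)
  have hb0 : v x₂ ≠ 0 := fun h0 => by rw [h0] at htb; exact not_lt_zero htb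
  have hbab : v x₂ ≤ v x₁ * v x₂ := by
    calc v x₂ = 1 * v x₂ := (one_mul _).symm
      _ ≤ v x₁ * v x₂ := by gcongr
  have hω : v (x₁ * x₂ - a₄) = v x₁ * v x₂ := val_mul_sub_of_lt v (lt_of_lt_of_le htb hbab)
  rw [hδ] at hSv hPv
  rw [hω] at hPv
  have hPv' : v (ξ₁ * ξ₂) = v x₂ * v x₂ := by
    have : v (ξ₁ * ξ₂) * (v x₁ * v x₁) = (v x₂ * v x₂) * (v x₁ * v x₁) := by
      rw [hPv]; ac_rfl
    exact mul_right_cancel₀ (mul_ne_zero ha0 ha0) this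
  have hN1 : v ((x₁ * x₂ + a₄) * (x₁ + x₂)) ≤ v x₁ * v x₂ * v x₁ :=
    val_N1_le v (val_mul_add_le v le_rfl (htb.le.trans hbab)) (v.map_add_le le_rfl hba.le)
  have hN2 : v (2 * a₂ * x₁ * x₂) ≤ v x₁ * v x₂ * v x₁ := by
    rw [val_N2 v h₂ h2]
    calc v x₁ * v x₂ = v x₁ * v x₂ * 1 := (mul_one _).symm
      _ ≤ v x₁ * v x₂ * v x₁ := by gcongr
  have hSv' : v (ξ₁ + ξ₂) ≤ v x₂ := by
    have : v (ξ₁ + ξ₂) * (v x₁ * v x₁) ≤ v x₂ * (v x₁ * v x₁) := by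
      rw [hSv]
      refine (v.map_add_le hN1 hN2).trans (le_of_eq ?_)
      ac_rfl
    exact le_of_mul_le_mul_right this (zero_lt_iff.2 (mul_ne_zero ha0 ha0))
  exact val_roots_eq v hPv' hSv'

/-- Case B2: `1 ≤ v x₁`, `v x₂ ≤ t`. -/
lemma pair_val_B2 (h₂ : v a₂ = 1) (ht1 : v a₄ < 1) (h2 : v (2 : K) = 1) (hne : x₁ ≠ x₂)
    (hS : (ξ₁ + ξ₂) * (x₁ - x₂) ^ 2 = 2 * ((x₁ * x₂ + a₄) * (x₁ + x₂) + 2 * a₂ * x₁ * x₂))
    (hP : ξ₁ * ξ₂ * (x₁ - x₂) ^ 2 = (x₁ * x₂ - a₄) ^ 2)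
    (ha : 1 ≤ v x₁) (htb : v x₂ ≤ v a₄) :
    v ξ₁ ≤ v a₄ ∧ v ξ₂ ≤ v a₄ := by
  obtain ⟨hδ0, hSv, hPv⟩ := pair_val_setup v h2 hne hS hP
  have hb : v x₂ < 1 := lt_of_le_of_lt htb ht1
  have hba : v x₂ < v x₁ := lt_of_lt_of_le hb ha
  have hδ : v (x₁ - x₂) = v x₁ := val_sub_of_lt v hba
  have ha0 : v x₁ ≠ 0 := fun h0 => by rw [h0] at ha; exact absurd ha (not_le.2 zero_lt_one)
  have hapos : 0 < v x₁ * v x₁ := zero_lt_iff.2 (mul_ne_zero ha0 ha0)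
  have h1 : v x₁ * v x₂ ≤ v x₁ * v a₄ := by gcongr
  have h2' : v a₄ ≤ v x₁ * v a₄ := by
    calc v a₄ = 1 * v a₄ := (one_mul _).symm
      _ ≤ v x₁ * v a₄ := by gcongr
  have hω : v (x₁ * x₂ - a₄) ≤ v x₁ * v a₄ := val_mul_sub_le v h1 h2'
  rw [hδ] at hSv hPv
  have hPv' : v (ξ₁ * ξ₂) ≤ v a₄ * v a₄ := by
    have : v (ξ₁ * ξ₂) * (v x₁ * v x₁) ≤ (v a₄ * v a₄) * (v x₁ * v x₁) := by
      rw [hPv]
      refine (mul_le_mul' hω hω).trans (le_of_eq ?_)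
      ac_rfl
    exact le_of_mul_le_mul_right this hapos
  have hN1 : v ((x₁ * x₂ + a₄) * (x₁ + x₂)) ≤ v x₁ * v a₄ * v x₁ :=
    val_N1_le v (val_mul_add_le v h1 h2') (v.map_add_le le_rfl hba.le)
  have hN2 : v (2 * a₂ * x₁ * x₂) ≤ v x₁ * v a₄ * v x₁ := by
    rw [val_N2 v h₂ h2]
    calc v x₁ * v x₂ ≤ v x₁ * v a₄ := h1
      _ = v x₁ * v a₄ * 1 := (mul_one _).symm
      _ ≤ v x₁ * v a₄ * v x₁ := by gcongr
  have hSv' : v (ξ₁ + ξ₂) ≤ v a₄ := by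
    have : v (ξ₁ + ξ₂) * (v x₁ * v x₁) ≤ v a₄ * (v x₁ * v x₁) := by
      rw [hSv]
      refine (v.map_add_le hN1 hN2).trans (le_of_eq ?_)
      ac_rfl
    exact le_of_mul_le_mul_right this hapos
  exact val_roots_le v hPv' hSv'

/-- Case C: `t < v x₂ ≤ v x₁ < 1`. One root has valuation `v x₁ * v x₂ / v (x₁ - x₂) ^ 2`,
the other one `ω ^ 2 / (v x₁ * v x₂)` with `ω = v (x₁ * x₂ - a₄)`. -/
lemma pair_val_C (h₂ : v a₂ = 1) (ht1 : v a₄ < 1) (h2 : v (2 : K) = 1) (hne : x₁ ≠ x₂)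
    (hS : (ξ₁ + ξ₂) * (x₁ - x₂) ^ 2 = 2 * ((x₁ * x₂ + a₄) * (x₁ + x₂) + 2 * a₂ * x₁ * x₂))
    (hP : ξ₁ * ξ₂ * (x₁ - x₂) ^ 2 = (x₁ * x₂ - a₄) ^ 2)
    (ha : v x₁ < 1) (hba : v x₂ ≤ v x₁) (htb : v a₄ < v x₂) :
    (v ξ₁ * (v (x₁ - x₂) * v (x₁ - x₂)) = v x₁ * v x₂ ∧
        v ξ₂ * (v x₁ * v x₂) = v (x₁ * x₂ - a₄) * v (x₁ * x₂ - a₄)) ∨
      (v ξ₂ * (v (x₁ - x₂) * v (x₁ - x₂)) = v x₁ * v x₂ ∧
        v ξ₁ * (v x₁ * v x₂) = v (x₁ * x₂ - a₄) * v (x₁ * x₂ - a₄)) := by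
  obtain ⟨hδ0, hSv, hPv⟩ := pair_val_setup v h2 hne hS hP
  have hb0 : v x₂ ≠ 0 := fun h0 => by rw [h0] at htb; exact not_lt_zero htb
  have hbpos : 0 < v x₂ := zero_lt_iff.2 hb0
  have hapos : 0 < v x₁ := lt_of_lt_of_le hbpos hba
  have ha0 : v x₁ ≠ 0 := hapos.ne'
  have hab0 : v x₁ * v x₂ ≠ 0 := mul_ne_zero ha0 hb0
  have habpos : 0 < v x₁ * v x₂ := zero_lt_iff.2 hab0
  have hδδ0 : v (x₁ - x₂) * v (x₁ - x₂) ≠ 0 := mul_ne_zero hδ0 hδ0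
  have hδle : v (x₁ - x₂) ≤ v x₁ := v.map_sub_le le_rfl hba
  -- the numerator of the sum has valuation `a * b`
  have hmax : v (x₁ * x₂ + a₄) * v (x₁ + x₂) < v x₁ * v x₂ := by
    have h1 : v (x₁ + x₂) ≤ v x₁ := v.map_add_le le_rfl hba
    have h3 : v (x₁ * x₂ + a₄) ≤ max (v x₁ * v x₂) (v a₄) := by
      refine (v.map_add _ _).trans (le_of_eq ?_)
      rw [map_mul]
    rcases le_total (v a₄) (v x₁ * v x₂) with h4 | h4
    · rw [max_eq_left h4] at h3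
      calc v (x₁ * x₂ + a₄) * v (x₁ + x₂) ≤ v x₁ * v x₂ * v x₁ := mul_le_mul' h3 h1
        _ < v x₁ * v x₂ * 1 := mul_lt_mul_of_pos_left ha habpos
        _ = v x₁ * v x₂ := mul_one _
    · rw [max_eq_right h4] at h3
      calc v (x₁ * x₂ + a₄) * v (x₁ + x₂) ≤ v a₄ * v x₁ := mul_le_mul' h3 h1
        _ < v x₂ * v x₁ := mul_lt_mul_of_pos_right htb hapos
        _ = v x₁ * v x₂ := mul_comm _ _
  have hη : v ((x₁ * x₂ + a₄) * (x₁ + x₂) + 2 * a₂ * x₁ * x₂) = v x₁ * v x₂ := by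
    rw [Valuation.map_add_eq_of_lt_right v, val_N2 v h₂ h2]
    rw [val_N2 v h₂ h2, map_mul]
    exact hmax
  rw [hη] at hSv
  -- bound on ω
  have hω : v (x₁ * x₂ - a₄) < v x₂ := by
    have h3 : v (x₁ * x₂ - a₄) ≤ max (v x₁ * v x₂) (v a₄) := by
      refine (v.map_sub _ _).trans (le_of_eq ?_)
      rw [map_mul]
    refine lt_of_le_of_lt h3 (max_lt ?_ htb)
    calc v x₁ * v x₂ < 1 * v x₂ := mul_lt_mul_of_pos_right ha hbpos
      _ = v x₂ := one_mul _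
  set s := v (ξ₁ + ξ₂) with hs
  set s' := v (x₁ * x₂ - a₄) * v (x₁ * x₂ - a₄) / (v x₁ * v x₂) with hs'
  have hs0 : s ≠ 0 := by
    intro h0
    rw [h0, zero_mul] at hSv
    exact hab0 hSv.symm
  have hss' : v (ξ₁ * ξ₂) = s * s' := by
    have : v (ξ₁ * ξ₂) * (v (x₁ - x₂) * v (x₁ - x₂)) =
        (s * s') * (v (x₁ - x₂) * v (x₁ - x₂)) := by
      rw [hPv, hs']
      calc v (x₁ * x₂ - a₄) * v (x₁ * x₂ - a₄)
          = (v x₁ * v x₂) * (v (x₁ * x₂ - a₄) * v (x₁ * x₂ - a₄) / (v x₁ * v x₂)) := by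
            rw [mul_div_cancel₀ _ hab0]
        _ = (s * (v (x₁ - x₂) * v (x₁ - x₂))) *
              (v (x₁ * x₂ - a₄) * v (x₁ * x₂ - a₄) / (v x₁ * v x₂)) := by rw [hSv]
        _ = _ := by ac_rfl
    exact mul_right_cancel₀ hδδ0 this
  have hlt : s' < s := by
    -- s' * (ab) * δ² = ω² δ² < (ab)² = s δ² (ab)
    have h1 : s' * (v x₁ * v x₂) = v (x₁ * x₂ - a₄) * v (x₁ * x₂ - a₄) := by
      rw [hs', div_mul_cancel₀ _ hab0]
    have h2 : v (x₁ * x₂ - a₄) * v (x₁ - x₂) < v x₁ * v x₂ := by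
      calc v (x₁ * x₂ - a₄) * v (x₁ - x₂) ≤ v (x₁ * x₂ - a₄) * v x₁ := by gcongr
        _ < v x₂ * v x₁ := mul_lt_mul_of_pos_right hω hapos
        _ = v x₁ * v x₂ := mul_comm _ _
    have h3 : s' * ((v x₁ * v x₂) * (v (x₁ - x₂) * v (x₁ - x₂))) <
        s * ((v x₁ * v x₂) * (v (x₁ - x₂) * v (x₁ - x₂))) := by
      calc s' * ((v x₁ * v x₂) * (v (x₁ - x₂) * v (x₁ - x₂)))
          = (s' * (v x₁ * v x₂)) * (v (x₁ - x₂) * v (x₁ - x₂)) := by ac_rfl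
        _ = (v (x₁ * x₂ - a₄) * v (x₁ - x₂)) * (v (x₁ * x₂ - a₄) * v (x₁ - x₂)) := by
            rw [h1]; ac_rfl
        _ < (v x₁ * v x₂) * (v x₁ * v x₂) := mul_lt_mul'' h2 h2 zero_le zero_le
        _ = (s * (v (x₁ - x₂) * v (x₁ - x₂))) * (v x₁ * v x₂) := by rw [hSv]
        _ = _ := by ac_rfl
    exact lt_of_mul_lt_mul_right h3 zero_le
  have h1 : s' * (v x₁ * v x₂) = v (x₁ * x₂ - a₄) * v (x₁ * x₂ - a₄) := by
    rw [hs', div_mul_cancel₀ _ hab0]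
  rcases val_roots_split v hs.symm hss' hlt with ⟨e1, e2⟩ | ⟨e1, e2⟩
  · left
    exact ⟨by rw [e1]; exact hSv, by rw [e2]; exact h1⟩
  · right
    exact ⟨by rw [e1]; exact hSv, by rw [e2]; exact h1⟩

/-- Case D: `v x₂ ≤ t < v x₁ < 1`. Both roots have valuation `t / v x₁`. -/
lemma pair_val_D (h₂ : v a₂ = 1) (ht1 : v a₄ < 1) (ht0 : a₄ ≠ 0) (h2 : v (2 : K) = 1)
    (hne : x₁ ≠ x₂)
    (hS : (ξ₁ + ξ₂) * (x₁ - x₂) ^ 2 = 2 * ((x₁ * x₂ + a₄) * (x₁ + x₂) + 2 * a₂ * x₁ * x₂))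
    (hP : ξ₁ * ξ₂ * (x₁ - x₂) ^ 2 = (x₁ * x₂ - a₄) ^ 2)
    (ha : v x₁ < 1) (hta : v a₄ < v x₁) (hbt : v x₂ ≤ v a₄) :
    v ξ₁ = v a₄ / v x₁ ∧ v ξ₂ = v a₄ / v x₁ := by
  obtain ⟨hδ0, hSv, hPv⟩ := pair_val_setup v h2 hne hS hP
  have hba : v x₂ < v x₁ := lt_of_le_of_lt hbt hta
  have hδ : v (x₁ - x₂) = v x₁ := val_sub_of_lt v hba
  have ha0 : v x₁ ≠ 0 := fun h0 => by rw [h0] at hta; exact not_lt_zero hta
  have hapos : 0 < v x₁ := zero_lt_iff.2 ha0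
  have haa0 : v x₁ * v x₁ ≠ 0 := mul_ne_zero ha0 ha0
  have haapos : 0 < v x₁ * v x₁ := zero_lt_iff.2 haa0
  have hvt0 : v a₄ ≠ 0 := (Valuation.ne_zero_iff v).2 ht0
  have htpos : 0 < v a₄ := zero_lt_iff.2 hvt0
  have hab_le : v x₁ * v x₂ ≤ v x₁ * v a₄ := by gcongr
  have hat_lt : v x₁ * v a₄ < v a₄ := by
    calc v x₁ * v a₄ < 1 * v a₄ := mul_lt_mul_of_pos_right ha htpos
      _ = v a₄ := one_mul _
  have hω : v (x₁ * x₂ - a₄) = v a₄ := val_mul_sub_of_gt v (lt_of_le_of_lt hab_le hat_lt)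
  rw [hδ] at hSv hPv
  rw [hω] at hPv
  have hPv' : v (ξ₁ * ξ₂) = (v a₄ / v x₁) * (v a₄ / v x₁) := by
    have : v (ξ₁ * ξ₂) * (v x₁ * v x₁) = ((v a₄ / v x₁) * (v a₄ / v x₁)) * (v x₁ * v x₁) := by
      rw [hPv]
      calc v a₄ * v a₄ = (v a₄ / v x₁ * v x₁) * (v a₄ / v x₁ * v x₁) := by
            rw [div_mul_cancel₀ _ ha0]
        _ = _ := by ac_rfl
    exact mul_right_cancel₀ haa0 this
  have hN1 : v ((x₁ * x₂ + a₄) * (x₁ + x₂)) ≤ v a₄ * v x₁ :=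
    val_N1_le v (val_mul_add_le v (hab_le.trans hat_lt.le) le_rfl) (v.map_add_le le_rfl hba.le)
  have hN2 : v (2 * a₂ * x₁ * x₂) ≤ v a₄ * v x₁ := by
    rw [val_N2 v h₂ h2, mul_comm (v a₄)]
    exact hab_le
  have hSv' : v (ξ₁ + ξ₂) ≤ v a₄ / v x₁ := by
    have : v (ξ₁ + ξ₂) * (v x₁ * v x₁) ≤ (v a₄ / v x₁) * (v x₁ * v x₁) := by
      rw [hSv]
      refine (v.map_add_le hN1 hN2).trans (le_of_eq ?_)
      calc v a₄ * v x₁ = (v a₄ / v x₁ * v x₁) * v x₁ := by rw [div_mul_cancel₀ _ ha0]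
        _ = _ := by ac_rfl
    exact le_of_mul_le_mul_right this haapos
  exact val_roots_eq v hPv' hSv'

/-- Case E: `v x₂ ≤ v x₁ ≤ t`. Both roots have valuation `≥ 1`. -/
lemma pair_val_E (h₂ : v a₂ = 1) (ht1 : v a₄ < 1) (ht0 : a₄ ≠ 0) (h2 : v (2 : K) = 1)
    (hne : x₁ ≠ x₂)
    (hS : (ξ₁ + ξ₂) * (x₁ - x₂) ^ 2 = 2 * ((x₁ * x₂ + a₄) * (x₁ + x₂) + 2 * a₂ * x₁ * x₂))
    (hP : ξ₁ * ξ₂ * (x₁ - x₂) ^ 2 = (x₁ * x₂ - a₄) ^ 2)
    (hat : v x₁ ≤ v a₄) (hba : v x₂ ≤ v x₁) :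
    1 ≤ v ξ₁ ∧ 1 ≤ v ξ₂ := by
  obtain ⟨hδ0, hSv, hPv⟩ := pair_val_setup v h2 hne hS hP
  have hvt0 : v a₄ ≠ 0 := (Valuation.ne_zero_iff v).2 ht0
  have htpos : 0 < v a₄ := zero_lt_iff.2 hvt0
  have hδδ0 : v (x₁ - x₂) * v (x₁ - x₂) ≠ 0 := mul_ne_zero hδ0 hδ0
  have hδδpos : 0 < v (x₁ - x₂) * v (x₁ - x₂) := zero_lt_iff.2 hδδ0
  have hδle : v (x₁ - x₂) ≤ v a₄ := (v.map_sub_le le_rfl hba).trans hat
  have hbt : v x₂ ≤ v a₄ := hba.trans hat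
  have hab_le : v x₁ * v x₂ ≤ v a₄ * v a₄ := mul_le_mul' hat hbt
  have htt_lt : v a₄ * v a₄ < v a₄ := by
    calc v a₄ * v a₄ < 1 * v a₄ := mul_lt_mul_of_pos_right ht1 htpos
      _ = v a₄ := one_mul _
  have hω : v (x₁ * x₂ - a₄) = v a₄ := val_mul_sub_of_gt v (lt_of_le_of_lt hab_le htt_lt)
  rw [hω] at hPv
  set T := v a₄ * v a₄ / (v (x₁ - x₂) * v (x₁ - x₂)) with hT
  have hT1 : 1 ≤ T := by
    rw [hT, one_le_div₀ hδδpos]
    exact mul_le_mul' hδle hδle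
  have hPv' : T ≤ v (ξ₁ * ξ₂) := by
    rw [hT, div_le_iff₀ hδδpos, hPv]
  have hN1 : v ((x₁ * x₂ + a₄) * (x₁ + x₂)) ≤ v a₄ * v a₄ :=
    val_N1_le v (val_mul_add_le v (hab_le.trans htt_lt.le) le_rfl)
      (v.map_add_le hat hbt)
  have hN2 : v (2 * a₂ * x₁ * x₂) ≤ v a₄ * v a₄ := by
    rw [val_N2 v h₂ h2]
    exact hab_le
  have hSv' : v (ξ₁ + ξ₂) ≤ T := by
    rw [hT, le_div_iff₀ hδδpos, hSv]
    exact v.map_add_le hN1 hN2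
  exact val_roots_ge_one v hPv' hSv' hT1

/-- The field-level pair lemma, ordered version. -/
theorem pair_val_aux (h₂ : v a₂ = 1) (ht1 : v a₄ < 1) (ht0 : a₄ ≠ 0) (h2 : v (2 : K) = 1)
    (hne : x₁ ≠ x₂)
    (hS : (ξ₁ + ξ₂) * (x₁ - x₂) ^ 2 = 2 * ((x₁ * x₂ + a₄) * (x₁ + x₂) + 2 * a₂ * x₁ * x₂))
    (hP : ξ₁ * ξ₂ * (x₁ - x₂) ^ 2 = (x₁ * x₂ - a₄) ^ 2)
    (hba : v x₂ ≤ v x₁) (hb : v x₂ < 1) :
    PairRel (v a₄) (clamp (v a₄) (v ξ₁)) (clamp (v a₄) (v ξ₂))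
      (clamp (v a₄) (v x₁)) (clamp (v a₄) (v x₂)) := by
  have hvt0 : v a₄ ≠ 0 := (Valuation.ne_zero_iff v).2 ht0
  have htpos : 0 < v a₄ := zero_lt_iff.2 hvt0
  rcases le_or_gt 1 (v x₁) with ha | ha
  · rw [clamp_of_one_le ht1.le ha]
    rcases lt_or_ge (v a₄) (v x₂) with htb | htb
    · obtain ⟨e1, e2⟩ := pair_val_B1 v h₂ ht1 h2 hne hS hP ha hb htb
      have hb0 : v x₂ ≠ 0 := fun h0 => by rw [h0] at htb; exact not_lt_zero htb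
      rw [e1, e2, clamp_of_mem htb.le hb.le]
      exact Or.inl ⟨Rel.of_eq (one_mul _).symm, Rel.of_mul_eq_one (by field_simp)⟩
    · obtain ⟨e1, e2⟩ := pair_val_B2 v h₂ ht1 h2 hne hS hP ha htb
      rw [clamp_of_le ht1.le e1, clamp_of_le ht1.le e2, clamp_of_le ht1.le htb]
      exact Or.inl ⟨Rel.of_eq (one_mul _).symm, Rel.of_mul_eq_one (by field_simp)⟩
  · rcases lt_or_ge (v a₄) (v x₂) with htb | htb
    · -- Case C
      have hb0 : v x₂ ≠ 0 := fun h0 => by rw [h0] at htb; exact not_lt_zero htb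
      have hbpos : 0 < v x₂ := zero_lt_iff.2 hb0
      have hapos : 0 < v x₁ := lt_of_lt_of_le hbpos hba
      have ha0 : v x₁ ≠ 0 := hapos.ne'
      have hab0 : v x₁ * v x₂ ≠ 0 := mul_ne_zero ha0 hb0
      have habpos : 0 < v x₁ * v x₂ := zero_lt_iff.2 hab0
      have hδ0 : v (x₁ - x₂) ≠ 0 := (Valuation.ne_zero_iff v).2 (sub_ne_zero.2 hne)
      have hδδ0 : v (x₁ - x₂) * v (x₁ - x₂) ≠ 0 := mul_ne_zero hδ0 hδ0
      rw [clamp_of_mem (htb.le.trans hba) ha.le, clamp_of_mem htb.le hb.le]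
      -- the two root types
      have hroot1 : ∀ ξ : K, v ξ * (v (x₁ - x₂) * v (x₁ - x₂)) = v x₁ * v x₂ →
          Rel (v a₄) (clamp (v a₄) (v ξ)) (v x₁ / v x₂) := by
        intro ξ hξ
        rcases eq_or_lt_of_le hba with hab | hab
        · -- a = b
          have hδle : v (x₁ - x₂) ≤ v x₁ := v.map_sub_le le_rfl hba
          have : 1 ≤ v ξ := by
            by_contra hcon
            rw [not_le] at hcon
            have : v ξ * (v (x₁ - x₂) * v (x₁ - x₂)) < v x₁ * v x₂ := by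
              calc v ξ * (v (x₁ - x₂) * v (x₁ - x₂))
                  < 1 * (v (x₁ - x₂) * v (x₁ - x₂)) :=
                    mul_lt_mul_of_pos_right hcon (zero_lt_iff.2 hδδ0)
                _ = v (x₁ - x₂) * v (x₁ - x₂) := one_mul _
                _ ≤ v x₁ * v x₁ := mul_le_mul' hδle hδle
                _ = v x₁ * v x₂ := by rw [hab]
            exact this.ne hξ
          rw [clamp_of_one_le ht1.le this, hab, div_self ha0]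
          exact Rel.refl _ _
        · -- b < a
          have hδ : v (x₁ - x₂) = v x₁ := val_sub_of_lt v hab
          rw [hδ] at hξ
          have e : v ξ = v x₂ / v x₁ := by
            rw [eq_div_iff ha0]
            have : (v ξ * v x₁) * v x₁ = v x₂ * v x₁ := by
              rw [mul_assoc, hξ, mul_comm]
            exact mul_right_cancel₀ ha0 this
          have h1 : v x₂ / v x₁ ≤ 1 := (div_le_one₀ hapos).2 hba
          have h2 : v a₄ ≤ v x₂ / v x₁ := by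
            rw [le_div_iff₀ hapos]
            calc v a₄ * v x₁ ≤ v a₄ * 1 := by gcongr
              _ = v a₄ := mul_one _
              _ ≤ v x₂ := htb.le
          rw [e, clamp_of_mem h2 h1]
          exact Rel.of_mul_eq_one (by field_simp)
      have hroot2 : ∀ ξ : K, v ξ * (v x₁ * v x₂) = v (x₁ * x₂ - a₄) * v (x₁ * x₂ - a₄) →
          Rel (v a₄) (clamp (v a₄) (v ξ)) (v x₁ * v x₂) := by
        intro ξ hξ
        have hab1 : v x₁ * v x₂ ≤ 1 := by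
          calc v x₁ * v x₂ ≤ 1 * 1 := mul_le_mul' ha.le hb.le
            _ = 1 := one_mul 1
        rcases lt_trichotomy (v a₄) (v x₁ * v x₂) with h | h | h
        · have hω : v (x₁ * x₂ - a₄) = v x₁ * v x₂ := val_mul_sub_of_lt v h
          rw [hω] at hξ
          have e : v ξ = v x₁ * v x₂ := mul_right_cancel₀ hab0 hξ
          rw [e, clamp_of_mem h.le hab1]
          exact Rel.refl _ _
        · have hω : v (x₁ * x₂ - a₄) ≤ v a₄ := val_mul_sub_le v h.ge le_rfl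
          have : v ξ ≤ v a₄ := by
            have : v ξ * v a₄ ≤ v a₄ * v a₄ := by
              rw [h, hξ]
              exact mul_le_mul' (h ▸ hω) (h ▸ hω)
            exact le_of_mul_le_mul_right this htpos
          rw [clamp_of_le ht1.le this]
          exact Rel.of_eq h
        · have hω : v (x₁ * x₂ - a₄) = v a₄ := val_mul_sub_of_gt v h
          rw [hω] at hξ
          have e : v ξ = v a₄ * v a₄ / (v x₁ * v x₂) := by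
            rw [eq_div_iff hab0]; exact hξ
          have h1 : v a₄ * v a₄ / (v x₁ * v x₂) ≤ 1 := by
            rw [div_le_one₀ habpos]
            exact mul_le_mul' (htb.le.trans hba) htb.le
          have h2 : v a₄ ≤ v a₄ * v a₄ / (v x₁ * v x₂) := by
            rw [le_div_iff₀ habpos]
            exact mul_le_mul' le_rfl h.le
          rw [e, clamp_of_mem h2 h1]
          exact Rel.of_mul_eq_sq (by rw [div_mul_cancel₀ _ hab0])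
      rcases pair_val_C v h₂ ht1 h2 hne hS hP ha hba htb with ⟨e1, e2⟩ | ⟨e1, e2⟩
      · exact Or.inr ⟨hroot1 ξ₁ e1, hroot2 ξ₂ e2⟩
      · exact Or.inl ⟨hroot2 ξ₁ e2, hroot1 ξ₂ e1⟩
    · rw [clamp_of_le ht1.le htb]
      rcases lt_or_ge (v a₄) (v x₁) with hta | hta
      · -- Case D
        obtain ⟨e1, e2⟩ := pair_val_D v h₂ ht1 ht0 h2 hne hS hP ha hta htb
        have ha0 : v x₁ ≠ 0 := fun h0 => by rw [h0] at hta; exact not_lt_zero hta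
        have hapos : 0 < v x₁ := zero_lt_iff.2 ha0
        have h1 : v a₄ / v x₁ ≤ 1 := (div_le_one₀ hapos).2 hta.le
        have h2 : v a₄ ≤ v a₄ / v x₁ := by
          rw [le_div_iff₀ hapos]
          calc v a₄ * v x₁ ≤ v a₄ * 1 := by gcongr
            _ = v a₄ := mul_one _
        rw [e1, e2, clamp_of_mem h2 h1, clamp_of_mem hta.le ha.le]
        refine Or.inl ⟨Rel.of_mul_eq_sq ?_, Rel.of_mul_eq_one ?_⟩
        · field_simp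
        · field_simp
      · -- Case E
        obtain ⟨e1, e2⟩ := pair_val_E v h₂ ht1 ht0 h2 hne hS hP hta hba
        rw [clamp_of_one_le ht1.le e1, clamp_of_one_le ht1.le e2, clamp_of_le ht1.le hta]
        refine Or.inl ⟨Rel.of_mul_eq_sq (one_mul _), Rel.of_eq ?_⟩
        rw [div_self hvt0]

/-- The field-level pair lemma. -/
theorem pair_val (h₂ : v a₂ = 1) (ht1 : v a₄ < 1) (ht0 : a₄ ≠ 0) (h2 : v (2 : K) = 1)
    (hne : x₁ ≠ x₂)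
    (hS : (ξ₁ + ξ₂) * (x₁ - x₂) ^ 2 = 2 * ((x₁ * x₂ + a₄) * (x₁ + x₂) + 2 * a₂ * x₁ * x₂))
    (hP : ξ₁ * ξ₂ * (x₁ - x₂) ^ 2 = (x₁ * x₂ - a₄) ^ 2)
    (hmin : v x₁ < 1 ∨ v x₂ < 1) :
    PairRel (v a₄) (clamp (v a₄) (v ξ₁)) (clamp (v a₄) (v ξ₂))
      (clamp (v a₄) (v x₁)) (clamp (v a₄) (v x₂)) := by
  have hvt0 : v a₄ ≠ 0 := (Valuation.ne_zero_iff v).2 ht0
  rcases le_total (v x₂) (v x₁) with hba | hab
  · have hb : v x₂ < 1 := by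
      rcases hmin with h | h
      · exact lt_of_le_of_lt hba h
      · exact h
    exact pair_val_aux v h₂ ht1 ht0 h2 hne hS hP hba hb
  · have ha : v x₁ < 1 := by
      rcases hmin with h | h
      · exact h
      · exact lt_of_le_of_lt hab h
    have hS' : (ξ₁ + ξ₂) * (x₂ - x₁) ^ 2 =
        2 * ((x₂ * x₁ + a₄) * (x₂ + x₁) + 2 * a₂ * x₂ * x₁) := by
      linear_combination hS
    have hP' : ξ₁ * ξ₂ * (x₂ - x₁) ^ 2 = (x₂ * x₁ - a₄) ^ 2 := by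
      linear_combination hP
    exact (pair_val_aux v h₂ ht1 ht0 h2 (Ne.symm hne) hS' hP' hab ha).comm
      (clamp_ne_zero hvt0) (clamp_ne_zero hvt0)

end pair

end Fermat.Agent.S05
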