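import Mathlib

set_option autoImplicit false

namespace Fermat.Agent.S05

open WeierstrassCurve WeierstrassCurve.Affine

set_option linter.unusedSectionVars false

variable {K : Type*} [Field K] [DecidableEq K]

/-- The Weierstrass curve is in the short form `y² = x³ + a₂x² + a₄x`. -/
structure IsShort (W : WeierstrassCurve.Affine K) : Prop where
  a₁ : W.a₁ = 0
  a₃ : W.a₃ = 0
  a₆ : W.a₆ = 0

variable {W : WeierstrassCurve.Affine K}

lemma IsShort.negY (hW : IsShort W) (x y : K) : W.negY x y = -y := by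
  simp [Affine.negY, hW.a₁, hW.a₃]

lemma IsShort.equation (hW : IsShort W) {x y : K} (h : W.Equation x y) :
    y ^ 2 = x ^ 3 + W.a₂ * x ^ 2 + W.a₄ * x := by
  have := (W.equation_iff x y).1 h
  rw [hW.a₁, hW.a₃, hW.a₆] at this
  linear_combination this

lemma IsShort.eqn (hW : IsShort W) {x y : K} (h : W.Nonsingular x y) :
    y ^ 2 = x ^ 3 + W.a₂ * x ^ 2 + W.a₄ * x :=
  hW.equation h.1

lemma IsShort.nonsingular_neg (hW : IsShort W) {x y : K} (h : W.Nonsingular x y) :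
    W.Nonsingular x (-y) := by
  have := (W.nonsingular_neg x y).2 h
  rwa [hW.negY] at this

lemma IsShort.neg_some (hW : IsShort W) {x y : K} (h : W.Nonsingular x y) :
    -Point.some x y h = Point.some x (-y) (hW.nonsingular_neg h) := by
  rw [Point.neg_some]
  congr 1
  exact hW.negY x y

/-- If `y = 0` then the point is `2`-torsion. -/
lemma IsShort.add_self_of_y_eq_zero (hW : IsShort W) {x y : K} (h : W.Nonsingular x y)
    (hy : y = 0) : Point.some x y h + Point.some x y h = 0 := by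
  apply Point.add_self_of_Y_eq
  rw [hW.negY, hy, neg_zero]

/-- Chord addition. -/
lemma IsShort.add_of_X_ne (hW : IsShort W) {x₁ y₁ x₂ y₂ : K} (h₁ : W.Nonsingular x₁ y₁)
    (h₂ : W.Nonsingular x₂ y₂) (hx : x₁ ≠ x₂) :
    ∃ (y₃ : K) (h₃ : W.Nonsingular (((y₁ - y₂) / (x₁ - x₂)) ^ 2 - W.a₂ - x₁ - x₂) y₃),
      Point.some x₁ y₁ h₁ + Point.some x₂ y₂ h₂ =
        Point.some (((y₁ - y₂) / (x₁ - x₂)) ^ 2 - W.a₂ - x₁ - x₂) y₃ h₃ := by
  have key := Point.add_of_X_ne (h₁ := h₁) (h₂ := h₂) hx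
  have hX : W.addX x₁ x₂ (W.slope x₁ x₂ y₁ y₂) =
      ((y₁ - y₂) / (x₁ - x₂)) ^ 2 - W.a₂ - x₁ - x₂ := by
    rw [Affine.slope_of_X_ne hx, Affine.addX, hW.a₁]
    ring
  have hns := Affine.nonsingular_add h₁ h₂ (fun hxy => hx hxy.left)
  rw [hX] at hns
  refine ⟨_, hns, ?_⟩
  rw [key]
  congr 1

/-- Chord subtraction. -/
lemma IsShort.sub_of_X_ne (hW : IsShort W) {x₁ y₁ x₂ y₂ : K} (h₁ : W.Nonsingular x₁ y₁)
    (h₂ : W.Nonsingular x₂ y₂) (hx : x₁ ≠ x₂) :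
    ∃ (y₃ : K) (h₃ : W.Nonsingular (((y₁ + y₂) / (x₁ - x₂)) ^ 2 - W.a₂ - x₁ - x₂) y₃),
      Point.some x₁ y₁ h₁ - Point.some x₂ y₂ h₂ =
        Point.some (((y₁ + y₂) / (x₁ - x₂)) ^ 2 - W.a₂ - x₁ - x₂) y₃ h₃ := by
  have e : Point.some x₁ y₁ h₁ - Point.some x₂ y₂ h₂ =
      Point.some x₁ y₁ h₁ + Point.some x₂ (-y₂) (hW.nonsingular_neg h₂) := by
    rw [sub_eq_add_neg (Point.some x₁ y₁ h₁), hW.neg_some h₂]
  obtain ⟨y₃, h₃, h⟩ := hW.add_of_X_ne h₁ (hW.nonsingular_neg h₂) hx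
  simp only [sub_neg_eq_add] at h₃ h
  exact ⟨y₃, h₃, e.trans h⟩

/-- Doubling. -/
lemma IsShort.add_self_of_y_ne_zero (hW : IsShort W) (h2 : (2 : K) ≠ 0) {x y : K}
    (h : W.Nonsingular x y) (hy : y ≠ 0) :
    ∃ (y₃ : K) (h₃ : W.Nonsingular
        (((3 * x ^ 2 + 2 * W.a₂ * x + W.a₄) / (2 * y)) ^ 2 - W.a₂ - 2 * x) y₃),
      Point.some x y h + Point.some x y h =
        Point.some (((3 * x ^ 2 + 2 * W.a₂ * x + W.a₄) / (2 * y)) ^ 2 - W.a₂ - 2 * x) y₃ h₃ := by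
  have hne : y ≠ W.negY x y := by
    rw [hW.negY]
    intro h'
    have : 2 * y = 0 := by linear_combination h'
    rcases mul_eq_zero.1 this with h | h
    · exact h2 h
    · exact hy h
  have key := Point.add_self_of_Y_ne (h₁ := h) hne
  have hX : W.addX x x (W.slope x x y y) =
      ((3 * x ^ 2 + 2 * W.a₂ * x + W.a₄) / (2 * y)) ^ 2 - W.a₂ - 2 * x := by
    rw [Affine.slope_of_Y_ne rfl hne, Affine.addX, hW.a₁, hW.negY]
    have : y - -y = 2 * y := by ring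
    rw [this]
    ring
  have hns := Affine.nonsingular_add h h (fun hxy => hne hxy.right)
  rw [hX] at hns
  refine ⟨_, hns, ?_⟩
  rw [key]
  congr 1

end Fermat.Agent.S05
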