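import Mathlib
import Fermat.Agent.S05.ShortForm
import Fermat.Agent.S05.PairVal
import Fermat.Agent.S05.DoubleVal

set_option autoImplicit false
set_option linter.unusedSectionVars false
set_option linter.unusedVariables false

namespace Fermat.Agent.S05

open WeierstrassCurve WeierstrassCurve.Affine

variable {K : Type*} [Field K] [DecidableEq K] {Γ₀ : Type*} [LinearOrderedCommGroupWithZero Γ₀]
  (v : Valuation K Γ₀) {W : WeierstrassCurve.Affine K}

/-- The (unsigned) component function: `1` on points with nonsingular reduction, the clamped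
valuation of the `x`-coordinate otherwise. -/
noncomputable def comp (v : Valuation K Γ₀) (W : WeierstrassCurve.Affine K) : W.Point → Γ₀
  | .zero => 1
  | .some x _ _ => clamp (v W.a₄) (v x)

@[simp] lemma comp_zero : comp v W (0 : W.Point) = 1 := rfl

@[simp] lemma comp_some {x y : K} (h : W.Nonsingular x y) :
    comp v W (Point.some x y h) = clamp (v W.a₄) (v x) := rfl

lemma comp_neg (hW : IsShort W) (P : W.Point) : comp v W (-P) = comp v W P := by
  rcases P with _ | ⟨x, y, h⟩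
  · rfl
  · rw [hW.neg_some h]; rfl

/-- Doubling at the level of points. -/
theorem comp_double (hW : IsShort W) (h₂ : v W.a₂ = 1) (ht1 : v W.a₄ < 1) (ht0 : W.a₄ ≠ 0)
    (h2 : v (2 : K) = 1) {x y : K} (h : W.Nonsingular x y) (hx : v x < 1) :
    Rel (v W.a₄) (comp v W (Point.some x y h + Point.some x y h))
      (clamp (v W.a₄) (v x) * clamp (v W.a₄) (v x)) := by
  have h20 : (2 : K) ≠ 0 := by
    intro h0
    rw [h0, map_zero] at h2
    exact zero_ne_one h2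
  by_cases hy : y = 0
  · rw [hW.add_self_of_y_eq_zero h hy, comp_zero]
    have heq := hW.eqn h
    rw [hy] at heq
    have heq' : (0 : K) = x ^ 3 + W.a₂ * x ^ 2 + W.a₄ * x := by rw [← heq]; ring
    have hle := val_le_of_y_eq_zero v h₂ ht1 heq' hx
    rw [clamp_of_le ht1.le hle]
    exact Rel.of_mul_eq_sq (one_mul _)
  · obtain ⟨y₃, h₃, hdbl⟩ := hW.add_self_of_y_ne_zero h20 h hy
    rw [hdbl, comp_some]
    have heq := hW.eqn h
    refine double_val v h₂ ht1 ht0 h2 heq hy ?_ hx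
    have : ((3 * x ^ 2 + 2 * W.a₂ * x + W.a₄) / (2 * y)) ^ 2 * (4 * y ^ 2) =
        (3 * x ^ 2 + 2 * W.a₂ * x + W.a₄) ^ 2 := by
      field_simp
      ring
    calc (((3 * x ^ 2 + 2 * W.a₂ * x + W.a₄) / (2 * y)) ^ 2 - W.a₂ - 2 * x) * (4 * y ^ 2)
        = ((3 * x ^ 2 + 2 * W.a₂ * x + W.a₄) / (2 * y)) ^ 2 * (4 * y ^ 2)
            - (W.a₂ + 2 * x) * (4 * y ^ 2) := by ring
      _ = (3 * x ^ 2 + 2 * W.a₂ * x + W.a₄) ^ 2 - (W.a₂ + 2 * x) * (4 * y ^ 2) := by rw [this]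
      _ = (x ^ 2 - W.a₄) ^ 2 := by linear_combination (-4 * W.a₂ - 8 * x) * heq

/-- The pair lemma at the level of points. -/
theorem comp_pair (hW : IsShort W) (h₂ : v W.a₂ = 1) (ht1 : v W.a₄ < 1) (ht0 : W.a₄ ≠ 0)
    (h2 : v (2 : K) = 1) {x₁ y₁ x₂ y₂ : K} (h₁ : W.Nonsingular x₁ y₁)
    (h₂' : W.Nonsingular x₂ y₂) (hx : v x₂ < 1) :
    PairRel (v W.a₄) (comp v W (Point.some x₁ y₁ h₁ + Point.some x₂ y₂ h₂'))
      (comp v W (Point.some x₁ y₁ h₁ - Point.some x₂ y₂ h₂'))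
      (comp v W (Point.some x₁ y₁ h₁)) (comp v W (Point.some x₂ y₂ h₂')) := by
  have hvt0 : v W.a₄ ≠ 0 := (Valuation.ne_zero_iff v).2 ht0
  by_cases hxx : x₁ = x₂
  · subst hxx
    have hc0 : clamp (v W.a₄) (v x₁) ≠ 0 := clamp_ne_zero hvt0
    have hy : y₁ = y₂ ∨ y₁ = -y₂ := by
      have e1 := hW.eqn h₁
      have e2 := hW.eqn h₂'
      have : (y₁ - y₂) * (y₁ + y₂) = 0 := by linear_combination e1 - e2
      rcases mul_eq_zero.1 this with h0 | h0
      · left; linear_combination h0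
      · right; linear_combination h0
    rcases hy with rfl | rfl
    · rw [sub_self, comp_zero, comp_some]
      exact Or.inl ⟨comp_double v hW h₂ ht1 ht0 h2 h₁ hx, Rel.of_eq (div_self hc0).symm⟩
    · have e : Point.some x₁ (-y₂) h₁ = -Point.some x₁ y₂ h₂' := by
        rw [hW.neg_some h₂']
      rw [e, neg_add_cancel, comp_zero, comp_neg v hW, comp_some]
      have e2 : -Point.some x₁ y₂ h₂' - Point.some x₁ y₂ h₂' =
          -(Point.some x₁ y₂ h₂' + Point.some x₁ y₂ h₂') := by abel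
      rw [e2, comp_neg v hW]
      exact Or.inr ⟨Rel.of_eq (div_self hc0).symm, comp_double v hW h₂ ht1 ht0 h2 h₂' hx⟩
  · obtain ⟨ya, ha, hadd⟩ := hW.add_of_X_ne h₁ h₂' hxx
    obtain ⟨ys, hs, hsub⟩ := hW.sub_of_X_ne h₁ h₂' hxx
    rw [hadd, hsub]
    simp only [comp_some]
    have e1 := hW.eqn h₁
    have e2 := hW.eqn h₂'
    have hne0 : x₁ - x₂ ≠ 0 := sub_ne_zero.2 hxx
    refine pair_val v h₂ ht1 ht0 h2 hxx ?_ ?_ (Or.inr hx)
    · field_simp
      linear_combination 2 * e1 + 2 * e2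
    · field_simp
      linear_combination (y₁ ^ 2 + (x₁ ^ 3 + W.a₂ * x₁ ^ 2 + W.a₄ * x₁) - 2 * y₂ ^ 2
          - 2 * ((W.a₂ + x₁ + x₂) * (x₁ - x₂) ^ 2)) * e1
        + (y₂ ^ 2 + (x₂ ^ 3 + W.a₂ * x₂ ^ 2 + W.a₄ * x₂)
          - 2 * (x₁ ^ 3 + W.a₂ * x₁ ^ 2 + W.a₄ * x₁)
          - 2 * ((W.a₂ + x₁ + x₂) * (x₁ - x₂) ^ 2)) * e2

end Fermat.Agent.S05
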