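import Mathlib
import Fermat.Agent.S05.Component

set_option autoImplicit false
set_option linter.unusedSectionVars false
set_option linter.unusedVariables false

namespace Fermat.Agent.S05

open WeierstrassCurve WeierstrassCurve.Affine

section relarith

variable {Γ₀ : Type*} [LinearOrderedCommGroupWithZero Γ₀]

/-- From `c_Q ~ c^(j+1)`: the pair `(c_Q * c, c_Q / c)` is related to `(c^(j+2), c^j)` in some
order. -/
lemma rel_mul_div {t c cQ : Γ₀} (hc : c ≠ 0) (j : ℕ) (h : Rel t cQ (c ^ (j + 1))) :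
    (Rel t (cQ * c) (c ^ (j + 2)) ∧ Rel t (cQ / c) (c ^ j)) ∨
      (Rel t (cQ * c) (c ^ j) ∧ Rel t (cQ / c) (c ^ (j + 2))) := by
  obtain ⟨k, l, h | h⟩ := h
  · left
    constructor
    · refine ⟨k, l, Or.inl ?_⟩
      calc cQ * c * t ^ (2 * k) = (cQ * t ^ (2 * k)) * c := by ac_rfl
        _ = (c ^ (j + 1) * t ^ (2 * l)) * c := by rw [h]
        _ = c ^ (j + 2) * t ^ (2 * l) := by rw [pow_succ c (j + 1)]; ac_rfl
    · refine ⟨k, l, Or.inl ?_⟩
      have : (cQ / c * t ^ (2 * k)) * c = (c ^ j * t ^ (2 * l)) * c := by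
        calc (cQ / c * t ^ (2 * k)) * c = (cQ / c * c) * t ^ (2 * k) := by ac_rfl
          _ = cQ * t ^ (2 * k) := by rw [div_mul_cancel₀ _ hc]
          _ = c ^ (j + 1) * t ^ (2 * l) := h
          _ = (c ^ j * t ^ (2 * l)) * c := by rw [pow_succ]; ac_rfl
      exact mul_right_cancel₀ hc this
  · right
    constructor
    · refine ⟨k, l, Or.inr ?_⟩
      calc cQ * c * c ^ j * t ^ (2 * k) = cQ * c ^ (j + 1) * t ^ (2 * k) := by
            rw [pow_succ]; ac_rfl
        _ = t ^ (2 * l) := h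
    · refine ⟨k, l, Or.inr ?_⟩
      calc cQ / c * c ^ (j + 2) * t ^ (2 * k)
          = (cQ / c * c) * c ^ (j + 1) * t ^ (2 * k) := by
            rw [pow_succ c (j + 1)]; ac_rfl
        _ = cQ * c ^ (j + 1) * t ^ (2 * k) := by rw [div_mul_cancel₀ _ hc]
        _ = t ^ (2 * l) := h

/-- The induction step for the component function. -/
lemma rel_step {t c cQ κ₁ κ₂ : Γ₀} (hc : c ≠ 0) (j : ℕ) (hQ : Rel t cQ (c ^ (j + 1)))
    (hpair : PairRel t κ₁ κ₂ cQ c) (hprev : Rel t κ₂ (c ^ j)) : Rel t κ₁ (c ^ (j + 2)) := by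
  rcases rel_mul_div hc j hQ with ⟨hm, hd⟩ | ⟨hm, hd⟩
  · rcases hpair with ⟨p1, p2⟩ | ⟨p1, p2⟩
    · exact p1.trans hm
    · exact (p1.trans hd).trans (hprev.symm.trans (p2.trans hm))
  · rcases hpair with ⟨p1, p2⟩ | ⟨p1, p2⟩
    · exact (p1.trans hm).trans (hprev.symm.trans (p2.trans hd))
    · exact p1.trans hd

/-- If `1 ~ c^(j+1)` then `c ~ c^(j+2)`. -/
lemma rel_of_one {t c : Γ₀} (j : ℕ) (h : Rel t 1 (c ^ (j + 1))) : Rel t c (c ^ (j + 2)) := by
  obtain ⟨k, l, h | h⟩ := h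
  · refine ⟨k, l, Or.inl ?_⟩
    calc c * t ^ (2 * k) = c * (1 * t ^ (2 * k)) := by rw [one_mul]
      _ = c * (c ^ (j + 1) * t ^ (2 * l)) := by rw [h]
      _ = c ^ (j + 2) * t ^ (2 * l) := by rw [pow_succ c (j + 1)]; ac_rfl
  · refine ⟨l, k, Or.inl ?_⟩
    calc c * t ^ (2 * l) = c * (1 * c ^ (j + 1) * t ^ (2 * k)) := by rw [h]
      _ = c ^ (j + 2) * t ^ (2 * k) := by rw [pow_succ c (j + 1), one_mul]; ac_rfl

/-- Extraction: if `1 ~ c^n` with `t ≤ c < 1`, then `c^n` is an even power of `t`. -/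
lemma rel_one_pow {t c : Γ₀} (ht0 : t ≠ 0) (ht1 : t < 1) (hc1 : c ≤ 1) (n : ℕ)
    (h : Rel t 1 (c ^ n)) : ∃ m : ℕ, c ^ n = t ^ (2 * m) := by
  have hcn : c ^ n ≤ 1 := pow_le_one₀ zero_le hc1
  have key : ∀ k l : ℕ, c ^ n * t ^ (2 * k) = t ^ (2 * l) → ∃ m : ℕ, c ^ n = t ^ (2 * m) := by
    intro k l h
    rcases le_total k l with hkl | hlk
    · obtain ⟨d, rfl⟩ := Nat.exists_eq_add_of_le hkl
      refine ⟨d, ?_⟩
      have : c ^ n * t ^ (2 * k) = t ^ (2 * d) * t ^ (2 * k) := by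
        rw [h, mul_add, pow_add, mul_comm]
      exact mul_right_cancel₀ (pow_ne_zero _ ht0) this
    · obtain ⟨d, rfl⟩ := Nat.exists_eq_add_of_le hlk
      rcases Nat.eq_zero_or_pos d with rfl | hd
      · refine ⟨0, ?_⟩
        have : c ^ n * t ^ (2 * l) = 1 * t ^ (2 * l) := by rw [one_mul]; exact h
        simpa using mul_right_cancel₀ (pow_ne_zero _ ht0) this
      · exfalso
        have e : (c ^ n * t ^ (2 * d)) * t ^ (2 * l) = 1 * t ^ (2 * l) := by
          calc (c ^ n * t ^ (2 * d)) * t ^ (2 * l) = c ^ n * t ^ (2 * (l + d)) := by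
                rw [mul_add, pow_add]; ac_rfl
            _ = t ^ (2 * l) := h
            _ = 1 * t ^ (2 * l) := (one_mul _).symm
        have e' := mul_right_cancel₀ (pow_ne_zero _ ht0) e
        have : c ^ n * t ^ (2 * d) < 1 := by
          calc c ^ n * t ^ (2 * d) ≤ 1 * t ^ (2 * d) := by gcongr
            _ = t ^ (2 * d) := one_mul _
            _ < 1 := pow_lt_one₀ zero_le ht1 (by omega)
        exact this.ne e'
  obtain ⟨k, l, h | h⟩ := h
  · rw [one_mul] at h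
    exact key l k h.symm
  · rw [one_mul] at h
    exact key k l h

end relarith

section induction

variable {K : Type*} [Field K] [DecidableEq K] {Γ₀ : Type*} [LinearOrderedCommGroupWithZero Γ₀]
  (v : Valuation K Γ₀) {W : WeierstrassCurve.Affine K}

/-- The component of `j • P` is related to the `j`-th power of the component of `P`. -/
theorem comp_nsmul (hW : IsShort W) (h₂ : v W.a₂ = 1) (ht1 : v W.a₄ < 1) (ht0 : W.a₄ ≠ 0)
    (h2 : v (2 : K) = 1) {x y : K} (h : W.Nonsingular x y) (hx : v x < 1) (j : ℕ) :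
    Rel (v W.a₄) (comp v W (j • Point.some x y h)) (clamp (v W.a₄) (v x) ^ j) := by
  have hvt0 : v W.a₄ ≠ 0 := (Valuation.ne_zero_iff v).2 ht0
  have hc0 : clamp (v W.a₄) (v x) ≠ 0 := clamp_ne_zero hvt0
  suffices H : ∀ j : ℕ,
      Rel (v W.a₄) (comp v W (j • Point.some x y h)) (clamp (v W.a₄) (v x) ^ j) ∧
      Rel (v W.a₄) (comp v W ((j + 1) • Point.some x y h)) (clamp (v W.a₄) (v x) ^ (j + 1)) from
    (H j).1
  intro j
  induction j with
  | zero =>
    refine ⟨?_, ?_⟩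
    · rw [zero_smul, comp_zero, pow_zero]; exact Rel.refl _ _
    · rw [zero_add, one_smul, comp_some, pow_one]; exact Rel.refl _ _
  | succ j ih =>
    refine ⟨ih.2, ?_⟩
    obtain ⟨ih0, ih1⟩ := ih
    have e1 : (j + 1 + 1) • Point.some x y h = (j + 1) • Point.some x y h + Point.some x y h :=
      succ_nsmul _ _
    have e0 : (j + 1) • Point.some x y h - Point.some x y h = j • Point.some x y h := by
      rw [succ_nsmul, add_sub_cancel_right]
    rw [e1]
    rcases hQ : (j + 1) • Point.some x y h with _ | ⟨x₁, y₁, h₁⟩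
    · -- (j+1) • P = 0
      rw [hQ] at ih1
      rw [show (Point.zero : W.Point) = 0 from rfl] at ih1 ⊢
      rw [zero_add, comp_some]
      rw [comp_zero] at ih1
      exact rel_of_one j ih1
    · rw [hQ] at ih1 e0
      have hpair := comp_pair v hW h₂ ht1 ht0 h2 h₁ h hx
      rw [e0] at hpair
      exact rel_step hc0 j ih1 hpair ih0

/-- (I): torsion points of odd order reducing to the node have `x`-valuation a rational multiple
of `v a₄`. -/
theorem node_torsion_val (hW : IsShort W) (h₂ : v W.a₂ = 1) (ht1 : v W.a₄ < 1) (ht0 : W.a₄ ≠ 0)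
    (h2 : v (2 : K) = 1) (n : ℕ) (hn : Odd n)
    {x y : K} (h : W.Nonsingular x y) (hx : v x < 1) (hP : n • Point.some x y h = 0) :
    v W.a₄ < v x ∧ ∃ k : ℕ, v x ^ n = v W.a₄ ^ (2 * k) := by
  have hvt0 : v W.a₄ ≠ 0 := (Valuation.ne_zero_iff v).2 ht0
  have htpos : 0 < v W.a₄ := zero_lt_iff.2 hvt0
  have hrel := comp_nsmul v hW h₂ ht1 ht0 h2 h hx n
  rw [hP, comp_zero] at hrel
  obtain ⟨m, hm⟩ := rel_one_pow hvt0 ht1 (clamp_le_one ht1.le) n hrel
  have hlt : v W.a₄ < v x := by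
    by_contra hcon
    rw [not_lt] at hcon
    rw [clamp_of_le ht1.le hcon] at hm
    have := (pow_right_injective₀ htpos ht1.ne) hm
    obtain ⟨r, hr⟩ := hn
    omega
  refine ⟨hlt, m, ?_⟩
  rw [clamp_of_mem hlt.le hx.le] at hm
  exact hm

end induction

end Fermat.Agent.S05
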