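import Mathlib
import Fermat.Agent.S05.ShortForm

set_option autoImplicit false
set_option linter.unusedSectionVars false
set_option linter.unusedVariables false

namespace Fermat.Agent.S05

open WeierstrassCurve WeierstrassCurve.Affine

variable {K : Type*} [Field K] [DecidableEq K] {Γ₀ : Type*} [LinearOrderedCommGroupWithZero Γ₀]
  (v : Valuation K Γ₀)

/-- If `1 < v ℓ` and `a₂, x, x'` are integral then `ℓ² - a₂ - x' - x` has valuation `> 1`. -/
lemma one_lt_val_addX {ℓ a x x' : K} (hℓ : 1 < v ℓ) (ha : v a ≤ 1) (hx : v x ≤ 1)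
    (hx' : v x' ≤ 1) : 1 < v (ℓ ^ 2 - a - x' - x) := by
  have h1 : 1 < v (ℓ ^ 2) := by
    rw [map_pow]
    exact one_lt_pow₀ hℓ (by norm_num)
  have h2 : v (a + x' + x) ≤ 1 := v.map_add_le (v.map_add_le ha hx') hx
  have h3 : ℓ ^ 2 - a - x' - x = ℓ ^ 2 - (a + x' + x) := by ring
  rw [h3, Valuation.map_sub_eq_of_lt_left v (lt_of_le_of_lt h2 h1)]
  exact h1

/-- F3 + F4: two distinct points with the same (scaled) nonsingular reduction differ by a point
of the kernel of reduction. -/
theorem sub_mem_kernel {W : WeierstrassCurve.Affine K} (hW : IsShort W)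
    (h₂ : v W.a₂ ≤ 1) (h₄ : v W.a₄ ≤ 1) (h2 : v (2 : K) = 1)
    {x y x' y' : K} (h : W.Nonsingular x y) (h' : W.Nonsingular x' y')
    (c : K) (hc : v c ≤ 1) (hc0 : c ≠ 0) (hx : v x ≤ v c) (hxx : v (x' - x) < v c)
    (hyy : v (y' - y) < v c)
    (hns : v y = v c ∨ v (3 * x ^ 2 + 2 * W.a₂ * x + W.a₄) = v c)
    (hne : Point.some x' y' h' ≠ Point.some x y h) :
    ∃ (x₃ y₃ : K) (h₃ : W.Nonsingular x₃ y₃),
      Point.some x' y' h' - Point.some x y h = Point.some x₃ y₃ h₃ ∧ 1 < v x₃ := by
  have h20 : (2 : K) ≠ 0 := by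
    intro h0
    rw [h0, map_zero] at h2
    exact zero_ne_one h2
  have hvc0 : v c ≠ 0 := (Valuation.ne_zero_iff v).2 hc0
  have hvcpos : 0 < v c := zero_lt_iff.2 hvc0
  have hx1 : v x ≤ 1 := hx.trans hc
  have hx'1 : v x' ≤ 1 := by
    have : x' = (x' - x) + x := by ring
    rw [this]
    exact v.map_add_le (hxx.le.trans hc) hx1
  by_cases hxeq : x' = x
  · -- same `x`-coordinate: then `y' = -y`
    subst hxeq
    have hy' : y' = y ∨ y' = -y := by
      have e1 := hW.eqn h
      have e2 := hW.eqn h'
      have : (y' - y) * (y' + y) = 0 := by linear_combination e2 - e1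
      rcases mul_eq_zero.1 this with h0 | h0
      · left; linear_combination h0
      · right; linear_combination h0
    rcases hy' with rfl | rfl
    · exact absurd rfl hne
    -- now the point is `-P`
    have hv2y : v (-y - y) = v y := by
      have : -y - y = -(2 * y) := by ring
      rw [this, Valuation.map_neg, map_mul, h2, one_mul]
    rw [hv2y] at hyy
    have hy0 : y ≠ 0 := by
      intro hy0
      apply hne
      subst hy0
      simp
    have hf : v (3 * x' ^ 2 + 2 * W.a₂ * x' + W.a₄) = v c := by
      rcases hns with h1 | h1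
      · exact absurd h1 hyy.ne
      · exact h1
    obtain ⟨y₃, h₃, hdbl⟩ := hW.add_self_of_y_ne_zero h20 h hy0
    refine ⟨_, -y₃, hW.nonsingular_neg h₃, ?_, ?_⟩
    · have e : Point.some x' (-y) h' = -Point.some x' y h := by
        rw [hW.neg_some h]
      rw [e, ← hW.neg_some h₃, ← hdbl]
      abel
    · have hℓ : 1 < v ((3 * x' ^ 2 + 2 * W.a₂ * x' + W.a₄) / (2 * y)) := by
        rw [map_div₀, map_mul, h2, one_mul, hf]
        rw [one_lt_div₀ (zero_lt_iff.2 ((Valuation.ne_zero_iff v).2 hy0))]
        exact hyy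
      have := one_lt_val_addX v hℓ h₂ hx1 hx1
      have e : ((3 * x' ^ 2 + 2 * W.a₂ * x' + W.a₄) / (2 * y)) ^ 2 - W.a₂ - 2 * x' =
          ((3 * x' ^ 2 + 2 * W.a₂ * x' + W.a₄) / (2 * y)) ^ 2 - W.a₂ - x' - x' := by ring
      rw [e]
      exact this
  · -- chord case
    obtain ⟨y₃, h₃, hsub⟩ := hW.sub_of_X_ne h' h hxeq
    refine ⟨_, y₃, h₃, hsub, ?_⟩
    have hxx0 : x' - x ≠ 0 := sub_ne_zero.2 hxeq
    have hℓ : 1 < v ((y' + y) / (x' - x)) := by
      by_cases hy1 : v y = v c
      · -- first alternative
        have : y' + y = 2 * y + (y' - y) := by ring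
        have hnum : v (y' + y) = v c := by
          rw [this, Valuation.map_add_eq_of_lt_left v]
          · rw [map_mul, h2, one_mul, hy1]
          · rw [map_mul, h2, one_mul, hy1]
            exact hyy
        rw [map_div₀, hnum, one_lt_div₀ (zero_lt_iff.2 ((Valuation.ne_zero_iff v).2 hxx0))]
        exact hxx
      · have hf : v (3 * x ^ 2 + 2 * W.a₂ * x + W.a₄) = v c := by
          rcases hns with h1 | h1
          · exact absurd h1 hy1
          · exact h1
        set g := x' ^ 2 + x' * x + x ^ 2 + W.a₂ * (x' + x) + W.a₄ with hg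
        have hgf : g = (3 * x ^ 2 + 2 * W.a₂ * x + W.a₄) + (x' - x) * (x' + 2 * x + W.a₂) := by
          rw [hg]; ring
        have hsmall : v ((x' - x) * (x' + 2 * x + W.a₂)) < v c := by
          rw [map_mul]
          have hb : v (x' + 2 * x + W.a₂) ≤ 1 := by
            refine v.map_add_le (v.map_add_le hx'1 ?_) h₂
            rw [map_mul, h2, one_mul]; exact hx1
          calc v (x' - x) * v (x' + 2 * x + W.a₂) ≤ v (x' - x) * 1 := by gcongr
            _ = v (x' - x) := mul_one _
            _ < v c := hxx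
        have hvg : v g = v c := by
          rw [hgf, Valuation.map_add_eq_of_lt_left v (by rw [hf]; exact hsmall), hf]
        have hg0 : g ≠ 0 := by
          intro h0
          rw [h0, map_zero] at hvg
          exact hvc0 hvg.symm
        have hprod : (y' + y) * (y' - y) = (x' - x) * g := by
          have e1 := hW.eqn h
          have e2 := hW.eqn h'
          rw [hg]
          linear_combination e2 - e1
        have hyy0 : y' - y ≠ 0 := by
          intro h0
          rw [h0, mul_zero] at hprod
          rcases mul_eq_zero.1 hprod.symm with h1 | h1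
          · exact hxx0 h1
          · exact hg0 h1
        have hℓeq : (y' + y) / (x' - x) = g / (y' - y) := by
          rw [div_eq_div_iff hxx0 hyy0]
          linear_combination hprod
        rw [hℓeq, map_div₀, hvg,
          one_lt_div₀ (zero_lt_iff.2 ((Valuation.ne_zero_iff v).2 hyy0))]
        exact hyy
    exact one_lt_val_addX v hℓ h₂ hx1 hx'1

end Fermat.Agent.S05
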