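import Mathlib
import Fermat.Agent.S05.ShortForm
import Fermat.Agent.S05.Reduction
import Fermat.Agent.S05.NodeTorsion

set_option autoImplicit false
set_option linter.unusedSectionVars false
set_option linter.unusedVariables false

namespace Fermat.Agent.S05

open WeierstrassCurve WeierstrassCurve.Affine

variable {K : Type*} [Field K] [DecidableEq K] {Γ₀ : Type*} [LinearOrderedCommGroupWithZero Γ₀]
  (v : Valuation K Γ₀)

/-- The statement of F1: the kernel of reduction has no `n`-torsion. -/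
def KernelNoTorsion (v : Valuation K Γ₀) (W : WeierstrassCurve.Affine K) (n : ℕ) : Prop :=
  ∀ (x y : K) (h : W.Nonsingular x y), 1 < v x → n • Point.some x y h ≠ 0

/-- `v (A * B + C * (A + B)) = 1` if `A, B` are units and `C` is a non-unit. -/
lemma val_deriv_aux {A B C : K} (hA : v A = 1) (hB : v B = 1) (hC : v C < 1) :
    v (A * B + C * (A + B)) = 1 := by
  have h1 : v (A * B) = 1 := by rw [map_mul, hA, hB, one_mul]
  have h2 : v (C * (A + B)) < 1 := by
    rw [map_mul]
    have : v (A + B) ≤ 1 := v.map_add_le hA.le hB.le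
    calc v C * v (A + B) ≤ v C * 1 := by gcongr
      _ = v C := mul_one _
      _ < 1 := hC
  rw [Valuation.map_add_eq_of_lt_left v (by rw [h1]; exact h2), h1]

/-- Nonsingularity of the reduction away from the node. -/
lemma val_nonsing {x y r₂ r₃ : K} (hx : v x ≤ 1) (hr₂ : v r₂ ≤ 1) (hr₃ : v r₃ = 1)
    (hr₂₃ : v (r₂ - r₃) = 1) (hnode : ¬(v x < 1 ∧ v r₂ < 1))
    (heq : y ^ 2 = x * (x - r₂) * (x - r₃)) :
    v y = 1 ∨ v (3 * x ^ 2 + 2 * (-(r₂ + r₃)) * x + r₂ * r₃) = 1 := by
  have hB1 : v (x - r₂) ≤ 1 := v.map_sub_le hx hr₂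
  have hC1 : v (x - r₃) ≤ 1 := v.map_sub_le hx hr₃.le
  have hy1 : v y ≤ 1 := by
    have : v y ^ 2 ≤ 1 := by
      rw [← map_pow, heq, map_mul, map_mul]
      calc v x * v (x - r₂) * v (x - r₃) ≤ 1 * 1 * 1 := by gcongr
        _ = 1 := by simp
    by_contra hcon
    rw [not_le] at hcon
    exact absurd this (not_le.2 (one_lt_pow₀ hcon (by norm_num)))
  rcases eq_or_lt_of_le hy1 with hy | hy
  · exact Or.inl hy
  right
  have hprod : v x * v (x - r₂) * v (x - r₃) < 1 := by
    have : v y ^ 2 < 1 := pow_lt_one₀ zero_le hy (by norm_num)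
    rwa [← map_pow, heq, map_mul, map_mul] at this
  have e1 : 3 * x ^ 2 + 2 * (-(r₂ + r₃)) * x + r₂ * r₃ =
      (x - r₂) * (x - r₃) + x * ((x - r₂) + (x - r₃)) := by ring
  have e2 : 3 * x ^ 2 + 2 * (-(r₂ + r₃)) * x + r₂ * r₃ =
      x * (x - r₃) + (x - r₂) * (x + (x - r₃)) := by ring
  have e3 : 3 * x ^ 2 + 2 * (-(r₂ + r₃)) * x + r₂ * r₃ =
      x * (x - r₂) + (x - r₃) * (x + (x - r₂)) := by ring
  rcases eq_or_lt_of_le hx with hxu | hxl
  · -- x is a unit
    rcases eq_or_lt_of_le hB1 with hBu | hBl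
    · -- x - r₂ unit, so x - r₃ is a non-unit
      have hCl : v (x - r₃) < 1 := by
        by_contra hcon
        have hCu : v (x - r₃) = 1 := le_antisymm hC1 (not_lt.1 hcon)
        rw [hxu, hBu, hCu] at hprod
        simp at hprod
      rw [e3]
      exact val_deriv_aux v hxu hBu hCl
    · -- x - r₂ non-unit: then x - r₃ is a unit
      have hCu : v (x - r₃) = 1 := by
        have : x - r₃ = (x - r₂) + (r₂ - r₃) := by ring
        rw [this, Valuation.map_add_eq_of_lt_right v (by rw [hr₂₃]; exact hBl), hr₂₃]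
      rw [e2]
      exact val_deriv_aux v hxu hCu hBl
  · -- x is a non-unit: then r₂ is a unit
    have hr₂u : v r₂ = 1 := by
      by_contra hcon
      exact hnode ⟨hxl, lt_of_le_of_ne hr₂ hcon⟩
    have hBu : v (x - r₂) = 1 := by
      rw [Valuation.map_sub_eq_of_lt_right v (by rw [hr₂u]; exact hxl), hr₂u]
    have hCu : v (x - r₃) = 1 := by
      rw [Valuation.map_sub_eq_of_lt_right v (by rw [hr₃]; exact hxl), hr₃]
    rw [e1]
    exact val_deriv_aux v hBu hCu hxl

/-- Theorem (S), assuming F1. -/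
theorem short_main_of (σ : K →+* K)
    (hσ : ∀ a : K, v a ≤ 1 → v (σ a - a) < 1)
    (h2 : v (2 : K) = 1)
    (W : WeierstrassCurve.Affine K) (h₁ : W.a₁ = 0) (h₃ : W.a₃ = 0) (h₆ : W.a₆ = 0)
    (r₂ r₃ : K) (ha₂ : W.a₂ = -(r₂ + r₃)) (ha₄ : W.a₄ = r₂ * r₃)
    (hr₂ : v r₂ ≤ 1) (hr₂0 : r₂ ≠ 0) (hr₃ : v r₃ = 1) (hr₂₃ : v (r₂ - r₃) = 1)
    (π : K) (hπσ : σ π = π) (hπ0 : π ≠ 0)
    (n m : ℕ) (hn : Odd n) (hvn : v (n : K) = 1) (hr₂π : v r₂ = v π ^ (n * m))
    (hF1 : KernelNoTorsion v W n)
    {x y : K} (h : W.Nonsingular x y) (h' : W.Nonsingular (σ x) (σ y))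
    (hP : n • Point.some x y h = 0) (hQ : n • Point.some (σ x) (σ y) h' = 0) :
    σ x = x ∧ σ y = y := by
  have hW : IsShort W := ⟨h₁, h₃, h₆⟩
  by_contra hcon
  have hne : Point.some (σ x) (σ y) h' ≠ Point.some x y h := by
    intro he
    rw [Point.some.injEq] at he
    exact hcon he
  have hva₂ : v W.a₂ ≤ 1 := by
    rw [ha₂, Valuation.map_neg]
    exact v.map_add_le hr₂ hr₃.le
  have hva₄ : v W.a₄ ≤ 1 := by
    rw [ha₄, map_mul, hr₃, mul_one]
    exact hr₂
  have hn0 : n ≠ 0 := by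
    rintro rfl
    exact absurd hn (by decide)
  -- in every case the difference lies in the kernel of reduction
  have hkey : ∃ (x₃ y₃ : K) (h₃ : W.Nonsingular x₃ y₃),
      Point.some (σ x) (σ y) h' - Point.some x y h = Point.some x₃ y₃ h₃ ∧ 1 < v x₃ := by
    rcases lt_or_ge 1 (v x) with hx | hx
    · exact absurd hP (hF1 x y h hx)
    have heq := hW.eqn h
    have heq' : y ^ 2 = x * (x - r₂) * (x - r₃) := by
      rw [heq, ha₂, ha₄]; ring
    have hy1 : v y ≤ 1 := by
      have : v y ^ 2 ≤ 1 := by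
        rw [← map_pow, heq', map_mul, map_mul]
        have hB1 : v (x - r₂) ≤ 1 := v.map_sub_le hx hr₂
        have hC1 : v (x - r₃) ≤ 1 := v.map_sub_le hx hr₃.le
        calc v x * v (x - r₂) * v (x - r₃) ≤ 1 * 1 * 1 := by gcongr
          _ = 1 := by simp
      by_contra hcon
      rw [not_le] at hcon
      exact absurd this (not_le.2 (one_lt_pow₀ hcon (by norm_num)))
    by_cases hnode : v x < 1 ∧ v r₂ < 1
    · -- node case
      obtain ⟨hxl, hr₂l⟩ := hnode
      have hva₂' : v W.a₂ = 1 := by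
        rw [ha₂, Valuation.map_neg, Valuation.map_add_eq_of_lt_right v (by rw [hr₃]; exact hr₂l),
          hr₃]
      have hva₄' : v W.a₄ = v r₂ := by rw [ha₄, map_mul, hr₃, mul_one]
      have ha₄0 : W.a₄ ≠ 0 := by
        rw [ha₄]
        refine mul_ne_zero hr₂0 ?_
        intro h0
        rw [h0, map_zero] at hr₃
        exact zero_ne_one hr₃
      obtain ⟨hlt, k, hk⟩ := node_torsion_val v hW hva₂' (by rw [hva₄']; exact hr₂l) ha₄0 h2 n hn
        h hxl hP
      rw [hva₄'] at hlt hk
      -- v x = v (π ^ (2 * k * m))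
      set c : K := π ^ (2 * k * m) with hc
      have hvc : v x = v c := by
        have : v x ^ n = v c ^ n := by
          rw [hk, hr₂π, hc, map_pow, ← pow_mul, ← pow_mul]
          congr 1
          ring
        exact (pow_left_inj hn0).mp this
      have hc0 : c ≠ 0 := pow_ne_zero _ hπ0
      have hσc : σ c = c := by rw [hc, map_pow, hπσ]
      have hvc0 : v c ≠ 0 := (Valuation.ne_zero_iff v).2 hc0
      have hvcpos : 0 < v c := zero_lt_iff.2 hvc0
      have hvy : v y = v c := by
        have : v y ^ 2 = v c ^ 2 := by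
          rw [← map_pow, heq', map_mul, map_mul]
          rw [Valuation.map_sub_eq_of_lt_left v hlt,
            Valuation.map_sub_eq_of_lt_right v (by rw [hr₃]; exact hxl), hr₃, mul_one, hvc,
            pow_two]
        exact (pow_left_inj (by norm_num)).mp this
      -- scaled inertia estimates
      have hscale : ∀ z : K, v z = v c → v (σ z - z) < v c := by
        intro z hz
        have hu : v (z / c) ≤ 1 := by
          rw [map_div₀, hz, div_self hvc0]
        have := hσ (z / c) hu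
        have e : σ z - z = c * (σ (z / c) - z / c) := by
          rw [map_div₀, hσc]
          field_simp
        rw [e, map_mul]
        calc v c * v (σ (z / c) - z / c) < v c * 1 := mul_lt_mul_of_pos_left this hvcpos
          _ = v c := mul_one _
      exact sub_mem_kernel v hW hva₂ hva₄ h2 h h' c (hvc ▸ hxl.le) hc0 hvc.le (hscale x hvc)
        (hscale y hvy) (Or.inl hvy) hne
    · -- nonsingular reduction
      have hns := val_nonsing v hx hr₂ hr₃ hr₂₃ hnode heq'
      rw [← ha₂, ← ha₄] at hns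
      refine sub_mem_kernel v hW hva₂ hva₄ h2 h h' 1 (by simp) one_ne_zero (by simpa using hx)
        (by simpa using hσ x hx) (by simpa using hσ y hy1) (by simpa using hns) hne
  obtain ⟨x₃, y₃, h₃', hsub, hx₃⟩ := hkey
  apply hF1 x₃ y₃ h₃' hx₃
  rw [← hsub, smul_sub, hP, hQ, sub_zero]

end Fermat.Agent.S05
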