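import Mathlib
import Fermat.Agent.S05.Short
import Fermat.Agent.S05.KernelReduction

set_option autoImplicit false
set_option linter.unusedSectionVars false
set_option linter.unusedVariables false

namespace Fermat.Agent.S05

open WeierstrassCurve WeierstrassCurve.Affine

variable {K : Type*} [Field K] [DecidableEq K] {Γ₀ : Type*} [LinearOrderedCommGroupWithZero Γ₀]
  (v : Valuation K Γ₀)

/-- F1 in the form used by `short_main_of`. -/
theorem kernel_no_torsion (W : WeierstrassCurve.Affine K) (h₁ : W.a₁ = 0) (h₃ : W.a₃ = 0)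
    (h₆ : W.a₆ = 0) (h₂ : v W.a₂ ≤ 1) (h₄ : v W.a₄ ≤ 1) (n : ℕ) (hn : v (n : K) = 1) :
    KernelNoTorsion v W n := by
  intro x y h hx
  exact KR.nsmul_ne_zero_of_one_lt_val
    ⟨by rw [h₁, map_zero]; exact zero_le_one, h₂, by rw [h₃, map_zero]; exact zero_le_one, h₄,
      by rw [h₆, map_zero]; exact zero_le_one⟩ hn h hx

/-- Theorem (S): on the short model `y² = x (x - r₂) (x - r₃)` with `r₃` and `r₂ - r₃` units and
`v r₂ = v π ^ (n * m)`, an endomorphism `σ` of `K` which is trivial on the residue field and fixes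
`π` fixes every `n`-torsion point whose conjugate is also `n`-torsion (`n` odd, `v n = 1`). -/
theorem short_main (σ : K →+* K)
    (hσ : ∀ a : K, v a ≤ 1 → v (σ a - a) < 1)
    (h2 : v (2 : K) = 1)
    (W : WeierstrassCurve.Affine K) (h₁ : W.a₁ = 0) (h₃ : W.a₃ = 0) (h₆ : W.a₆ = 0)
    (r₂ r₃ : K) (ha₂ : W.a₂ = -(r₂ + r₃)) (ha₄ : W.a₄ = r₂ * r₃)
    (hr₂ : v r₂ ≤ 1) (hr₂0 : r₂ ≠ 0) (hr₃ : v r₃ = 1) (hr₂₃ : v (r₂ - r₃) = 1)
    (π : K) (hπσ : σ π = π) (hπ0 : π ≠ 0)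
    (n m : ℕ) (hn : Odd n) (hvn : v (n : K) = 1) (hr₂π : v r₂ = v π ^ (n * m))
    {x y : K} (h : W.Nonsingular x y) (h' : W.Nonsingular (σ x) (σ y))
    (hP : n • Point.some x y h = 0) (hQ : n • Point.some (σ x) (σ y) h' = 0) :
    σ x = x ∧ σ y = y := by
  have hva₂ : v W.a₂ ≤ 1 := by
    rw [ha₂, Valuation.map_neg]
    exact v.map_add_le hr₂ hr₃.le
  have hva₄ : v W.a₄ ≤ 1 := by
    rw [ha₄, map_mul, hr₃, mul_one]
    exact hr₂
  exact short_main_of v σ hσ h2 W h₁ h₃ h₆ r₂ r₃ ha₂ ha₄ hr₂ hr₂0 hr₃ hr₂₃ π hπσ hπ0 n m hn hvn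
    hr₂π (kernel_no_torsion v W h₁ h₃ h₆ hva₂ hva₄ n hvn) h h' hP hQ

end Fermat.Agent.S05
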